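import Fermat.Agent.Corollaries.Diff.NarrowKum

/-!
# The narrow class group

* `totPos K`: the totally positive elements of `Kˣ`;
* `NarrowClassGroup K`: the invertible fractional ideals modulo the principal ideals with a totally
  positive generator, with the map `toClass` onto the class group;
* `finite_narrowClassGroup`;
* `ent χ`: a quadratic character `χ` of the narrow class group as a function on the places, and
  `exists_nchar` conversely.
-/

set_option autoImplicit false

noncomputable section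

namespace Fermat.Agent.Cor.Diff

open NumberField IsDedekindDomain
open Fermat.Agent.CFT.SUnits (ord div div_apply idealOf idealOf_add idealOf_zero idealOf_div
  idealOf_injective idealOf_surjective classOf classOf_eq_one_iff)
open Fermat.Agent.LT (IsRay rayVal divVal divVal_single rayVal_apply)
open scoped nonZeroDivisors

section Defs

universe u

variable (K : Type u) [Field K] [NumberField K]

/-- the group of the totally positive elements -/
def totPos : Subgroup Kˣ where
  carrier := {x | ∀ σ : K →+* ℝ, 0 < σ x}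
  one_mem' σ := by rw [Units.val_one, map_one]; exact one_pos
  mul_mem' {x y} hx hy σ := by
    rw [Units.val_mul, map_mul]
    exact mul_pos (hx σ) (hy σ)
  inv_mem' {x} hx σ := by
    rw [Units.val_inv_eq_inv_val, map_inv₀]
    exact inv_pos.mpr (hx σ)

/-- **The narrow class group**: the invertible fractional ideals modulo the principal fractional
ideals which have a totally positive generator. -/
def NarrowClassGroup : Type u :=
  (FractionalIdeal (𝓞 K)⁰ K)ˣ ⧸ (totPos K).map (toPrincipalIdeal (𝓞 K) K)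

instance : CommGroup (NarrowClassGroup K) :=
  inferInstanceAs (CommGroup ((FractionalIdeal (𝓞 K)⁰ K)ˣ ⧸
    (totPos K).map (toPrincipalIdeal (𝓞 K) K)))

variable {K}

omit [NumberField K] in
theorem mem_totPos {x : Kˣ} : x ∈ totPos K ↔ ∀ σ : K →+* ℝ, 0 < σ x := Iff.rfl

variable (K) in
/-- the narrow class of an invertible fractional ideal -/
def nmk : (FractionalIdeal (𝓞 K)⁰ K)ˣ →* NarrowClassGroup K :=
  QuotientGroup.mk' ((totPos K).map (toPrincipalIdeal (𝓞 K) K))

theorem nmk_surjective : Function.Surjective (nmk K) := QuotientGroup.mk'_surjective _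

theorem nmk_eq_one_iff (I : (FractionalIdeal (𝓞 K)⁰ K)ˣ) :
    nmk K I = 1 ↔ ∃ x ∈ totPos K, toPrincipalIdeal (𝓞 K) K x = I :=
  (QuotientGroup.eq_one_iff (N := (totPos K).map (toPrincipalIdeal (𝓞 K) K)) I).trans
    Subgroup.mem_map

/-- the narrow class of a prime ideal -/
def ncls (v : HeightOneSpectrum (𝓞 K)) : NarrowClassGroup K :=
  nmk K (FractionalIdeal.mk0 K ⟨v.asIdeal, mem_nonZeroDivisors_of_ne_zero v.ne_bot⟩)

theorem mk_toPrincipalIdeal (x : Kˣ) : ClassGroup.mk K (toPrincipalIdeal (𝓞 K) K x) = 1 := by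
  rw [← idealOf_div]
  exact (classOf_eq_one_iff (Multiplicative.ofAdd (div x))).mpr ⟨x, rfl⟩

variable (K) in
/-- the map of the narrow class group onto the class group -/
def toClass : NarrowClassGroup K →* ClassGroup (𝓞 K) :=
  QuotientGroup.lift _ (ClassGroup.mk K) (by
    rintro _ ⟨x, -, rfl⟩
    exact mk_toPrincipalIdeal x)

theorem toClass_nmk (I : (FractionalIdeal (𝓞 K)⁰ K)ˣ) : toClass K (nmk K I) = ClassGroup.mk K I :=
  rfl

theorem toClass_surjective : Function.Surjective (toClass K) := by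
  intro c
  refine ClassGroup.induction K (fun I => ?_) c
  exact ⟨nmk K I, toClass_nmk I⟩

theorem toClass_ncls (v : HeightOneSpectrum (𝓞 K)) : toClass K (ncls v) = cls v := by
  rw [ncls, toClass_nmk, ClassGroup.mk_mk0]
  rfl

/-- the narrow class of a divisor -/
def nclassOf : Multiplicative (HeightOneSpectrum (𝓞 K) →₀ ℤ) →* NarrowClassGroup K where
  toFun D := nmk K (idealOf K D.toAdd)
  map_one' := by
    rw [toAdd_one, idealOf_zero, map_one]
  map_mul' D E := by
    rw [toAdd_mul, idealOf_add, map_mul]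

theorem nclassOf_surjective : Function.Surjective (nclassOf (K := K)) := by
  intro c
  obtain ⟨I, rfl⟩ := nmk_surjective c
  obtain ⟨D, rfl⟩ := idealOf_surjective (R := 𝓞 K) (K := K) I
  exact ⟨Multiplicative.ofAdd D, rfl⟩

theorem nclassOf_eq_one_iff (D : Multiplicative (HeightOneSpectrum (𝓞 K) →₀ ℤ)) :
    nclassOf D = 1 ↔ ∃ x ∈ totPos K, div x = D.toAdd := by
  change nmk K (idealOf K D.toAdd) = 1 ↔ _
  rw [nmk_eq_one_iff]
  refine exists_congr fun x => and_congr_right fun _ => ?_
  rw [← idealOf_div]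
  exact ⟨fun h => idealOf_injective K h, fun h => by rw [h]⟩

theorem nclassOf_single (v : HeightOneSpectrum (𝓞 K)) (m : ℤ) :
    nclassOf (Multiplicative.ofAdd (Finsupp.single v m)) = ncls v ^ m := by
  change nmk K (idealOf K (Finsupp.single v m)) = _
  rw [idealOf, Finsupp.prod_single_index (zpow_zero _), map_zpow]
  congr 1

/-! ### Finiteness -/

/-- the narrow class of a principal ideal -/
def ncl0 : Kˣ →* NarrowClassGroup K := (nmk K).comp (toPrincipalIdeal (𝓞 K) K)

theorem ncl0_eq_one {x : Kˣ} (hx : x ∈ totPos K) : ncl0 x = 1 :=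
  (nmk_eq_one_iff _).mpr ⟨x, hx, rfl⟩

theorem ker_toClass_le : (toClass K).ker ≤ (ncl0 (K := K)).range := by
  intro c hc
  obtain ⟨D, rfl⟩ := nclassOf_surjective c
  have h1 : classOf D = 1 := hc
  obtain ⟨x, hx⟩ := (classOf_eq_one_iff D).mp h1
  refine ⟨x, ?_⟩
  change nmk K (toPrincipalIdeal (𝓞 K) K x) = nmk K (idealOf K D.toAdd)
  rw [← idealOf_div, hx]

theorem finiteIndex_totPos : (totPos K).FiniteIndex := by
  have h : totPos K = HM.posR Finset.univ := by
    ext x
    rw [mem_totPos, HM.mem_posR]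
    exact ⟨fun h σ _ => HM.sg_eq_zero_iff.mpr (h σ), fun h σ =>
      HM.sg_eq_zero_iff.mp (h σ (Finset.mem_univ σ))⟩
  rw [h]
  exact ⟨(HM.index_posR _).1⟩

instance finite_narrowClassGroup : Finite (NarrowClassGroup K) := by
  have := finiteIndex_totPos (K := K)
  let f : Kˣ ⧸ totPos K →* NarrowClassGroup K :=
    QuotientGroup.lift _ ncl0 fun x hx => ncl0_eq_one hx
  have hf : (toClass K).ker ≤ f.range := by
    intro c hc
    obtain ⟨x, rfl⟩ := ker_toClass_le hc
    exact ⟨(x : Kˣ ⧸ totPos K), rfl⟩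
  have : Fintype (Kˣ ⧸ totPos K) := Fintype.ofFinite _
  exact @Finite.of_fintype _ (Group.fintypeOfKerLeRange f (toClass K) hf)

/-! ### Quadratic characters -/

/-- a quadratic character of the narrow class group as a function on the places -/
def ent (χ : NarrowClassGroup K →* ℤˣ) (v : HeightOneSpectrum (𝓞 K)) : ZMod 2 :=
  (sg (χ (ncls v))).toAdd

theorem ent_eq_zero_iff (χ : NarrowClassGroup K →* ℤˣ) (v : HeightOneSpectrum (𝓞 K)) :
    ent χ v = 0 ↔ χ (ncls v) = 1 := sg_eq_one_iff _

theorem ent_mul (χ ψ : NarrowClassGroup K →* ℤˣ) (v : HeightOneSpectrum (𝓞 K)) :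
    ent (χ * ψ) v = ent χ v + ent ψ v := by
  rw [ent, MonoidHom.mul_apply, map_mul, toAdd_mul, ent, ent]

theorem ofAdd_divVal_ent (χ : NarrowClassGroup K →* ℤˣ) (D : HeightOneSpectrum (𝓞 K) →₀ ℤ) :
    Multiplicative.ofAdd (divVal ∅ (ent χ) D) = sg (χ (nclassOf (Multiplicative.ofAdd D))) := by
  induction D using Finsupp.induction_linear with
  | zero =>
    rw [map_zero, ofAdd_zero, ofAdd_zero, map_one, map_one, map_one]
  | add D E hD hE =>
    rw [map_add, ofAdd_add, hD, hE, ofAdd_add, map_mul, map_mul, map_mul]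
  | single v m =>
    rw [divVal_single ∅ (ent χ) (Finset.notMem_empty v) m, nclassOf_single, map_zpow, map_zpow,
      ofAdd_zsmul]
    rfl

theorem isRayP_ent (χ : NarrowClassGroup K →* ℤˣ) : IsRayP ∅ 0 (ent χ) := by
  intro x hx _
  have h : nclassOf (Multiplicative.ofAdd (div (R := 𝓞 K) x)) = 1 :=
    (nclassOf_eq_one_iff _).mpr ⟨x, hx, rfl⟩
  rw [rayVal_apply, ofAdd_divVal_ent, h, map_one, map_one]

theorem nchar_ext {χ ψ : NarrowClassGroup K →* ℤˣ} (h : ∀ v, χ (ncls v) = ψ (ncls v)) :
    χ = ψ := by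
  have h1 : ent χ = ent ψ := funext fun v => by rw [ent, ent, h v]
  ext c
  obtain ⟨D, rfl⟩ := nclassOf_surjective c
  have h2 := ofAdd_divVal_ent χ D.toAdd
  rw [h1, ofAdd_divVal_ent ψ D.toAdd] at h2
  have h3 : Function.Injective sg := (injective_iff_map_eq_one sg).mpr fun u hu =>
    (sg_eq_one_iff u).mp hu
  exact congrArg _ (h3 h2.symm)

/-- A function on the places with values in `ℤ/2` which kills the divisors of the totally positive
elements is a character of the narrow class group. -/
theorem exists_nchar {η : HeightOneSpectrum (𝓞 K) → ZMod 2} (hη : IsRayP ∅ 0 η) :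
    ∃ χ : NarrowClassGroup K →* ℤˣ, ∀ v, ent χ v = η v := by
  classical
  let g : Multiplicative (ZMod 2) →* ℤˣ :=
    { toFun := fun z => if z = 1 then 1 else -1
      map_one' := rfl
      map_mul' := by decide }
  let ψ : Multiplicative (HeightOneSpectrum (𝓞 K) →₀ ℤ) →* ℤˣ :=
    g.comp (AddMonoidHom.toMultiplicative (divVal ∅ η))
  have hker : (nclassOf (K := K)).ker ≤ ψ.ker := by
    intro D hD
    rw [MonoidHom.mem_ker] at hD ⊢
    obtain ⟨x, hx0, hx⟩ := (nclassOf_eq_one_iff D).mp hD
    have h1 := hη x hx0 (fun v hv => absurd hv (Finset.notMem_empty v))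
    rw [rayVal_apply, hx] at h1
    change g (Multiplicative.ofAdd (divVal ∅ η D.toAdd)) = 1
    rw [h1, map_one]
  let χ : NarrowClassGroup K →* ℤˣ :=
    (nclassOf (K := K)).liftOfSurjective nclassOf_surjective ⟨ψ, hker⟩
  have hχ : ∀ D, χ (nclassOf D) = ψ D := fun D =>
    MonoidHom.liftOfRightInverse_comp_apply (nclassOf (K := K)) _ _ ⟨ψ, hker⟩ D
  refine ⟨χ, fun v => ?_⟩
  have h2 : χ (ncls v) = g (Multiplicative.ofAdd (η v)) := by
    have h3 := nclassOf_single v 1
    rw [zpow_one] at h3
    rw [← h3, hχ]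
    change g (Multiplicative.ofAdd (divVal ∅ η (Finsupp.single v 1))) = _
    rw [divVal_single ∅ η (Finset.notMem_empty v), one_smul]
  rw [ent, h2]
  have h4 : ∀ z : ZMod 2, (sg (g (Multiplicative.ofAdd z))).toAdd = z := by
    decide
  exact h4 (η v)

theorem ent_comp_toClass (ψ : ClassGroup (𝓞 K) →* ℤˣ) (v : HeightOneSpectrum (𝓞 K)) :
    ent (ψ.comp (toClass K)) v = et ψ v := by
  rw [ent, MonoidHom.comp_apply, toClass_ncls]
  rfl

end Defs

end Fermat.Agent.Cor.Diff

end
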