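import Fermat.Agent.Corollaries.Diff.Split
import Mathlib.RingTheory.ClassGroup.ExtendedHom

/-!
# Consequences of Hecke's theorem on the class of the different

All statements are conditional on `IsSquare (diffClass K)`, which is proved in `Diff/Final.lean`:
`exists_isPrincipal` (`𝔡 𝔞²` is principal for some `𝔞`), `exists_unimodular` (a fractional ideal on
which `Tr(a x y)` is a unimodular form), `isSquare_relDiffClass_of` (relative different),
`XiF_one_sub_of_quadratic`, `even_order_of_quadratic` (the sign of the functional equation of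
`L(s, χ)`, `χ` quadratic, is `1`, and the order of vanishing at `1/2` is even).
-/

set_option autoImplicit false

noncomputable section

namespace Fermat.Agent.Cor.Diff

open NumberField Filter Topology Fermat.Agent.Classic.Zeta
open scoped nonZeroDivisors

universe u v

section Ideals

variable {K : Type u} [Field K] [NumberField K]

/-- **Hecke's theorem**, in terms of ideals: `𝔡 𝔞²` is principal for some non-zero ideal `𝔞`. -/
theorem exists_isPrincipal (h : IsSquare (diffClass K)) :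
    ∃ 𝔞 : Ideal (𝓞 K), 𝔞 ≠ ⊥ ∧ (differentIdeal ℤ (𝓞 K) * 𝔞 ^ 2).IsPrincipal := by
  obtain ⟨C, hC⟩ := h
  obtain ⟨I, hI⟩ := ClassGroup.mk0_surjective C⁻¹
  refine ⟨I, nonZeroDivisors.coe_ne_zero I, ?_⟩
  have h0 : ClassGroup.mk0 (diffIdeal K) = C * C := hC
  have h1 : ClassGroup.mk0 (diffIdeal K * I ^ 2) = 1 := by
    rw [map_mul, map_pow, hI, h0, inv_pow, ← sq, mul_inv_cancel]
  have h2 : ((diffIdeal K * I ^ 2 : (Ideal (𝓞 K))⁰) : Ideal (𝓞 K)) =
      differentIdeal ℤ (𝓞 K) * (I : Ideal (𝓞 K)) ^ 2 := by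
    rw [Submonoid.coe_mul, SubmonoidClass.coe_pow]
    rfl
  rw [← h2]
  exact (ClassGroup.mk0_eq_one_iff (diffIdeal K * I ^ 2).2).mp h1

/-- **Unimodular trace forms.**  There is a fractional ideal `I` and `a ∈ Kˣ` such that `I` is its
own dual for the form `(x, y) ↦ Tr(a x y)`. -/
theorem exists_unimodular (h : IsSquare (diffClass K)) :
    ∃ (I : FractionalIdeal (𝓞 K)⁰ K) (a : K), I ≠ 0 ∧ a ≠ 0 ∧
      ∀ x : K, x ∈ I ↔ ∀ y ∈ I, Algebra.trace ℚ K (a * x * y) ∈ (algebraMap ℤ ℚ).range := by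
  obtain ⟨𝔞, h𝔞, α, hα⟩ := exists_isPrincipal h
  have h𝔞' : (𝔞 : FractionalIdeal (𝓞 K)⁰ K) ≠ 0 := by
    rw [Ne, FractionalIdeal.coeIdeal_eq_zero]
    exact h𝔞
  have hα0 : α ≠ 0 := by
    rintro rfl
    have h1 : differentIdeal ℤ (𝓞 K) * 𝔞 ^ 2 = 0 := by
      rw [hα]
      simp
    rcases mul_eq_zero.mp h1 with h2 | h2
    · exact differentIdeal_ne_bot h2
    · exact h𝔞 (pow_eq_zero_iff two_ne_zero |>.mp h2)
  have hα' : (algebraMap (𝓞 K) K α) ≠ 0 := by
    rwa [Ne, FaithfulSMul.algebraMap_eq_zero_iff]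
  set d : FractionalIdeal (𝓞 K)⁰ K := (differentIdeal ℤ (𝓞 K) : FractionalIdeal (𝓞 K)⁰ K) with hd
  have hd0 : d ≠ 0 := by
    rw [hd, Ne, FractionalIdeal.coeIdeal_eq_zero]
    exact differentIdeal_ne_bot
  have hdual : FractionalIdeal.dual ℤ ℚ (1 : FractionalIdeal (𝓞 K)⁰ K) = d⁻¹ := by
    rw [hd, coeIdeal_differentIdeal (K := ℚ), inv_inv]
  have e1 : d * (𝔞 : FractionalIdeal (𝓞 K)⁰ K) ^ 2 =
      FractionalIdeal.spanSingleton (𝓞 K)⁰ (algebraMap (𝓞 K) K α) := by
    rw [hd, ← FractionalIdeal.coeIdeal_pow, ← FractionalIdeal.coeIdeal_mul, hα]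
    exact FractionalIdeal.coeIdeal_span_singleton α
  have e2 : FractionalIdeal.spanSingleton (𝓞 K)⁰ (algebraMap (𝓞 K) K α) *
      FractionalIdeal.dual ℤ ℚ (𝔞 : FractionalIdeal (𝓞 K)⁰ K) = 𝔞 := by
    rw [FractionalIdeal.dual_eq_mul_inv, hdual, ← e1]
    have : d * (𝔞 : FractionalIdeal (𝓞 K)⁰ K) ^ 2 * (d⁻¹ * (𝔞 : FractionalIdeal (𝓞 K)⁰ K)⁻¹) =
        (d * d⁻¹) * ((𝔞 : FractionalIdeal (𝓞 K)⁰ K) * (𝔞 : FractionalIdeal (𝓞 K)⁰ K)⁻¹) * 𝔞 := by
      ring
    rw [this, mul_inv_cancel₀ hd0, mul_inv_cancel₀ h𝔞', one_mul, one_mul]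
  refine ⟨𝔞, (algebraMap (𝓞 K) K α)⁻¹, h𝔞', inv_ne_zero hα', fun x => ?_⟩
  have e3 : x ∈ (𝔞 : FractionalIdeal (𝓞 K)⁰ K) ↔
      (algebraMap (𝓞 K) K α)⁻¹ * x ∈ FractionalIdeal.dual ℤ ℚ (𝔞 : FractionalIdeal (𝓞 K)⁰ K) := by
    conv_lhs => rw [← e2]
    rw [FractionalIdeal.mem_singleton_mul]
    constructor
    · rintro ⟨y, hy, rfl⟩
      rwa [inv_mul_cancel_left₀ hα']
    · intro hx
      exact ⟨_, hx, (mul_inv_cancel_left₀ hα' x).symm⟩
  rw [e3, FractionalIdeal.mem_dual h𝔞']
  exact Iff.rfl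

end Ideals

section Relative

variable (K : Type u) (L : Type v) [Field K] [NumberField K] [Field L] [NumberField L]
  [Algebra K L]

/-- the relative different as a non-zero ideal -/
def relDiffIdeal : (Ideal (𝓞 L))⁰ :=
  ⟨differentIdeal (𝓞 K) (𝓞 L), mem_nonZeroDivisors_of_ne_zero differentIdeal_ne_bot⟩

/-- the class of the relative different -/
def relDiffClass : ClassGroup (𝓞 L) := ClassGroup.mk0 (relDiffIdeal K L)

/-- transitivity of the different, for the classes -/
theorem diffClass_eq_mul :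
    diffClass L = relDiffClass K L * ClassGroup.extendedHom (𝓞 K) (𝓞 L) (diffClass K) := by
  rw [diffClass, diffClass, ClassGroup.extendedHom_mk0, relDiffClass, ← map_mul]
  congr 1
  exact Subtype.ext (differentIdeal_eq_differentIdeal_mul_differentIdeal ℤ (𝓞 K) (𝓞 L))

theorem isSquare_relDiffClass_of (hK : IsSquare (diffClass K)) (hL : IsSquare (diffClass L)) :
    IsSquare (relDiffClass K L) := by
  have h := diffClass_eq_mul K L
  have h1 : relDiffClass K L =
      diffClass L * (ClassGroup.extendedHom (𝓞 K) (𝓞 L) (diffClass K))⁻¹ := by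
    rw [h, mul_inv_cancel_right]
  rw [h1]
  exact hL.mul (hK.map _).inv

end Relative

section Universe

/-- Hecke's theorem passes from a number field to an isomorphic one. -/
theorem isSquare_diffClass_of_ringEquiv {K : Type u} {L : Type v} [Field K] [NumberField K]
    [Field L] [NumberField L] (e : K ≃+* L) (hK : IsSquare (diffClass K)) :
    IsSquare (diffClass L) := by
  let _ : Algebra K L := (e : K →+* L).toAlgebra
  have hfin : Module.finrank K L = 1 := by
    let e' : K ≃ₐ[K] L := AlgEquiv.ofRingEquiv (f := e) (fun _ => rfl)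
    rw [← e'.toLinearEquiv.finrank_eq, Module.finrank_self]
  have hdisc : discr K = discr L := by
    let eQ : K ≃ₐ[ℚ] L := AlgEquiv.ofRingEquiv (f := e) (fun q => map_ratCast e q)
    exact NumberField.discr_eq_discr_of_algEquiv K eQ
  have h1 := natAbs_discr_eq_absNorm_differentIdeal_mul_natAbs_discr_pow K (𝓞 K) L (𝓞 L)
  have h2 : differentIdeal (𝓞 K) (𝓞 L) = ⊤ := by
    rw [← Ideal.absNorm_eq_one_iff]
    rw [hfin, pow_one, hdisc] at h1
    have h3 : (discr L).natAbs ≠ 0 := Int.natAbs_ne_zero.mpr (discr_ne_zero L)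
    exact Nat.eq_of_mul_eq_mul_right (Nat.pos_of_ne_zero h3) (by rw [one_mul]; exact h1.symm)
  have h3 : relDiffClass K L = 1 := by
    have : relDiffIdeal K L = 1 := Subtype.ext (h2.trans Ideal.one_eq_top.symm)
    rw [relDiffClass, this, map_one]
  rw [diffClass_eq_mul K L, h3, one_mul]
  exact hK.map _

end Universe

section Sign

variable {K : Type u} [Field K] [NumberField K]

/-- **The root number of a quadratic character of the class group is `1`.** -/
theorem XiF_one_sub_of_quadratic {χ : ClassGroup (𝓞 K) →* ℤˣ} (h : χ (diffClass K) = 1) (s : ℂ) :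
    XiF (fun C => ((toC χ C : ℂˣ) : ℂ)) (1 - s) = XiF (fun C => ((toC χ C : ℂˣ) : ℂ)) s := by
  rw [XiF_one_sub]
  congr 1
  funext C
  rw [map_mul, map_inv, toC_of_eq_one h, one_mul]
  by_cases hC : χ C = 1
  · rw [toC_of_eq_one hC, inv_one]
  · rw [toC_of_ne_one hC]
    simp

/-- the completed L-function of a quadratic character vanishes to an even order at `1/2` -/
theorem even_order_XiF {χ : ClassGroup (𝓞 K) →* ℤˣ} (h : χ (diffClass K) = 1) :
    ∃ m : ℕ, analyticOrderAt (XiF fun C => ((toC χ C : ℂˣ) : ℂ)) (1 / 2) = (2 * m : ℕ) := by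
  obtain ⟨m, hm, hm'⟩ := parity (differentiable_XiF fun C => ((toC χ C : ℂˣ) : ℂ))
    (XiF_two_ne_zero (toC χ)) (ε := 1) (fun s => by rw [XiF_one_sub_of_quadratic h, one_mul])
  have h1 : Even m := by
    by_contra h2
    rw [Nat.not_even_iff_odd] at h2
    rw [h2.neg_one_pow] at hm'
    norm_num at hm'
  obtain ⟨k, rfl⟩ := h1
  exact ⟨k, by rw [hm, two_mul]⟩

/-- The order of vanishing of `L(s, f)` at `1/2` is the one of the completed function. -/
theorem order_LF_half (f : ClassGroup (𝓞 K) → ℂ) :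
    analyticOrderAt (LF f) (1 / 2) = analyticOrderAt (XiF f) (1 / 2) := by
  let w : ℂ → ℂ := fun s => ((|(discr K : ℝ)| : ℝ) : ℂ) ^ (-s / 2) * gi K s * (s * (1 - s))⁻¹
  have hne : (1 / 2 : ℂ) * (1 - 1 / 2) ≠ 0 := by norm_num
  have hw : AnalyticAt ℂ w (1 / 2) :=
    ((differentiable_absDisc_cpow.mul differentiable_gi).analyticAt _).mul
      (((differentiable_id.mul ((differentiable_const (1 : ℂ)).sub differentiable_id)).analyticAt
        (1 / 2)).inv hne)
  have hw0 : w (1 / 2) ≠ 0 :=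
    mul_ne_zero (mul_ne_zero (absDisc_cpow_ne_zero _)
      (inv_ne_zero (gam_ne_zero_base (by norm_num)))) (inv_ne_zero hne)
  have hev : LF f =ᶠ[𝓝 (1 / 2)] w * XiF f := by
    have hU : {s : ℂ | 0 < s.re ∧ s.re < 1} ∈ 𝓝 (1 / 2 : ℂ) := by
      have h1 : IsOpen {s : ℂ | 0 < s.re ∧ s.re < 1} :=
        (isOpen_lt continuous_const Complex.continuous_re).inter
          (isOpen_lt Complex.continuous_re continuous_const)
      exact h1.mem_nhds (by norm_num)
    filter_upwards [hU] with s hs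
    have h0 : s ≠ 0 := by
      rintro rfl
      simp at hs
    have h1 : s ≠ 1 := by
      rintro rfl
      simp at hs
    change LF f s = ((|(discr K : ℝ)| : ℝ) : ℂ) ^ (-s / 2) * gi K s * (s * (1 - s))⁻¹ * XiF f s
    rw [LF_eq_div f h0 h1, absDisc_cpow_neg, gi]
    simp only [div_eq_mul_inv, mul_inv]
    ring
  rw [analyticOrderAt_congr hev, analyticOrderAt_mul hw ((differentiable_XiF f).analyticAt _),
    hw.analyticOrderAt_eq_zero.mpr hw0, zero_add]

/-- **`L(s, χ)` vanishes to an even order at `1/2`**, `χ` quadratic. -/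
theorem even_order_LK {χ : ClassGroup (𝓞 K) →* ℤˣ} (h : χ (diffClass K) = 1) :
    ∃ m : ℕ, analyticOrderAt (LK (toC χ)) (1 / 2) = (2 * m : ℕ) := by
  obtain ⟨m, hm⟩ := even_order_XiF h
  exact ⟨m, by rw [LK, order_LF_half, hm]⟩

end Sign

end Fermat.Agent.Cor.Diff

end
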