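import Fermat.Agent.Corollaries.Diff.Narrow

/-!
# The theorem of Armitage and Fröhlich

`K` a number field with `r₁` real places: the 2-rank of the narrow class group exceeds the 2-rank of
the class group by at most `r₁ / 2` (`armitage_froehlich`).
-/

set_option autoImplicit false

noncomputable section

namespace Fermat.Agent.Cor.Diff

open NumberField IsDedekindDomain Module
open Fermat.Agent.CFT.Global (LocalSymbols)
open Fermat.Agent.LT (IsRay)
open Fermat.Agent.CFT.Global2

section Algebra

/-- in a finite abelian group there are as many elements killed by two as characters with values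
`± 1` -/
theorem card_quadratic_char (G : Type*) [CommGroup G] [Finite G] :
    Nat.card (G →* ℤˣ) = Nat.card {c : G // c ^ 2 = 1} := by
  classical
  let S : Subgroup G := (powMonoidHom 2 : G →* G).range
  have hS : ∀ g : G, g ^ 2 ∈ S := fun g => ⟨g, rfl⟩
  -- characters of the quotient
  let e : (G ⧸ S →* ℤˣ) ≃ (G →* ℤˣ) :=
    { toFun := fun f => f.comp (QuotientGroup.mk' S)
      invFun := fun f => QuotientGroup.lift S f (by
        rintro _ ⟨g, rfl⟩
        rw [powMonoidHom_apply, MonoidHom.mem_ker, map_pow, Int.units_sq])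
      left_inv := fun f => by
        ext g
        rfl
      right_inv := fun f => by
        ext g
        rfl }
  have hexp : Monoid.exponent (G ⧸ S) ∣ 2 := by
    rw [Monoid.exponent_dvd_iff_forall_pow_eq_one]
    intro q
    obtain ⟨g, rfl⟩ := QuotientGroup.mk_surjective q
    rw [← QuotientGroup.mk_pow, QuotientGroup.eq_one_iff]
    exact hS g
  have h2 : HasEnoughRootsOfUnity ℤ 2 :=
    { prim := ⟨-1, IsPrimitiveRoot.neg_one 0 (by norm_num)⟩
      cyc := inferInstance }
  have : HasEnoughRootsOfUnity ℤ (Monoid.exponent (G ⧸ S)) :=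
    HasEnoughRootsOfUnity.of_dvd ℤ hexp
  rw [← Nat.card_congr e, CommGroup.card_monoidHom_of_hasEnoughRootsOfUnity (G ⧸ S) ℤ]
  have h3 := S.card_eq_card_quotient_mul_card_subgroup
  have h4 := (powMonoidHom 2 : G →* G).ker.card_eq_card_quotient_mul_card_subgroup
  rw [Nat.card_congr (QuotientGroup.quotientKerEquivRange (powMonoidHom 2 : G →* G)).toEquiv,
    mul_comm] at h4
  have h5 : Nat.card S ≠ 0 := Nat.card_pos.ne'
  exact Nat.eq_of_mul_eq_mul_right (Nat.pos_of_ne_zero h5) (h3.symm.trans h4)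

variable {ι : Type*} [Fintype ι]

/-- totally isotropic subspaces of `F₂ⁿ` have dimension at most `n / 2` -/
theorem two_mul_finrank_le (W : Submodule (ZMod 2) (ι → ZMod 2))
    (hW : ∀ u ∈ W, ∀ v ∈ W, ∑ i, u i * v i = 0) : 2 * finrank (ZMod 2) W ≤ Fintype.card ι := by
  classical
  let Φ : (ι → ZMod 2) →ₗ[ZMod 2] Dual (ZMod 2) W :=
    W.dualRestrict ∘ₗ (dotProductEquiv (ZMod 2) ι).toLinearMap
  have hsurj : Function.Surjective Φ :=
    (Subspace.dualRestrict_surjective (W := W)).comp (dotProductEquiv (ZMod 2) ι).surjective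
  have hker : W ≤ LinearMap.ker Φ := by
    intro u hu
    rw [LinearMap.mem_ker]
    ext w
    exact hW u hu w w.2
  have h1 := LinearMap.finrank_range_add_finrank_ker Φ
  rw [LinearMap.range_eq_top.mpr hsurj, finrank_top, Subspace.dual_finrank_eq,
    Module.finrank_fintype_fun_eq_card] at h1
  have h2 := Submodule.finrank_mono hker
  omega

theorem card_isotropic_le (H : AddSubgroup (ι → ZMod 2))
    (hH : ∀ u ∈ H, ∀ v ∈ H, ∑ i, u i * v i = 0) : Nat.card H ≤ 2 ^ (Fintype.card ι / 2) := by
  let W : Submodule (ZMod 2) (ι → ZMod 2) := AddSubgroup.toZModSubmodule 2 H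
  have h1 := two_mul_finrank_le W hH
  have h2 : Nat.card H = Nat.card W := rfl
  rw [h2, Module.natCard_eq_pow_finrank (K := ZMod 2), Nat.card_eq_fintype_card, ZMod.card]
  exact Nat.pow_le_pow_right two_pos (by omega)

theorem card_eq_range_mul_ker {G A : Type*} [AddGroup G] [AddGroup A] (s : G →+ A) :
    Nat.card G = Nat.card s.range * Nat.card s.ker := by
  rw [s.ker.card_eq_card_quotient_mul_card_addSubgroup,
    Nat.card_congr (QuotientAddGroup.quotientKerEquivRange s).toEquiv]

end Algebra

section Main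

variable {K : Type} [Field K] [NumberField K]

/-- a Kummer generator of a quadratic character of the narrow class group -/
def kgen (LS : LocalSymbols 2 K) (χ : NarrowClassGroup K →* ℤˣ) : Kˣ :=
  (exists_kumSym LS (isRayP_ent χ)).choose

theorem kumSym_kgen (LS : LocalSymbols 2 K) (χ : NarrowClassGroup K →* ℤˣ) :
    KumSym LS (ent χ) (kgen LS χ) :=
  (exists_kumSym LS (isRayP_ent χ)).choose_spec

/-- the signature of the Kummer generator, as a homomorphism -/
def sgn (LS : LocalSymbols 2 K) :
    Additive (NarrowClassGroup K →* ℤˣ) →+ ((K →+* ℝ) → ZMod 2) :=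
  AddMonoidHom.mk' (fun χ σ => HM.sg σ (kgen LS χ.toMul)) (by
    intro χ ψ
    ext σ
    rw [Pi.add_apply, ← HM.sg_mul]
    refine KumSym.sg_eq (η := ent (χ.toMul * ψ.toMul)) (LS := LS) (kumSym_kgen LS _) ?_ σ
    have h := (kumSym_kgen LS χ.toMul).mul (kumSym_kgen LS ψ.toMul)
    intro v x
    rw [h v x, ent_mul])

theorem sgn_apply (LS : LocalSymbols 2 K) (χ : NarrowClassGroup K →* ℤˣ) (σ : K →+* ℝ) :
    sgn LS (Additive.ofMul χ) σ = HM.sg σ (kgen LS χ) := rfl

/-- the kernel of the signature map consists of the characters of the class group -/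
theorem exists_of_mem_ker (LS : LocalSymbols 2 K) {χ : Additive (NarrowClassGroup K →* ℤˣ)}
    (hχ : χ ∈ (sgn LS).ker) :
    ∃ ψ : ClassGroup (𝓞 K) →* ℤˣ, ψ.comp (toClass K) = χ.toMul := by
  have h1 : ∀ σ : K →+* ℝ, 0 < σ (kgen LS χ.toMul : K) := by
    intro σ
    rw [← HM.sg_eq_zero_iff]
    exact congrFun ((AddMonoidHom.mem_ker).mp hχ) σ
  obtain ⟨ψ, hψ⟩ := exists_chi_of_isRay ((kumSym_kgen LS χ.toMul).isRay_of_pos h1)
  refine ⟨ψ, nchar_ext fun v => ?_⟩
  have h2 : ent (ψ.comp (toClass K)) v = ent χ.toMul v := by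
    rw [ent_comp_toClass, hψ v]
  have h3 : Function.Injective sg := (injective_iff_map_eq_one sg).mpr fun u hu =>
    (sg_eq_one_iff u).mp hu
  exact h3 h2

theorem card_ker_le (LS : LocalSymbols 2 K) :
    Nat.card (sgn LS).ker ≤ Nat.card (ClassGroup (𝓞 K) →* ℤˣ) := by
  choose f hf using fun χ : (sgn LS).ker => exists_of_mem_ker LS χ.2
  refine Nat.card_le_card_of_injective f fun χ ψ h => ?_
  have h1 := hf χ
  rw [h, hf ψ] at h1
  exact Subtype.ext (Additive.toMul.injective h1.symm)

theorem sgn_isotropic (LS : LocalSymbols 2 K) :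
    ∀ u ∈ (sgn LS).range, ∀ v ∈ (sgn LS).range, ∑ i, u i * v i = 0 := by
  rintro _ ⟨χ, rfl⟩ _ ⟨ψ, rfl⟩
  exact (kumSym_kgen LS χ.toMul).sum_sg (kumSym_kgen LS ψ.toMul)

/-- **The theorem of Armitage and Fröhlich** for characters. -/
theorem card_nchar_le :
    Nat.card (NarrowClassGroup K →* ℤˣ) ≤
      2 ^ (InfinitePlace.nrRealPlaces K / 2) * Nat.card (ClassGroup (𝓞 K) →* ℤˣ) := by
  obtain ⟨LS⟩ := Fermat.Agent.CFT.Bridge.nonempty_localSymbols_all K
    (Unr.isPrimitiveRoot_neg_one' K)
  have h0 : Nat.card (NarrowClassGroup K →* ℤˣ) =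
      Nat.card (Additive (NarrowClassGroup K →* ℤˣ)) := rfl
  rw [h0, card_eq_range_mul_ker (sgn LS)]
  refine Nat.mul_le_mul ((card_isotropic_le _ (sgn_isotropic LS)).trans ?_) (card_ker_le LS)
  exact Nat.pow_le_pow_right two_pos (Nat.div_le_div_right HM.card_real_le)

/-- **The theorem of Armitage and Fröhlich** (1967): the 2-rank of the narrow class group of a
number field with `r₁` real places is at most the 2-rank of the class group plus `r₁ / 2`. -/
theorem armitage_froehlich (K : Type) [Field K] [NumberField K] :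
    Nat.card {c : NarrowClassGroup K // c ^ 2 = 1} ≤
      2 ^ (InfinitePlace.nrRealPlaces K / 2) * Nat.card {c : ClassGroup (𝓞 K) // c ^ 2 = 1} := by
  rw [← card_quadratic_char, ← card_quadratic_char]
  exact card_nchar_le

end Main

end Fermat.Agent.Cor.Diff

end
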