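import Fermat.Agent.Corollaries.Diff.Hilbert

/-!
# Even class numbers and unramified quadratic extensions

* `isUnramifiedAt_iff`: `Algebra.IsUnramifiedAt` for a place and the ramification index;
* `inert_iff_isPrime_map`: a place `v` is inert in an unramified quadratic extension iff
  `v 𝓞_L` is a prime ideal;
* `even_card_iff`: a finite abelian group has even order iff it has a character `≠ 1` with values
  `± 1`;
* `exists_quadratic_field`: `K` totally complex, `χ ≠ 1 : ClassGroup (𝓞 K) →* ℤˣ`: the quadratic
  extension `L / K` unramified at all places with `χ([v]) = -1` iff `v 𝓞_L` is prime;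
* `existsUnique_character`: conversely every unramified quadratic extension comes from exactly one
  `χ`;
* `even_classNumber_iff`: `K` totally complex: the class number is even iff `K` has an unramified
  quadratic extension.
-/

set_option autoImplicit false

noncomputable section

namespace Fermat.Agent.Cor.Diff

open NumberField IsDedekindDomain
open Fermat.Agent.CFT.Places
open Fermat.Agent.CFT.Global2
open Fermat.Agent.LT.NV (fdeg edeg card_stab edeg_ne_zero)
open scoped nonZeroDivisors

section Group

/-- a finite abelian group has even order iff it has a non-trivial character of order two -/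
theorem even_card_iff {G : Type*} [CommGroup G] [Finite G] :
    Even (Nat.card G) ↔ ∃ χ : G →* ℤˣ, χ ≠ 1 := by
  constructor
  · intro h
    by_contra hcon
    push Not at hcon
    have hsq : Function.Surjective (powMonoidHom 2 : G →* G) := by
      intro x
      obtain ⟨y, hy⟩ := isSquare_of_forall (x := x) fun χ => by
        rw [hcon χ]
        rfl
      exact ⟨y, by rw [hy, powMonoidHom_apply, sq]⟩
    have hinj : Function.Injective (powMonoidHom 2 : G →* G) :=
      Finite.injective_iff_surjective.mpr hsq
    obtain ⟨x, hx⟩ := exists_prime_orderOf_dvd_card' (G := G) 2 h.two_dvd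
    have h1 : x = 1 := hinj (by
      rw [powMonoidHom_apply, map_one, ← hx, pow_orderOf_eq_one])
    rw [h1, orderOf_one] at hx
    exact absurd hx (by norm_num)
  · rintro ⟨χ, hχ⟩
    have hsurj : Function.Surjective χ := by
      obtain ⟨x, hx⟩ : ∃ x, χ x ≠ 1 := by
        by_contra hcon
        push Not at hcon
        exact hχ (MonoidHom.ext hcon)
      have hx' : χ x = -1 := (Int.units_eq_one_or (χ x)).resolve_left hx
      intro u
      rcases Int.units_eq_one_or u with rfl | rfl
      · exact ⟨1, map_one χ⟩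
      · exact ⟨x, hx'⟩
    have h1 := Subgroup.card_dvd_of_surjective χ hsurj
    rw [Nat.card_eq_fintype_card (α := ℤˣ), Fintype.card_units_int] at h1
    exact even_iff_two_dvd.mpr h1

end Group

section Ext

variable {K L : Type*} [Field K] [NumberField K] [Field L] [NumberField L] [Algebra K L]

theorem isUnramifiedAt_iff (w : HeightOneSpectrum (𝓞 L)) :
    Algebra.IsUnramifiedAt (𝓞 K) w.asIdeal ↔
      (w.under (𝓞 K)).asIdeal.ramificationIdx' w.asIdeal = 1 := by
  rw [← Ideal.ramificationIdx_eq_one_iff,
    Ideal.ramificationIdx'_eq_ramificationIdx _ w.asIdeal (w.under (𝓞 K)).ne_bot]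

/-- inert places in an unramified quadratic extension -/
theorem inert_iff_isPrime_map [IsGalois K L] (h2 : Module.finrank K L = 2)
    (he : ∀ w : HeightOneSpectrum (𝓞 L),
      (w.under (𝓞 K)).asIdeal.ramificationIdx' w.asIdeal = 1) (v : HeightOneSpectrum (𝓞 K)) :
    Unr.Inert L v ↔ (v.asIdeal.map (algebraMap (𝓞 K) (𝓞 L))).IsPrime := by
  have hne : v.asIdeal.map (algebraMap (𝓞 K) (𝓞 L)) ≠ ⊥ := by
    rw [Ne, Ideal.map_eq_bot_iff_of_injective (FaithfulSMul.algebraMap_injective (𝓞 K) (𝓞 L))]
    exact v.ne_bot
  have hle : ∀ w : HeightOneSpectrum (𝓞 L), w.under (𝓞 K) = v →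
      v.asIdeal.map (algebraMap (𝓞 K) (𝓞 L)) ≤ w.asIdeal := by
    rintro w rfl
    rw [Ideal.map_le_iff_le_comap]
    exact le_rfl
  have hG : Nat.card Gal(L/K) = 2 := by rw [IsGalois.card_aut_eq_finrank, h2]
  have : Nontrivial Gal(L/K) := by
    by_contra h
    rw [not_nontrivial_iff_subsingleton] at h
    have := Nat.card_of_subsingleton (1 : Gal(L/K))
    omega
  obtain ⟨σ, hσ⟩ := exists_ne (1 : Gal(L/K))
  constructor
  · intro h
    obtain ⟨w, hw⟩ := exists_below_eq L v
    subst hw
    rw [Unr.inert_iff h2 hσ] at h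
    -- `v 𝓞_L = w`
    have key : (w.under (𝓞 K)).asIdeal.map (algebraMap (𝓞 K) (𝓞 L)) = w.asIdeal := by
      obtain ⟨J, hJ⟩ := Ideal.dvd_iff_le.mpr (hle w rfl)
      have hJ1 : J = ⊤ := by
        by_contra hJ1
        obtain ⟨P, hP, hPJ⟩ := Ideal.exists_le_maximal J hJ1
        have hJ0 : J ≠ ⊥ := by
          rintro rfl
          rw [Ideal.mul_bot] at hJ
          exact hne hJ
        have hP0 : P ≠ ⊥ := by
          rintro rfl
          exact hJ0 (le_bot_iff.mp hPJ)
        let w' : HeightOneSpectrum (𝓞 L) := ⟨P, hP.isPrime, hP0⟩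
        have hw' : w'.under (𝓞 K) = w.under (𝓞 K) := by
          apply HeightOneSpectrum.ext
          have h3 : (w.under (𝓞 K)).asIdeal ≤ (w'.under (𝓞 K)).asIdeal := by
            change _ ≤ P.comap (algebraMap (𝓞 K) (𝓞 L))
            rw [← Ideal.map_le_iff_le_comap, hJ]
            exact Ideal.mul_le_right.trans hPJ
          exact ((w.under (𝓞 K)).isMaximal.eq_of_le (w'.under (𝓞 K)).isPrime.ne_top h3).symm
        have hww : w' = w := by
          rcases Fermat.Agent.LT.Psi.eq_or_eq_conj h2 hσ hw' with h4 | h4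
          · exact h4
          · rw [h4, h]
        have h5 : (w.under (𝓞 K)).asIdeal.map (algebraMap (𝓞 K) (𝓞 L)) ≤ w.asIdeal ^ 2 := by
          rw [hJ, sq]
          refine Ideal.mul_mono_right ?_
          rw [← hww]
          exact hPJ
        exact (Ideal.ramificationIdx'_ne_one_iff (hle w rfl)).mpr h5 (he w)
      rw [hJ, hJ1, Ideal.mul_top]
    rw [key]
    exact w.isPrime
  · intro h
    let w₀ : HeightOneSpectrum (𝓞 L) := ⟨_, h, hne⟩
    have huniq : ∀ w : HeightOneSpectrum (𝓞 L), w.under (𝓞 K) = v → w = w₀ := by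
      intro w hw
      apply HeightOneSpectrum.ext
      exact (w₀.isMaximal.eq_of_le w.isPrime.ne_top (hle w hw)).symm
    obtain ⟨w, hw⟩ := exists_below_eq L v
    refine ⟨w, hw, fun τ => ?_⟩
    rw [huniq _ ((below_conj τ w).trans hw), huniq w hw]

end Ext

section Main

variable {K : Type} [Field K] [NumberField K]

/-- **Existence theorem for unramified quadratic extensions**, `K` totally complex. -/
theorem exists_quadratic_field [IsTotallyComplex K] {χ : ClassGroup (𝓞 K) →* ℤˣ} (hχ : χ ≠ 1) :
    ∃ (L : Type) (_ : Field L) (_ : NumberField L) (_ : Algebra K L), IsGalois K L ∧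
      Module.finrank K L = 2 ∧
      (∀ w : HeightOneSpectrum (𝓞 L), Algebra.IsUnramifiedAt (𝓞 K) w.asIdeal) ∧
      ∀ v : HeightOneSpectrum (𝓞 K),
        (χ (cls v) = -1 ↔ (v.asIdeal.map (algebraMap (𝓞 K) (𝓞 L))).IsPrime) := by
  obtain ⟨L, _, _, _, hgal, h2, he, h⟩ := exists_unramified_ext hχ
  refine ⟨L, inferInstance, inferInstance, inferInstance, hgal, h2,
    fun w => (isUnramifiedAt_iff w).mpr (he w), fun v => ?_⟩
  rw [← inert_iff_isPrime_map h2 he v, ← not_iff_not, ← h v]
  constructor
  · exact fun h1 => (Int.units_eq_one_or _).resolve_right h1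
  · intro h1 h3
    rw [h1] at h3
    exact absurd h3 (by decide)

/-- two characters which agree at almost all places are equal -/
theorem char_eq_of_forall {χ χ' : ClassGroup (𝓞 K) →* ℤˣ}
    (T : Finset (HeightOneSpectrum (𝓞 K))) (h : ∀ v, v ∉ T → χ (cls v) = χ' (cls v)) : χ = χ' := by
  have h1 : χ * χ'⁻¹ = 1 := eq_one_of_forall _ T fun v hv => by
    rw [MonoidHom.mul_apply, MonoidHom.inv_apply, h v hv, mul_inv_cancel]
  exact mul_inv_eq_one.mp h1

/-- **Reciprocity for unramified quadratic extensions**, `K` totally complex: such an extension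
comes from exactly one character. -/
theorem existsUnique_character [IsTotallyComplex K] {L : Type*} [Field L] [NumberField L]
    [Algebra K L] [IsGalois K L] (h2 : Module.finrank K L = 2)
    (he : ∀ w : HeightOneSpectrum (𝓞 L), Algebra.IsUnramifiedAt (𝓞 K) w.asIdeal) :
    ∃! χ : ClassGroup (𝓞 K) →* ℤˣ, ∀ v : HeightOneSpectrum (𝓞 K),
      (χ (cls v) = -1 ↔ (v.asIdeal.map (algebraMap (𝓞 K) (𝓞 L))).IsPrime) := by
  have he' := fun w => (isUnramifiedAt_iff (K := K) w).mp (he w)
  obtain ⟨χ, -, hχ⟩ := exists_char_of_unramified h2 he'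
  refine ⟨χ, fun v => ?_, fun χ' hχ' => ?_⟩
  · rw [← inert_iff_isPrime_map h2 he' v, ← not_iff_not, ← hχ v]
    constructor
    · exact fun h1 => (Int.units_eq_one_or _).resolve_right h1
    · intro h1 h3
      rw [h1] at h3
      exact absurd h3 (by decide)
  · refine char_eq_of_forall ∅ fun v _ => ?_
    have h1 := hχ' v
    rw [← inert_iff_isPrime_map h2 he' v] at h1
    have h3 := hχ v
    rcases Int.units_eq_one_or (χ (cls v)) with h4 | h4
    · rw [h4]
      exact (Int.units_eq_one_or _).resolve_right fun h5 => h3.mp h4 (h1.mp h5)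
    · rw [h4]
      refine h1.mpr ?_
      by_contra h5
      rw [h3.mpr h5] at h4
      exact absurd h4 (by decide)

/-- **Even class numbers.**  `K` totally complex: the class number of `K` is even iff `K` has a
quadratic extension unramified at all places. -/
theorem even_classNumber_iff [IsTotallyComplex K] : Even (classNumber K) ↔
    ∃ (L : Type) (_ : Field L) (_ : NumberField L) (_ : Algebra K L), IsGalois K L ∧
      Module.finrank K L = 2 ∧
      ∀ w : HeightOneSpectrum (𝓞 L), Algebra.IsUnramifiedAt (𝓞 K) w.asIdeal := by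
  rw [classNumber, ← Nat.card_eq_fintype_card, even_card_iff]
  constructor
  · rintro ⟨χ, hχ⟩
    obtain ⟨L, _, _, _, hgal, h2, he, -⟩ := exists_quadratic_field hχ
    exact ⟨L, inferInstance, inferInstance, inferInstance, hgal, h2, he⟩
  · rintro ⟨L, _, _, _, hgal, h2, he⟩
    obtain ⟨χ, hχ, -⟩ := exists_char_of_unramified h2
      (fun w => (isUnramifiedAt_iff (K := K) w).mp (he w))
    exact ⟨χ, hχ⟩

end Main

end Fermat.Agent.Cor.Diff

end
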