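import Fermat.Agent.Corollaries.Diff.RatOdd
import Mathlib.NumberTheory.NumberField.Cyclotomic.Basic

/-!
# Subfields of 2-power degree of the fields of `p ^ k`-th roots of unity

* `odd_of_cyclotomic`: a subfield `F` of `ℚ(ζ_{p^k})` of 2-power degree has an odd narrow class
  number, and units of all signatures (`index_posUnits_of_cyclotomic`); if `F` is totally real, then
  every totally positive unit of `F` is a square (`exists_sq_of_cyclotomic`).
* `odd_classNumber_two_pow`, `weber`: this holds for all subfields of `ℚ(ζ_{2^k})` (Weber 1886,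
  1899).
* `odd_card_narrow_fermat`: and for all subfields of `ℚ(ζ_p)`, `p = 2 ^ m + 1` a Fermat prime.
-/

set_option autoImplicit false

noncomputable section

namespace Fermat.Agent.Cor.Diff

open NumberField

section One

variable {F : Type*} [Field F] [NumberField F]

/-- the narrow class number of a number field of degree one is odd -/
theorem odd_card_narrow_of_finrank_one (hF : Module.finrank ℚ F = 1) :
    Odd (Nat.card (NarrowClassGroup F)) := by
  have hsurj : Function.Surjective (algebraMap ℚ F) := by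
    rw [Algebra.surjective_algebraMap_iff]
    exact (Subalgebra.bot_eq_top_of_finrank_eq_one hF).symm
  let e : ℚ ≃ₐ[ℚ] F := AlgEquiv.ofBijective (Algebra.ofId ℚ F)
    ⟨(algebraMap ℚ F).injective, hsurj⟩
  have hdisc : discr F = 1 := by
    rw [← discr_eq_discr_of_algEquiv ℚ e, Rat.numberField_discr]
  have hr := InfinitePlace.card_add_two_mul_card_eq_rank F
  rw [hF] at hr
  have h2 : InfinitePlace.nrRealPlaces F = 1 := by omega
  have h2' : InfinitePlace.nrComplexPlaces F = 0 := by omega
  have hcl : classNumber F = 1 := by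
    rw [classNumber_eq_one_iff]
    refine RingOfIntegers.isPrincipalIdealRing_of_abs_discr_lt ?_
    rw [hdisc, hF, h2']
    norm_num
  have h1 := card_narrow_mul_index (K := F)
  rw [h2, hcl, mul_one, pow_one] at h1
  have h3 : (posUnits F).index ≠ 1 := by
    intro h3
    rw [Subgroup.index_eq_one] at h3
    have h4 : (-1 : (𝓞 F)ˣ) ∈ posUnits F := by
      rw [h3]
      exact Subgroup.mem_top _
    have h5 := mem_posUnits.mp h4 ((algebraMap ℚ ℝ).comp (e.symm : F →+* ℚ))
    simp at h5
    linarith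
  have h4 : (posUnits F).index ∣ 2 := ⟨_, by rw [← h1, mul_comm]⟩
  have h5 := ((Nat.dvd_prime Nat.prime_two).mp h4).resolve_left h3
  rw [h5] at h1
  have h6 : Nat.card (NarrowClassGroup F) = 1 := by omega
  rw [h6]
  exact odd_one

end One

section Sub

variable (F K : Type) [Field F] [NumberField F] [Field K] [NumberField K] [Algebra F K]
  (p k : ℕ) [Fact p.Prime] [IsCyclotomicExtension {p ^ k} ℚ K]

omit [Fact p.Prime] in
include K p k in
/-- a subfield of `ℚ(ζ_{p^k})` is abelian over `ℚ` -/
theorem isAbelianGalois_of_cyclotomic : IsAbelianGalois ℚ F := by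
  have : IsAbelianGalois ℚ K := IsCyclotomicExtension.isAbelianGalois {p ^ k} ℚ K
  exact IsAbelianGalois.tower_bot ℚ F K

include K k in
/-- only the prime `p` divides the discriminant of a subfield of `ℚ(ζ_{p^k})` -/
theorem eq_of_dvd_discr_cyclotomic {q : ℕ} (hq : q.Prime) (h : (q : ℤ) ∣ discr F) : q = p := by
  have h1 : (q : ℤ) ∣ discr K := h.trans (discr_dvd_discr F K)
  rw [IsCyclotomicExtension.Rat.discr_prime_pow p k K] at h1
  have hqz : Prime (q : ℤ) := Nat.prime_iff_prime_int.mp hq
  rcases hqz.dvd_or_dvd h1 with h2 | h2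
  · exfalso
    have h3 := hqz.dvd_of_dvd_pow h2
    have h4 : (q : ℤ) ∣ 1 := by
      rw [← dvd_neg]
      exact h3
    exact hqz.not_isUnit (isUnit_of_dvd_one h4)
  · have h3 := hqz.dvd_of_dvd_pow h2
    exact (Nat.prime_dvd_prime_iff_eq hq Fact.out).mp (by exact_mod_cast h3)

variable {F}

include K p k in
/-- **Subfields of `ℚ(ζ_{p^k})` of 2-power degree have an odd narrow class number.** -/
theorem odd_of_cyclotomic {m : ℕ} (hm : Module.finrank ℚ F = 2 ^ m) :
    Odd (Nat.card (NarrowClassGroup F)) := by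
  rcases m with _ | n
  · exact odd_card_narrow_of_finrank_one (by rw [hm, pow_zero])
  · have := isAbelianGalois_of_cyclotomic F K p k
    exact odd_of_discr hm Fact.out fun q hq => eq_of_dvd_discr_cyclotomic F K p k hq

include K p k in
/-- subfields of `ℚ(ζ_{p^k})` of 2-power degree: `h` is odd and `[U : U⁺] = 2 ^ r₁` -/
theorem index_posUnits_of_cyclotomic {m : ℕ} (hm : Module.finrank ℚ F = 2 ^ m) :
    Odd (classNumber F) ∧ (posUnits F).index = 2 ^ InfinitePlace.nrRealPlaces F :=
  odd_card_narrow_iff.mp (odd_of_cyclotomic K p k hm)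

include K p k in
/-- subfields of `ℚ(ζ_{p^k})` of 2-power degree have units with arbitrary signs at the real places
-/
theorem exists_unit_sign_of_cyclotomic {m : ℕ} (hm : Module.finrank ℚ F = 2 ^ m)
    (s : (F →+* ℝ) → Prop) : ∃ u : (𝓞 F)ˣ, ∀ σ : F →+* ℝ, (σ (u : F) < 0 ↔ s σ) :=
  exists_unit_sign (index_posUnits_of_cyclotomic K p k hm).2 s

include K p k in
/-- totally real subfields of `ℚ(ζ_{p^k})` of 2-power degree: every totally positive unit is a
square -/
theorem exists_sq_of_cyclotomic [IsTotallyReal F] {m : ℕ} (hm : Module.finrank ℚ F = 2 ^ m)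
    {u : (𝓞 F)ˣ} (hu : ∀ σ : F →+* ℝ, 0 < σ (u : F)) : ∃ w : (𝓞 F)ˣ, w ^ 2 = u :=
  exists_sq_of_mem_posUnits (index_posUnits_of_cyclotomic K p k hm).2 hu

end Sub

section Two

variable {F K : Type} [Field F] [NumberField F] [Field K] [NumberField K] [Algebra F K]

include K in
theorem exists_finrank_eq_two_pow {k : ℕ} [IsCyclotomicExtension {2 ^ k} ℚ K] :
    ∃ m, Module.finrank ℚ F = 2 ^ m := by
  have h1 : Module.finrank ℚ F ∣ Module.finrank ℚ K := ⟨_, (Module.finrank_mul_finrank ℚ F K).symm⟩
  have h2 : Module.finrank ℚ K ∣ 2 ^ k := by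
    rw [IsCyclotomicExtension.Rat.finrank (2 ^ k) K]
    rcases k with _ | k
    · simp
    · rw [Nat.totient_prime_pow Nat.prime_two (Nat.succ_pos k)]
      simp only [Nat.succ_sub_one, mul_one]
      exact pow_dvd_pow 2 (Nat.le_succ k)
  obtain ⟨m, -, hm⟩ := (Nat.dvd_prime_pow Nat.prime_two).mp (h1.trans h2)
  exact ⟨m, hm⟩

include K in
/-- **Weber (1886, 1899).**  Every subfield `F` of `ℚ(ζ_{2^k})` has an odd narrow class number. -/
theorem odd_card_narrow_two_pow (k : ℕ) [IsCyclotomicExtension {2 ^ k} ℚ K] :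
    Odd (Nat.card (NarrowClassGroup F)) := by
  obtain ⟨m, hm⟩ := exists_finrank_eq_two_pow (F := F) (K := K) (k := k)
  exact odd_of_cyclotomic K 2 k hm

include K in
/-- **Weber (1886).**  Every subfield `F` of `ℚ(ζ_{2^k})`, e.g. the field itself and its maximal
real subfield, has an odd class number. -/
theorem odd_classNumber_two_pow (k : ℕ) [IsCyclotomicExtension {2 ^ k} ℚ K] :
    Odd (classNumber F) :=
  (odd_card_narrow_iff.mp (odd_card_narrow_two_pow (F := F) (K := K) k)).1

include K in
/-- **Weber (1899).**  `F ⊆ ℚ(ζ_{2^k})` totally real: every totally positive unit of `F` is the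
square of a unit. -/
theorem weber (k : ℕ) [IsCyclotomicExtension {2 ^ k} ℚ K] [IsTotallyReal F]
    {u : (𝓞 F)ˣ} (hu : ∀ σ : F →+* ℝ, 0 < σ (u : F)) : ∃ w : (𝓞 F)ˣ, w ^ 2 = u := by
  obtain ⟨m, hm⟩ := exists_finrank_eq_two_pow (F := F) (K := K) (k := k)
  exact exists_sq_of_cyclotomic K 2 k hm hu

include K in
/-- the subfields of `ℚ(ζ_p)`, `p = 2 ^ m + 1` a Fermat prime, have an odd narrow class number -/
theorem odd_card_narrow_fermat (m : ℕ) (hp : (2 ^ m + 1).Prime)
    [IsCyclotomicExtension {2 ^ m + 1} ℚ K] : Odd (Nat.card (NarrowClassGroup F)) := by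
  have : Fact (2 ^ m + 1).Prime := ⟨hp⟩
  have h1 : Module.finrank ℚ F ∣ Module.finrank ℚ K := ⟨_, (Module.finrank_mul_finrank ℚ F K).symm⟩
  have h2 : Module.finrank ℚ K = 2 ^ m := by
    rw [IsCyclotomicExtension.Rat.finrank (2 ^ m + 1) K, Nat.totient_prime hp, Nat.add_sub_cancel]
  rw [h2] at h1
  obtain ⟨n, -, hn⟩ := (Nat.dvd_prime_pow Nat.prime_two).mp h1
  have h3 : IsCyclotomicExtension {(2 ^ m + 1) ^ 1} ℚ K := by
    rw [pow_one]
    infer_instance
  exact odd_of_cyclotomic K (2 ^ m + 1) 1 hn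

include K in
/-- the subfields of `ℚ(ζ_p)`, `p = 2 ^ m + 1` a Fermat prime, have an odd class number -/
theorem odd_classNumber_fermat (m : ℕ) (hp : (2 ^ m + 1).Prime)
    [IsCyclotomicExtension {2 ^ m + 1} ℚ K] : Odd (classNumber F) :=
  (odd_card_narrow_iff.mp (odd_card_narrow_fermat (F := F) (K := K) m hp)).1

end Two

end Fermat.Agent.Cor.Diff

end
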