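import Mathlib

/-!
# Orders of vanishing at the centre, and squares in finite abelian groups

`parity`: if `F` is entire, not identically zero and `F (1 - s) = ε F s`, then the order of
vanishing `m` of `F` at `1/2` satisfies `(-1) ^ m = ε`.
`isSquare_of_forall`: in a finite abelian group an element killed by all characters with values
`± 1` is a square.
-/

set_option autoImplicit false

namespace Fermat.Agent.Cor.Diff

open Filter Topology

section Parity

theorem order_ne_top {F : ℂ → ℂ} (hF : Differentiable ℂ F) {s₀ : ℂ} (hs₀ : F s₀ ≠ 0) (z : ℂ) :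
    analyticOrderAt F z ≠ ⊤ := by
  intro h
  rw [analyticOrderAt_eq_top] at h
  apply hs₀
  have h3 := AnalyticOnNhd.eq_of_eventuallyEq (𝕜 := ℂ) (z₀ := z)
    (hF.differentiableOn.analyticOnNhd isOpen_univ)
    ((differentiable_const (0 : ℂ)).differentiableOn.analyticOnNhd isOpen_univ) h
  exact congrFun h3 s₀

/-- The parity of the order of vanishing at the centre is the sign of the functional equation. -/
theorem parity {F : ℂ → ℂ} (hF : Differentiable ℂ F) {s₀ : ℂ} (hs₀ : F s₀ ≠ 0) {ε : ℂ}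
    (h : ∀ s, F (1 - s) = ε * F s) :
    ∃ m : ℕ, analyticOrderAt F (1 / 2) = m ∧ (-1) ^ m = ε := by
  have htop := order_ne_top hF hs₀ (1 / 2)
  obtain ⟨m, hm⟩ := ENat.ne_top_iff_exists.mp htop
  refine ⟨m, hm.symm, ?_⟩
  have hA : AnalyticAt ℂ F (1 / 2) := hF.analyticAt _
  obtain ⟨g, hg, hg0, hFg⟩ := hA.analyticOrderAt_eq_natCast.mp hm.symm
  have hτ : Tendsto (fun z : ℂ => 1 - z) (𝓝 (1 / 2)) (𝓝 (1 / 2)) := by
    have h1 : Continuous fun z : ℂ => 1 - z := by fun_prop
    have h2 := h1.tendsto (1 / 2)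
    norm_num at h2 ⊢
    exact h2
  have h1 := hτ.eventually hFg
  have h2 : ∀ᶠ z in 𝓝[≠] (1 / 2 : ℂ), (-1) ^ m * g (1 - z) = ε * g z := by
    rw [eventually_nhdsWithin_iff]
    filter_upwards [hFg, h1] with z hz hz' hne
    have hz0 : z - 1 / 2 ≠ 0 := sub_ne_zero.mpr hne
    rw [h, hz, smul_eq_mul, smul_eq_mul,
      show 1 - z - 1 / 2 = (-1) * (z - 1 / 2) by ring, mul_pow] at hz'
    apply mul_left_cancel₀ (pow_ne_zero m hz0)
    linear_combination -hz'
  have hc : Tendsto (fun z => (-1) ^ m * g (1 - z)) (𝓝[≠] (1 / 2 : ℂ)) (𝓝 ((-1) ^ m * g (1 / 2))) :=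
    ((hg.continuousAt.tendsto.comp hτ).const_mul _).mono_left nhdsWithin_le_nhds
  have hc' : Tendsto (fun z => ε * g z) (𝓝[≠] (1 / 2 : ℂ)) (𝓝 (ε * g (1 / 2))) :=
    (hg.continuousAt.tendsto.const_mul _).mono_left nhdsWithin_le_nhds
  have h3 := tendsto_nhds_unique (hc.congr' h2) hc'
  exact mul_right_cancel₀ hg0 h3

/-- A symmetric function is not the product of a symmetric and an antisymmetric one. -/
theorem false_of_parity {F G H a b : ℂ → ℂ} (hF : Differentiable ℂ F) (hG : Differentiable ℂ G)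
    (hH : Differentiable ℂ H) (ha : Differentiable ℂ a) (hb : Differentiable ℂ b)
    (ha0 : a (1 / 2) ≠ 0) (hb0 : b (1 / 2) ≠ 0)
    {s₁ s₂ s₃ : ℂ} (hF0 : F s₁ ≠ 0) (hG0 : G s₂ ≠ 0) (hH0 : H s₃ ≠ 0)
    (hF1 : ∀ s, F (1 - s) = F s) (hG1 : ∀ s, G (1 - s) = G s) (hH1 : ∀ s, H (1 - s) = -H s)
    (he : ∀ s, F s * a s = G s * H s * b s) : False := by
  obtain ⟨m, hm, hm'⟩ := parity hF hF0 (ε := 1) (fun s => by rw [hF1, one_mul])
  obtain ⟨n, hn, hn'⟩ := parity hG hG0 (ε := 1) (fun s => by rw [hG1, one_mul])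
  obtain ⟨k, hk, hk'⟩ := parity hH hH0 (ε := -1) (fun s => by rw [hH1, neg_one_mul])
  have hfun : F * a = G * H * b := funext he
  have h1 : analyticOrderAt (F * a) (1 / 2) = m := by
    rw [analyticOrderAt_mul (hF.analyticAt _) (ha.analyticAt _), hm,
      (ha.analyticAt (1 / 2)).analyticOrderAt_eq_zero.mpr ha0, add_zero]
  have h2 : analyticOrderAt (G * H * b) (1 / 2) = (n + k : ℕ) := by
    rw [analyticOrderAt_mul ((hG.analyticAt _).mul (hH.analyticAt _)) (hb.analyticAt _),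
      analyticOrderAt_mul (hG.analyticAt _) (hH.analyticAt _), hn, hk,
      (hb.analyticAt (1 / 2)).analyticOrderAt_eq_zero.mpr hb0, add_zero, Nat.cast_add]
  rw [hfun, h2, Nat.cast_inj] at h1
  rw [← h1, pow_add, hn', hk', one_mul] at hm'
  norm_num at hm'

end Parity

section Square

/-- An element of a finite abelian group killed by all characters of order two is a square. -/
theorem isSquare_of_forall {G : Type*} [CommGroup G] [Finite G] {x : G}
    (h : ∀ χ : G →* ℤˣ, χ x = 1) : IsSquare x := by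
  classical
  let S : Subgroup G := (powMonoidHom 2 : G →* G).range
  by_contra hx
  have hx1 : (x : G ⧸ S) ≠ 1 := by
    intro h1
    rw [QuotientGroup.eq_one_iff] at h1
    obtain ⟨y, hy⟩ := h1
    exact hx ⟨y, by rw [← hy, powMonoidHom_apply, sq]⟩
  obtain ⟨φ, hφ⟩ := CommGroup.exists_apply_ne_one_of_hasEnoughRootsOfUnity (G ⧸ S) ℂ hx1
  have h2 : ∀ q : G ⧸ S, φ q = 1 ∨ φ q = -1 := by
    intro q
    obtain ⟨g, rfl⟩ := QuotientGroup.mk_surjective q
    have h3 : (g : G ⧸ S) ^ 2 = 1 := by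
      rw [← QuotientGroup.mk_pow, QuotientGroup.eq_one_iff]
      exact ⟨g, rfl⟩
    have h4 : (φ (g : G ⧸ S)) ^ 2 = 1 := by rw [← map_pow, h3, map_one]
    have h5 : ((φ (g : G ⧸ S) : ℂˣ) : ℂ) ^ 2 = 1 := by
      rw [← Units.val_pow_eq_pow_val, h4, Units.val_one]
    rcases mul_self_eq_one_iff.mp ((sq _).symm.trans h5) with h6 | h6
    · exact Or.inl (Units.ext h6)
    · exact Or.inr (Units.ext h6)
  have hne : (1 : ℂˣ) ≠ -1 := by
    intro h7
    have h8 := congrArg (fun u : ℂˣ => (u : ℂ)) h7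
    norm_num at h8
  let χ : G →* ℤˣ :=
    { toFun := fun g => if φ (g : G ⧸ S) = 1 then 1 else -1
      map_one' := by
        rw [QuotientGroup.mk_one, map_one, if_pos rfl]
      map_mul' := fun g g' => by
        rw [QuotientGroup.mk_mul, map_mul]
        rcases h2 (g : G ⧸ S) with h3 | h3 <;> rcases h2 (g' : G ⧸ S) with h4 | h4 <;>
          rw [h3, h4] <;> simp [hne.symm] }
  have h9 := h χ
  change (if φ (x : G ⧸ S) = 1 then 1 else -1 : ℤˣ) = 1 at h9
  rw [if_neg hφ] at h9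
  exact absurd h9 (by decide)

end Square

end Fermat.Agent.Cor.Diff
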