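import Fermat.Agent.Corollaries.ZetaK.ThreeFourLK
import Fermat.Agent.Corollaries.ZetaK.EulerK
import Fermat.Agent.Corollaries.Diff.Parity
import Fermat.Agent.CFT.Global.Defs

/-!
# The functional equations of `ζ_L = ζ_K L(s, χ)`

`L / K` an extension of number fields, `χ` a character of the class group of `K` with values `± 1`
such that at almost all places `v` of `K` the Euler factor of `ζ_L` above `v` is
`(1 - N v ^ (-s)) (1 - χ(v) N v ^ (-s))`.  Then `χ` is trivial on the class of the different of `K`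
(`chi_diffClass`): the order of vanishing at `1/2` of the completed functions of `ζ_L` and `ζ_K` is
even, the one of `L(s, χ)` is odd if `χ(𝔡) = -1`.
-/

set_option autoImplicit false

noncomputable section

namespace Fermat.Agent.Cor.Diff

open NumberField IsDedekindDomain Filter Topology Fermat.Agent.Classic.Zeta
open Fermat.Agent.CFT.Global (above mem_above)
open scoped nonZeroDivisors

section Def

variable {K : Type*} [Field K] [NumberField K]

/-- the class of a place -/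
def cls (v : HeightOneSpectrum (𝓞 K)) : ClassGroup (𝓞 K) :=
  ClassGroup.mk0 ⟨v.asIdeal, mem_nonZeroDivisors_of_ne_zero v.ne_bot⟩

/-- `N v ^ (-s)` -/
def nv (v : HeightOneSpectrum (𝓞 K)) (s : ℂ) : ℂ := (Ideal.absNorm v.asIdeal : ℂ) ^ (-s)

theorem two_le_absNorm' (v : HeightOneSpectrum (𝓞 K)) : 2 ≤ Ideal.absNorm v.asIdeal := by
  have h0 : Ideal.absNorm v.asIdeal ≠ 0 := by
    rw [Ne, Ideal.absNorm_eq_zero_iff]
    exact v.ne_bot
  have h1 : Ideal.absNorm v.asIdeal ≠ 1 := fun h =>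
    v.isPrime.ne_top (Ideal.absNorm_eq_one_iff.mp h)
  omega

theorem differentiable_nv (v : HeightOneSpectrum (𝓞 K)) : Differentiable ℂ (nv v) := by
  have h : ((Ideal.absNorm v.asIdeal : ℕ) : ℂ) ≠ 0 := by
    have := two_le_absNorm' v
    exact_mod_cast (by omega : Ideal.absNorm v.asIdeal ≠ 0)
  intro s
  exact (differentiableAt_id.neg).const_cpow (Or.inl h)

theorem norm_nv_half_lt_one (v : HeightOneSpectrum (𝓞 K)) : ‖nv v (1 / 2)‖ < 1 := by
  have h2 := two_le_absNorm' v
  rw [nv, Complex.norm_natCast_cpow_of_pos (by omega)]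
  have h3 : (-(1 / 2 : ℂ)).re = -(1 / 2) := by norm_num
  rw [h3]
  exact Real.rpow_lt_one_of_one_lt_of_neg (by exact_mod_cast (by omega : 1 < Ideal.absNorm v.asIdeal))
    (by norm_num)

theorem one_sub_mul_nv_ne_zero (v : HeightOneSpectrum (𝓞 K)) {c : ℂ} (hc : ‖c‖ ≤ 1) :
    1 - c * nv v (1 / 2) ≠ 0 := by
  intro h
  have h1 : ‖c * nv v (1 / 2)‖ < 1 := by
    rw [norm_mul]
    calc ‖c‖ * ‖nv v (1 / 2)‖ ≤ 1 * ‖nv v (1 / 2)‖ :=
          mul_le_mul_of_nonneg_right hc (norm_nonneg _)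
      _ < 1 := by rw [one_mul]; exact norm_nv_half_lt_one v
  rw [← sub_eq_zero.mp h, norm_one] at h1
  exact lt_irrefl _ h1

/-- **Euler product** of the L-function of a class group character, over the places. -/
theorem hasProd_LK (χ : ClassGroup (𝓞 K) →* ℂˣ) {s : ℂ} (hs : 1 < s.re) :
    HasProd (fun v : HeightOneSpectrum (𝓞 K) => 1 - (χ (cls v) : ℂ) * nv v s) (LK χ s)⁻¹ := by
  have h := Fermat.Agent.ClassL.tendsto_prod (K := K) (f := chiHom χ s) (summable_norm_chiHom χ hs)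
  have h0 := LK_ne_zero_of_one_lt_re χ hs
  have e : ∑' I, chiHom χ s I = LK χ s := (LK_eq_tsum χ hs).symm
  rw [e] at h
  have h1 : HasProd (fun P : Fermat.Agent.ClassL.Pr K => 1 - chiHom χ s P.1) (LK χ s)⁻¹ := by
    have h2 := h.mul_const (LK χ s)⁻¹
    rw [one_mul] at h2
    refine h2.congr fun S => ?_
    rw [mul_assoc, mul_inv_cancel₀ h0, mul_one]
  let e : HeightOneSpectrum (𝓞 K) ≃ Fermat.Agent.ClassL.Pr K :=
    Equiv.ofBijective EulerK.toPr ⟨EulerK.toPr_injective, EulerK.toPr_surjective⟩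
  exact (e.hasProd_iff (f := fun P : Fermat.Agent.ClassL.Pr K => 1 - chiHom χ s P.1)).mpr h1

theorem hasProd_zetaK {s : ℂ} (hs : 1 < s.re) :
    HasProd (fun v : HeightOneSpectrum (𝓞 K) => 1 - nv v s) (zetaK K s)⁻¹ := by
  have h := hasProd_LK (1 : ClassGroup (𝓞 K) →* ℂˣ) hs
  rw [LK_one] at h
  simpa only [MonoidHom.one_apply, Units.val_one, one_mul] using h

end Def

open scoped Classical in
theorem hasProd_ite {ι : Type*} (T : Finset ι) (f : ι → ℂ) :
    HasProd (fun v => if v ∈ T then f v else 1) (∏ v ∈ T, f v) := by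
  have h : HasProd (fun v => if v ∈ T then f v else 1) (∏ v ∈ T, if v ∈ T then f v else 1) :=
    hasProd_prod_of_ne_finset_one (fun v hv => if_neg hv)
  rwa [Finset.prod_congr rfl (fun v hv => if_pos hv)] at h

section Ext

variable {K L : Type*} [Field K] [NumberField K] [Field L] [NumberField L] [Algebra K L]

/-- the Euler product of `ζ_L`, grouped by the places of `K` -/
theorem hasProd_fib {s : ℂ} (hs : 1 < s.re) :
    HasProd (fun v : HeightOneSpectrum (𝓞 K) => ∏ w ∈ above L {v}, (1 - nv w s))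
      (zetaK L s)⁻¹ := by
  let e : (Σ v : HeightOneSpectrum (𝓞 K), {w : HeightOneSpectrum (𝓞 L) // w.under (𝓞 K) = v}) ≃
      HeightOneSpectrum (𝓞 L) :=
    Equiv.sigmaFiberEquiv (fun w : HeightOneSpectrum (𝓞 L) => w.under (𝓞 K))
  have h := (e.hasProd_iff (f := fun w : HeightOneSpectrum (𝓞 L) => 1 - nv w s)).mpr
    (hasProd_zetaK hs)
  have hfin : ∀ v : HeightOneSpectrum (𝓞 K),
      Fintype {w : HeightOneSpectrum (𝓞 L) // w.under (𝓞 K) = v} := fun v =>
    Fintype.subtype (above L {v}) (fun w => by rw [mem_above, Finset.mem_singleton])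
  refine h.sigma fun v => ?_
  have e1 : ∏ w ∈ above L {v}, (1 - nv w s) =
      ∏ w : {w : HeightOneSpectrum (𝓞 L) // w.under (𝓞 K) = v}, (1 - nv w.1 s) :=
    Finset.prod_subtype _ (fun w => by rw [mem_above, Finset.mem_singleton]) _
  rw [e1]
  exact hasProd_fintype _

/-- the Euler factors of `ζ_K L(s, χ)` -/
def facK (χ : ClassGroup (𝓞 K) →* ℂˣ) (v : HeightOneSpectrum (𝓞 K)) (s : ℂ) : ℂ :=
  (1 - nv v s) * (1 - (χ (cls v) : ℂ) * nv v s)

variable (L) in
/-- the Euler factors of `ζ_L` -/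
def facL (v : HeightOneSpectrum (𝓞 K)) (s : ℂ) : ℂ := ∏ w ∈ above L {v}, (1 - nv w s)

theorem zetaK_ne_zero_of_one_lt_re' {s : ℂ} (hs : 1 < s.re) : zetaK K s ≠ 0 := by
  rw [← LK_one]
  exact LK_ne_zero_of_one_lt_re _ hs

theorem zeta_identity (χ : ClassGroup (𝓞 K) →* ℂˣ) (T : Finset (HeightOneSpectrum (𝓞 K)))
    (hdec : ∀ v, v ∉ T → ∀ s, facL L v s = facK χ v s) {s : ℂ} (hs : 1 < s.re) :
    zetaK K s * LK χ s * ∏ v ∈ T, facK χ v s = zetaK L s * ∏ v ∈ T, facL L v s := by
  classical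
  have h1 : HasProd (fun v => facK χ v s) ((zetaK K s)⁻¹ * (LK χ s)⁻¹) :=
    (hasProd_zetaK hs).mul (hasProd_LK χ hs)
  have h2 : HasProd (fun v => facL L v s) (zetaK L s)⁻¹ := hasProd_fib (K := K) (L := L) hs
  have h3 : HasProd (fun v => if v ∈ T then facL L v s else 1) (∏ v ∈ T, facL L v s) :=
    hasProd_ite T fun v => facL L v s
  have h4 : HasProd (fun v => if v ∈ T then facK χ v s else 1) (∏ v ∈ T, facK χ v s) :=
    hasProd_ite T fun v => facK χ v s
  have h5 := h1.mul h3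
  have h6 := h2.mul h4
  have h7 : (fun v => facK χ v s * (if v ∈ T then facL L v s else 1)) =
      fun v => facL L v s * (if v ∈ T then facK χ v s else 1) := by
    funext v
    split_ifs with hv
    · ring
    · rw [hdec v hv s]
  rw [h7] at h5
  have h8 : (zetaK K s)⁻¹ * (LK χ s)⁻¹ * ∏ v ∈ T, facL L v s =
      (zetaK L s)⁻¹ * ∏ v ∈ T, facK χ v s := h5.unique h6
  have hK : zetaK K s ≠ 0 := zetaK_ne_zero_of_one_lt_re' hs
  have hL : zetaK L s ≠ 0 := zetaK_ne_zero_of_one_lt_re' hs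
  have hχ : LK χ s ≠ 0 := LK_ne_zero_of_one_lt_re χ hs
  field_simp at h8
  linear_combination -h8

end Ext

end Fermat.Agent.Cor.Diff

end
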