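import Fermat.Agent.Corollaries.Diff.ArmFr

/-!
# Unramified quadratic extensions of an arbitrary number field

`K` an arbitrary number field.

* `exists_quadratic_field_narrow`, `existsUnique_character_narrow`: the quadratic characters
  `χ ≠ 1` of the narrow class group correspond to the quadratic extensions `L / K` which are
  unramified at all finite places: `χ(v) = -1` iff `v` is inert in `L`.  `L / K` is also unramified
  at the infinite places iff `χ` is a character of the class group.
* `exists_quadratic_field_wide`, `existsUnique_character_wide`: the same for the class group and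
  the quadratic extensions which are unramified at all finite and infinite places.
* `even_card_narrow_iff`, `even_classNumber_iff_wide`: the narrow class number (the class number)
  is even iff `K` has a quadratic extension which is unramified at all finite (at all) places.
-/

set_option autoImplicit false

noncomputable section

namespace Fermat.Agent.Cor.Diff

open NumberField IsDedekindDomain
open Fermat.Agent.CFT.Global (LocalSymbols locPow pow_mem_locPow)
open Fermat.Agent.LT (IsRay)
open Fermat.Agent.CFT.Global2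

section Infinite

variable {K L : Type*} [Field K] [NumberField K] [Field L] [NumberField L] [Algebra K L]

/-- a real embedding of `K` extends to a real embedding of `L` if `L / K` is unramified at the
infinite places -/
theorem exists_real_ext [IsUnramifiedAtInfinitePlaces K L] (σ : K →+* ℝ) :
    ∃ ψ : L →+* ℝ, ∀ x : K, ψ (algebraMap K L x) = σ x := by
  let f : K →+* ℂ := Complex.ofRealHom.comp σ
  let _ : Algebra K ℂ := f.toAlgebra
  have hal : Algebra.IsAlgebraic K L := inferInstance
  let φ : L →ₐ[K] ℂ := IsAlgClosed.lift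
  have hφ : (φ : L →+* ℂ).comp (algebraMap K L) = f := by
    ext x
    exact φ.commutes x
  have hreal : (InfinitePlace.mk (φ : L →+* ℂ)).IsReal := by
    have h1 := IsUnramifiedAtInfinitePlaces.isUnramified (k := K)
      (InfinitePlace.mk (φ : L →+* ℂ))
    rw [InfinitePlace.isUnramified_iff] at h1
    refine h1.resolve_right ?_
    rw [InfinitePlace.comap_mk, hφ, ← InfinitePlace.not_isReal_iff_isComplex, not_not]
    exact isReal_mk_ofReal σ
  rw [InfinitePlace.isReal_mk_iff] at hreal
  refine ⟨hreal.embedding, fun x => ?_⟩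
  have h2 : ((hreal.embedding (algebraMap K L x) : ℝ) : ℂ) = ((σ x : ℝ) : ℂ) := by
    rw [ComplexEmbedding.IsReal.coe_embedding_apply]
    exact congrArg (fun g : K →+* ℂ => g x) hφ
  exact_mod_cast h2

variable [IsGalois K L]

/-- `K(√b) / K` is unramified at the infinite places iff `b` is totally positive. -/
theorem isUnramifiedAtInfinitePlaces_iff (h2 : Module.finrank K L = 2) {τ : L ≃ₐ[K] L} (hτ : τ ≠ 1)
    {α : L} {b : Kˣ} (hα : α ^ 2 = algebraMap K L b) (hτα : τ α = -α) :
    IsUnramifiedAtInfinitePlaces K L ↔ ∀ σ : K →+* ℝ, 0 < σ (b : K) := by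
  have hα0 : α ≠ 0 := by
    rintro rfl
    rw [zero_pow two_ne_zero] at hα
    exact (map_ne_zero (algebraMap K L)).mpr b.ne_zero hα.symm
  constructor
  · intro h σ
    obtain ⟨ψ, hψ⟩ := exists_real_ext (L := L) σ
    rw [← hψ, ← hα, map_pow]
    have : ψ α ≠ 0 := (map_ne_zero ψ).mpr hα0
    positivity
  · intro hb
    refine ⟨fun w => ?_⟩
    rw [InfinitePlace.isUnramified_iff]
    by_cases hw : (w.comap (algebraMap K L)).IsReal
    · left
      have h1 : w.comap (algebraMap K L) = InfinitePlace.mk (w.embedding.comp (algebraMap K L)) := by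
        conv_lhs => rw [← InfinitePlace.mk_embedding w]
        rw [InfinitePlace.comap_mk]
      rw [h1, InfinitePlace.isReal_mk_iff] at hw
      have hK : ∀ x : K, (starRingEnd ℂ) (w.embedding (algebraMap K L x)) =
          w.embedding (algebraMap K L x) := fun x =>
        congrArg (fun g : K →+* ℂ => g x) (ComplexEmbedding.isReal_iff.mp hw)
      -- the image of `α` is real
      have hreal : (starRingEnd ℂ) (w.embedding α) = w.embedding α := by
        have h3 : w.embedding α ^ 2 = ((√(hw.embedding b) : ℝ) : ℂ) ^ 2 := by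
          rw [← map_pow, hα]
          have h4 : ((hw.embedding b : ℝ) : ℂ) = w.embedding (algebraMap K L b) :=
            ComplexEmbedding.IsReal.coe_embedding_apply hw b
          rw [← h4, ← Complex.ofReal_pow, Real.sq_sqrt (hb _).le]
        rcases sq_eq_sq_iff_eq_or_eq_neg.mp h3 with h4 | h4
        · rw [h4, Complex.conj_ofReal]
        · rw [h4, map_neg, Complex.conj_ofReal]
      rw [← InfinitePlace.mk_embedding w, InfinitePlace.isReal_mk_iff, ComplexEmbedding.isReal_iff]
      ext x
      rw [ComplexEmbedding.conjugate_coe_eq]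
      have hττ : ∀ z : L, τ (τ z) = z := Unr.apply_apply h2 hτ
      obtain ⟨p, hp⟩ := Unr.mem_range_of_fixed h2 hτ (x := x + τ x) (by
        rw [map_add, hττ, add_comm])
      obtain ⟨q, hq⟩ := Unr.mem_range_of_fixed h2 hτ (x := (x - τ x) / α) (by
        rw [map_div₀, map_sub, hττ, hτα, div_neg, ← neg_div, neg_sub])
      have hx : x = (algebraMap K L p + algebraMap K L q * α) / 2 := by
        rw [hp, hq]
        field_simp
        ring
      rw [hx, map_div₀, map_div₀, map_add, map_add, map_mul, map_mul, hK, hK, hreal, map_ofNat,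
        map_ofNat]
    · right
      rwa [InfinitePlace.not_isReal_iff_isComplex] at hw

end Infinite

section Narrow

variable {K : Type} [Field K] [NumberField K]

theorem units_ne_one_iff (u : ℤˣ) : u = -1 ↔ u ≠ 1 := by
  revert u
  decide

/-- **Existence theorem** for the quadratic characters of the narrow class group. -/
theorem exists_quadratic_field_narrow {χ : NarrowClassGroup K →* ℤˣ} (hχ : χ ≠ 1) :
    ∃ (L : Type) (_ : Field L) (_ : NumberField L) (_ : Algebra K L), IsGalois K L ∧
      Module.finrank K L = 2 ∧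
      (∀ w : HeightOneSpectrum (𝓞 L), Algebra.IsUnramifiedAt (𝓞 K) w.asIdeal) ∧
      (∀ v : HeightOneSpectrum (𝓞 K),
        (χ (ncls v) = -1 ↔ (v.asIdeal.map (algebraMap (𝓞 K) (𝓞 L))).IsPrime)) ∧
      (IsUnramifiedAtInfinitePlaces K L ↔
        ∃ ψ : ClassGroup (𝓞 K) →* ℤˣ, ψ.comp (toClass K) = χ) := by
  obtain ⟨LS⟩ := Fermat.Agent.CFT.Bridge.nonempty_localSymbols_all K
    (Unr.isPrimitiveRoot_neg_one' K)
  obtain ⟨b, hb⟩ := exists_kumSym LS (isRayP_ent χ)
  have hb2 : ∀ c : Kˣ, c ^ 2 ≠ b := by
    rintro c rfl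
    apply hχ
    refine nchar_ext fun v => ?_
    rw [MonoidHom.one_apply, ← ent_eq_zero_iff, hb.eq_zero_iff v]
    exact pow_mem_locPow 2 v c
  obtain ⟨L, _, _, _, hgal, σ, α, h2, hσ, hα, hσα⟩ := exists_sqrt_ext hb2
  have he : ∀ w : HeightOneSpectrum (𝓞 L),
      (w.under (𝓞 K)).asIdeal.ramificationIdx' w.asIdeal = 1 := fun w =>
    hb.edeg_eq_one h2 hσ hα hσα w
  refine ⟨L, inferInstance, inferInstance, inferInstance, hgal, h2,
    fun w => (isUnramifiedAt_iff w).mpr (he w), fun v => ?_, ?_⟩
  · rw [← inert_iff_isPrime_map h2 he v, units_ne_one_iff, Ne, ← ent_eq_zero_iff, hb.eq_zero_iff v,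
      Unr.mem_locPow_iff_not_inert h2 hσ hα hσα (by rintro w rfl; exact he w), not_not]
  · rw [isUnramifiedAtInfinitePlaces_iff h2 hσ hα hσα, ← hb.isRay_iff]
    constructor
    · intro h
      obtain ⟨ψ, hψ⟩ := exists_chi_of_isRay h
      refine ⟨ψ, nchar_ext fun v => ?_⟩
      have h3 : Function.Injective sg := (injective_iff_map_eq_one sg).mpr fun u hu =>
        (sg_eq_one_iff u).mp hu
      apply h3
      have h4 : ent (ψ.comp (toClass K)) v = ent χ v := by rw [ent_comp_toClass, hψ v]
      exact h4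
    · rintro ⟨ψ, rfl⟩
      have h4 : ent (ψ.comp (toClass K)) = et ψ := funext fun v => ent_comp_toClass ψ v
      rw [h4]
      exact isRay_et ψ

open Classical in
/-- **Reciprocity** for the quadratic extensions which are unramified at all finite places. -/
theorem existsUnique_character_narrow {L : Type*} [Field L] [NumberField L]
    [Algebra K L] [IsGalois K L] (h2 : Module.finrank K L = 2)
    (he : ∀ w : HeightOneSpectrum (𝓞 L), Algebra.IsUnramifiedAt (𝓞 K) w.asIdeal) :
    ∃ χ : NarrowClassGroup K →* ℤˣ, χ ≠ 1 ∧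
      (∀ v : HeightOneSpectrum (𝓞 K),
        (χ (ncls v) = -1 ↔ (v.asIdeal.map (algebraMap (𝓞 K) (𝓞 L))).IsPrime)) ∧
      (∀ χ' : NarrowClassGroup K →* ℤˣ, (∀ v : HeightOneSpectrum (𝓞 K),
        (χ' (ncls v) = -1 ↔ (v.asIdeal.map (algebraMap (𝓞 K) (𝓞 L))).IsPrime)) → χ' = χ) ∧
      (IsUnramifiedAtInfinitePlaces K L ↔
        ∃ ψ : ClassGroup (𝓞 K) →* ℤˣ, ψ.comp (toClass K) = χ) := by
  have he' := fun w => (isUnramifiedAt_iff (K := K) w).mp (he w)
  obtain ⟨LS⟩ := Fermat.Agent.CFT.Bridge.nonempty_localSymbols_all K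
    (Unr.isPrimitiveRoot_neg_one' K)
  have hG : Nat.card Gal(L/K) = 2 := by rw [IsGalois.card_aut_eq_finrank, h2]
  have : Nontrivial Gal(L/K) := by
    by_contra h
    rw [not_nontrivial_iff_subsingleton] at h
    have := Nat.card_of_subsingleton (1 : Gal(L/K))
    omega
  obtain ⟨σ, hσ⟩ := exists_ne (1 : Gal(L/K))
  obtain ⟨α, b, hα, hσα, hna, -⟩ := Unr.exists_gen_quad h2 hσ
  have hna' : ∀ c : Kˣ, c ^ 2 ≠ b := by
    intro c hc
    exact hna c (by rw [← hc, Units.val_pow_eq_pow_val])
  let η : HeightOneSpectrum (𝓞 K) → ZMod 2 := fun v => if Unr.Inert L v then 1 else 0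
  have hη0 : ∀ v, η v = 0 ↔ ¬ Unr.Inert L v := by
    intro v
    change (if Unr.Inert L v then (1 : ZMod 2) else 0) = 0 ↔ _
    split_ifs with h
    · simp [h]
    · simp [h]
  have hb : KumSym LS η b := kumSym_of_unramified LS h2 he' hσ hα hσα hna' hη0
  obtain ⟨χ, hχ⟩ := exists_nchar hb.isRayP
  have hχη : ent χ = η := funext hχ
  have hlaw : ∀ v : HeightOneSpectrum (𝓞 K),
      (χ (ncls v) = -1 ↔ (v.asIdeal.map (algebraMap (𝓞 K) (𝓞 L))).IsPrime) := by
    intro v
    rw [← inert_iff_isPrime_map h2 he' v, units_ne_one_iff, Ne, ← ent_eq_zero_iff, hχ v, hη0 v,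
      not_not]
  refine ⟨χ, ?_, hlaw, fun χ' hχ' => nchar_ext fun v => ?_, ?_⟩
  · rintro rfl
    obtain ⟨c, hc⟩ := HM.exists_sq_of_forall_locPow ∅ (a := b) fun v _ =>
      (hb.eq_zero_iff v).mp (by rw [← hχ v, ent_eq_zero_iff]; rfl)
    exact hna' c hc
  · by_cases h1 : χ (ncls v) = -1
    · rw [h1]
      exact (hχ' v).mpr ((hlaw v).mp h1)
    · have h3 : ¬ χ' (ncls v) = -1 := fun h3 => h1 ((hlaw v).mpr ((hχ' v).mp h3))
      rw [units_ne_one_iff, not_not] at h1 h3
      rw [h1, h3]
  · rw [isUnramifiedAtInfinitePlaces_iff h2 hσ hα hσα, ← hb.isRay_iff]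
    constructor
    · intro h
      obtain ⟨ψ, hψ⟩ := exists_chi_of_isRay h
      refine ⟨ψ, nchar_ext fun v => ?_⟩
      have h3 : Function.Injective sg := (injective_iff_map_eq_one sg).mpr fun u hu =>
        (sg_eq_one_iff u).mp hu
      apply h3
      have h4 : ent (ψ.comp (toClass K)) v = ent χ v := by rw [ent_comp_toClass, hψ v, hχ v]
      exact h4
    · rintro ⟨ψ, rfl⟩
      have h4 : ent (ψ.comp (toClass K)) = et ψ := funext fun v => ent_comp_toClass ψ v
      rw [← hχη, h4]
      exact isRay_et ψ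

/-- **The narrow class number is even** iff `K` has a quadratic extension which is unramified at
all finite places. -/
theorem even_card_narrow_iff : Even (Nat.card (NarrowClassGroup K)) ↔
    ∃ (L : Type) (_ : Field L) (_ : NumberField L) (_ : Algebra K L), IsGalois K L ∧
      Module.finrank K L = 2 ∧
      ∀ w : HeightOneSpectrum (𝓞 L), Algebra.IsUnramifiedAt (𝓞 K) w.asIdeal := by
  rw [even_card_iff]
  constructor
  · rintro ⟨χ, hχ⟩
    obtain ⟨L, _, _, _, hgal, h2, he, -⟩ := exists_quadratic_field_narrow hχ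
    exact ⟨L, inferInstance, inferInstance, inferInstance, hgal, h2, he⟩
  · rintro ⟨L, _, _, _, hgal, h2, he⟩
    obtain ⟨χ, hχ, -⟩ := existsUnique_character_narrow h2 he
    exact ⟨χ, hχ⟩

end Narrow

section Wide

variable {K : Type} [Field K] [NumberField K]

theorem comp_toClass_injective {ψ ψ' : ClassGroup (𝓞 K) →* ℤˣ}
    (h : ψ.comp (toClass K) = ψ'.comp (toClass K)) : ψ = ψ' := by
  ext c
  obtain ⟨d, rfl⟩ := toClass_surjective c
  exact congrArg _ (congrArg (fun g : NarrowClassGroup K →* ℤˣ => g d) h)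

/-- **Existence theorem** for the quadratic characters of the class group of an arbitrary number
field. -/
theorem exists_quadratic_field_wide {χ : ClassGroup (𝓞 K) →* ℤˣ} (hχ : χ ≠ 1) :
    ∃ (L : Type) (_ : Field L) (_ : NumberField L) (_ : Algebra K L), IsGalois K L ∧
      Module.finrank K L = 2 ∧
      (∀ w : HeightOneSpectrum (𝓞 L), Algebra.IsUnramifiedAt (𝓞 K) w.asIdeal) ∧
      IsUnramifiedAtInfinitePlaces K L ∧
      ∀ v : HeightOneSpectrum (𝓞 K),
        (χ (cls v) = -1 ↔ (v.asIdeal.map (algebraMap (𝓞 K) (𝓞 L))).IsPrime) := by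
  have hχ' : χ.comp (toClass K) ≠ 1 := fun h => hχ (comp_toClass_injective (by rw [h]; rfl))
  obtain ⟨L, _, _, _, hgal, h2, he, hlaw, hinf⟩ := exists_quadratic_field_narrow hχ'
  refine ⟨L, inferInstance, inferInstance, inferInstance, hgal, h2, he, hinf.mpr ⟨χ, rfl⟩,
    fun v => ?_⟩
  rw [← hlaw v, MonoidHom.comp_apply, toClass_ncls]

/-- **Reciprocity** for the quadratic extensions of an arbitrary number field which are unramified
at all finite and infinite places. -/
theorem existsUnique_character_wide {L : Type*} [Field L] [NumberField L]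
    [Algebra K L] [IsGalois K L] [IsUnramifiedAtInfinitePlaces K L] (h2 : Module.finrank K L = 2)
    (he : ∀ w : HeightOneSpectrum (𝓞 L), Algebra.IsUnramifiedAt (𝓞 K) w.asIdeal) :
    ∃ χ : ClassGroup (𝓞 K) →* ℤˣ, χ ≠ 1 ∧
      (∀ v : HeightOneSpectrum (𝓞 K),
        (χ (cls v) = -1 ↔ (v.asIdeal.map (algebraMap (𝓞 K) (𝓞 L))).IsPrime)) ∧
      ∀ χ' : ClassGroup (𝓞 K) →* ℤˣ, (∀ v : HeightOneSpectrum (𝓞 K),
        (χ' (cls v) = -1 ↔ (v.asIdeal.map (algebraMap (𝓞 K) (𝓞 L))).IsPrime)) → χ' = χ := by
  obtain ⟨χ, hχ1, hlaw, huniq, hinf⟩ := existsUnique_character_narrow h2 he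
  obtain ⟨ψ, rfl⟩ := hinf.mp inferInstance
  refine ⟨ψ, ?_, fun v => ?_, fun ψ' hψ' => comp_toClass_injective (huniq _ fun v => ?_)⟩
  · rintro rfl
    exact hχ1 rfl
  · rw [← hlaw v, MonoidHom.comp_apply, toClass_ncls]
  · rw [← hψ' v, MonoidHom.comp_apply, toClass_ncls]

/-- **Hilbert's theorem (1898)** over an arbitrary number field: the class number of `K` is even iff
`K` has a quadratic extension which is unramified at all finite and infinite places. -/
theorem even_classNumber_iff_wide : Even (classNumber K) ↔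
    ∃ (L : Type) (_ : Field L) (_ : NumberField L) (_ : Algebra K L), IsGalois K L ∧
      Module.finrank K L = 2 ∧
      (∀ w : HeightOneSpectrum (𝓞 L), Algebra.IsUnramifiedAt (𝓞 K) w.asIdeal) ∧
      IsUnramifiedAtInfinitePlaces K L := by
  rw [classNumber, ← Nat.card_eq_fintype_card, even_card_iff]
  constructor
  · rintro ⟨χ, hχ⟩
    obtain ⟨L, _, _, _, hgal, h2, he, hinf, -⟩ := exists_quadratic_field_wide hχ
    exact ⟨L, inferInstance, inferInstance, inferInstance, hgal, h2, he, hinf⟩
  · rintro ⟨L, _, _, _, hgal, h2, he, hinf⟩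
    obtain ⟨χ, hχ, -⟩ := existsUnique_character_wide h2 he
    exact ⟨χ, hχ⟩

end Wide

end Fermat.Agent.Cor.Diff

end
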