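import Fermat.Agent.LT.Quad.Triv
import Fermat.Agent.LT.Psi.Kummer
import Fermat.Agent.CFT.SClass
import Fermat.Agent.Corollaries.Diff.EulerQ

/-!
# Quadratic characters of the class group as ray characters and Kummer characters
-/

set_option autoImplicit false

noncomputable section

namespace Fermat.Agent.Cor.Diff

open NumberField IsDedekindDomain
open Fermat.Agent.LT (IsRay rayVal divVal divVal_single rayVal_apply)
open Fermat.Agent.CFT.SUnits (ord div idealOf classOf classOf_surjective classOf_eq_one_iff)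
open Fermat.Agent.CFT.Global (locPow pow_mem_locPow)
open scoped nonZeroDivisors

section General

variable {K : Type*} [Field K] [NumberField K]

/-- the isomorphism `{± 1} = ℤ/2` -/
def sg : ℤˣ →* Multiplicative (ZMod 2) where
  toFun u := Multiplicative.ofAdd (if u = 1 then 0 else 1)
  map_one' := rfl
  map_mul' a b := by
    revert a b
    decide

theorem sg_eq_one_iff (u : ℤˣ) : sg u = 1 ↔ u = 1 := by
  revert u
  decide

/-- a quadratic character of the class group as a function on the places with values in `ℤ/2` -/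
def et (χ : ClassGroup (𝓞 K) →* ℤˣ) (v : HeightOneSpectrum (𝓞 K)) : ZMod 2 :=
  if χ (cls v) = 1 then 0 else 1

theorem et_eq_zero_iff (χ : ClassGroup (𝓞 K) →* ℤˣ) (v : HeightOneSpectrum (𝓞 K)) :
    et χ v = 0 ↔ χ (cls v) = 1 := by
  rw [et]
  split_ifs with h
  · simp [h]
  · simp [h]

theorem classOf_single (v : HeightOneSpectrum (𝓞 K)) (m : ℤ) :
    classOf (Multiplicative.ofAdd (Finsupp.single v m)) = cls v ^ m := by
  change ClassGroup.mk K (idealOf K (Finsupp.single v m)) = _
  rw [idealOf, Finsupp.prod_single_index (zpow_zero _), map_zpow]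
  congr 1
  rw [cls, ← ClassGroup.mk_mk0 K]
  congr 1

theorem ofAdd_divVal (χ : ClassGroup (𝓞 K) →* ℤˣ) (D : HeightOneSpectrum (𝓞 K) →₀ ℤ) :
    Multiplicative.ofAdd (divVal ∅ (et χ) D) = sg (χ (classOf (Multiplicative.ofAdd D))) := by
  induction D using Finsupp.induction_linear with
  | zero =>
    rw [map_zero, ofAdd_zero, ofAdd_zero, map_one, map_one, map_one]
  | add D E hD hE =>
    rw [map_add, ofAdd_add, hD, hE, ofAdd_add, map_mul, map_mul, map_mul]
  | single v m =>
    rw [divVal_single ∅ (et χ) (Finset.notMem_empty v) m, classOf_single, map_zpow, map_zpow,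
      ofAdd_zsmul]
    rfl

/-- A quadratic character of the class group is a ray character. -/
theorem isRay_et (χ : ClassGroup (𝓞 K) →* ℤˣ) : IsRay ∅ 0 (et χ) := by
  intro x _
  have h : classOf (Multiplicative.ofAdd (div (R := 𝓞 K) x)) = 1 :=
    (classOf_eq_one_iff _).mpr ⟨x, rfl⟩
  rw [rayVal_apply, ofAdd_divVal, h, map_one, map_one]

/-- A character of the class group which is trivial on almost all primes is trivial. -/
theorem eq_one_of_forall (χ : ClassGroup (𝓞 K) →* ℤˣ) (T : Finset (HeightOneSpectrum (𝓞 K)))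
    (h : ∀ v, v ∉ T → χ (cls v) = 1) : χ = 1 := by
  have h1 := Fermat.Agent.LT.Quad.eq_zero_of_large (isRay_et χ) (T := T)
    (fun v hv => (et_eq_zero_iff χ v).mpr (h v hv))
  have h2 : et χ = fun _ => 0 := funext fun v => h1 v (Finset.notMem_empty v)
  ext C
  obtain ⟨D, rfl⟩ := classOf_surjective C
  have h3 : divVal ∅ (et χ) D.toAdd = 0 := by
    rw [h2, Fermat.Agent.LT.divVal_apply]
    refine Finset.sum_eq_zero fun v _ => ?_
    simp
  have h4 := ofAdd_divVal χ D.toAdd
  rw [h3, ofAdd_zero, ofAdd_toAdd] at h4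
  rw [(sg_eq_one_iff _).mp h4.symm]
  rfl

end General

section Complex

variable {K : Type} [Field K] [NumberField K]

/-- **Quadratic characters of the class group are Kummer characters**, `K` totally complex. -/
theorem exists_kum_tc [IsTotallyComplex K] (χ : ClassGroup (𝓞 K) →* ℤˣ) :
    ∃ (b : Kˣ) (T : Finset (HeightOneSpectrum (𝓞 K))), ∀ v, v ∉ T →
      (χ (cls v) = 1 ↔ b ∈ locPow 2 v) := by
  obtain ⟨b, T, -, -, -, h⟩ := Fermat.Agent.LT.Quad.exists_kummer (p := 2)
    Fermat.Agent.LT.Quad.neg_one_root (isRay_et χ)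
  exact ⟨b, T, fun v hv => by rw [← et_eq_zero_iff, h v hv]⟩

end Complex

end Fermat.Agent.Cor.Diff

end
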