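import Fermat.Agent.LT.Tower.Kum
import Fermat.Agent.LT.Ray
import Fermat.Agent.Classic.Level.Disc.Orbits
import Fermat.Agent.TW.InertiaField
import Fermat.Agent.GalRep.Cyclo

set_option autoImplicit false

/-!
# Square classes and Frobenius elements over a number field

`K` a number field, `i : K → ℚ̄`. For `x ∈ Kˣ` and a square root `α` of `i x` the sign of `g ∈ G_K`
at `α` is `g α / α = ± 1`; at a place `v ∤ 2` with `ord_v x = 0` the Frobenius has sign `1` if and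
only if `x` is a square in `K_v`.
-/

namespace Fermat.Agent.Cor.Diff

open IsDedekindDomain NumberField
open Fermat.Agent.Frob Fermat.Agent.FrobDensity Fermat.Agent.Minkowski
open Fermat.Agent.LT.Tower.Fr
open Fermat.Agent.CFT.Global (locPow mem_locPow cong mem_cong cong_zero_le_locPow pow_mem_locPow)
open Fermat.Agent.CFT.SUnits (ord ord_mul ord_inv ord_pow ord_div ord_eq_zero_iff
  valuation_eq_exp_neg_ord finite_ord_ne_zero ord_one)

/-! ### Signs -/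

section Sign

/-- Two homomorphisms to `{± 1}` with `ker κ₁ ≤ ker κ`. -/
lemma eq_pow_of_ker {G : Type*} [Group G] (κ κ₁ : G →* ℤˣ) (h : ∀ g, κ₁ g = 1 → κ g = 1) :
    ∃ c : ℕ, c < 2 ∧ ∀ g, κ g = κ₁ g ^ c := by
  by_cases h1 : ∀ g, κ₁ g = 1
  · exact ⟨0, by norm_num, fun g => by rw [pow_zero]; exact h g (h1 g)⟩
  push Not at h1
  obtain ⟨g₁, hg₁⟩ := h1
  have hg₁' : κ₁ g₁ = -1 := (Int.units_eq_one_or _).resolve_left hg₁
  rcases Int.units_eq_one_or (κ g₁) with h2 | h2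
  · refine ⟨0, by norm_num, fun g => ?_⟩
    rw [pow_zero]
    rcases Int.units_eq_one_or (κ₁ g) with h3 | h3
    · exact h g h3
    · have h4 := h (g * g₁) (by rw [map_mul, h3, hg₁']; rfl)
      rwa [map_mul, h2, mul_one] at h4
  · refine ⟨1, by norm_num, fun g => ?_⟩
    rw [pow_one]
    rcases Int.units_eq_one_or (κ₁ g) with h3 | h3
    · rw [h3, h g h3]
    · have h4 := h (g * g₁) (by rw [map_mul, h3, hg₁']; rfl)
      rw [map_mul, h2] at h4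
      rw [h3]
      rcases Int.units_eq_one_or (κ g) with h5 | h5
      · rw [h5] at h4
        exact absurd h4 (by decide)
      · exact h5

/-- A homomorphism to `{± 1}` trivial on `ker κ₁ ∩ ker κ₂` is `κ₁ ^ c κ₂ ^ d`. -/
lemma eq_pow_mul_pow_of_ker {G : Type*} [Group G] (κ κ₁ κ₂ : G →* ℤˣ)
    (h : ∀ g, κ₁ g = 1 → κ₂ g = 1 → κ g = 1) :
    ∃ c d : ℕ, c < 2 ∧ d < 2 ∧ ∀ g, κ g = κ₁ g ^ c * κ₂ g ^ d := by
  obtain ⟨d, hd, h1⟩ := eq_pow_of_ker (κ.comp κ₁.ker.subtype) (κ₂.comp κ₁.ker.subtype)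
    (fun g hg => h g g.2 hg)
  obtain ⟨c, hc, h2⟩ := eq_pow_of_ker (κ * κ₂ ^ d) κ₁ (fun g hg => by
    have h3 : κ g = κ₂ g ^ d := h1 ⟨g, hg⟩
    rw [MonoidHom.mul_apply, MonoidHom.pow_apply, h3, ← mul_pow, Int.units_mul_self, one_pow])
  refine ⟨c, d, hc, hd, fun g => ?_⟩
  have h3 := h2 g
  rw [MonoidHom.mul_apply, MonoidHom.pow_apply] at h3
  rw [← h3, mul_assoc, ← mul_pow, Int.units_mul_self, one_pow, mul_one]

variable {K : Type*} [Field K] (i : K →+* AlgebraicClosure ℚ)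

/-- The automorphisms fixing `i K`. -/
def GK : Subgroup GQ where
  carrier := {g | ∀ x, g (i x) = i x}
  mul_mem' := by
    intro a b ha hb x
    rw [AlgEquiv.mul_apply, hb, ha]
  one_mem' := fun _ => rfl
  inv_mem' := by
    intro a ha x
    calc a⁻¹ (i x) = a⁻¹ (a (i x)) := by rw [ha x]
      _ = i x := a.symm_apply_apply _

/-- square roots of non-zero elements of `K` -/
structure Rt where
  /-- the root -/
  r : AlgebraicClosure ℚ
  /-- the element of `K` -/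
  x : Kˣ
  eq : r ^ 2 = i x

variable {i}

lemma Rt.ne_zero (α : Rt i) : α.r ≠ 0 := by
  intro h
  have h1 := α.eq
  rw [h, zero_pow two_ne_zero] at h1
  exact α.x.ne_zero (i.injective (by rw [← h1, map_zero]))

lemma Rt.map (α : Rt i) (g : GK i) : g.1 α.r = α.r ∨ g.1 α.r = -α.r := by
  apply sq_eq_sq_iff_eq_or_eq_neg.mp
  rw [← map_pow, α.eq, g.2]

lemma Rt.neg_ne (α : Rt i) : -α.r ≠ α.r := fun h => α.ne_zero (neg_eq_self.mp h)

open Classical in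
/-- the sign character of a square root -/
noncomputable def Rt.sgn (α : Rt i) : GK i →* ℤˣ where
  toFun g := if g.1 α.r = α.r then 1 else -1
  map_one' := if_pos rfl
  map_mul' g h := by
    have hmul : (g * h).1 α.r = g.1 (h.1 α.r) := rfl
    rw [hmul]
    rcases α.map g with hg | hg <;> rcases α.map h with hh | hh <;>
      simp [hg, hh, α.neg_ne]

lemma Rt.sgn_eq_one_iff (α : Rt i) (g : GK i) : α.sgn g = 1 ↔ g.1 α.r = α.r := by
  classical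
  change (if g.1 α.r = α.r then (1 : ℤˣ) else -1) = 1 ↔ _
  split_ifs with h
  · exact ⟨fun _ => h, fun _ => rfl⟩
  · exact ⟨fun h' => absurd h' (by decide), fun h' => absurd h' h⟩

/-- products of square roots -/
noncomputable def Rt.mul (α β : Rt i) : Rt i := ⟨α.r * β.r, α.x * β.x, by
  rw [mul_pow, α.eq, β.eq, Units.val_mul, map_mul]⟩

/-- powers of square roots -/
noncomputable def Rt.pow (α : Rt i) (c : ℕ) : Rt i := ⟨α.r ^ c, α.x ^ c, by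
  rw [← pow_mul, mul_comm, pow_mul, α.eq, Units.val_pow_eq_pow_val, map_pow]⟩

lemma Rt.smul_eq (α : Rt i) (g : GK i) : g.1 α.r = ((α.sgn g : ℤ) : AlgebraicClosure ℚ) * α.r := by
  rcases α.map g with h | h
  · rw [(α.sgn_eq_one_iff g).mpr h, h]
    simp
  · have h1 : α.sgn g = -1 := (Int.units_eq_one_or _).resolve_left fun h1 => by
      rw [α.sgn_eq_one_iff, h] at h1
      exact α.neg_ne h1
    rw [h1, h]
    simp

lemma Rt.sgn_mul (α β : Rt i) (g : GK i) : (α.mul β).sgn g = α.sgn g * β.sgn g := by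
  have h1 := (α.mul β).smul_eq g
  have h2 : g.1 (α.mul β).r = g.1 α.r * g.1 β.r := map_mul g.1 α.r β.r
  rw [h2, α.smul_eq g, β.smul_eq g] at h1
  have h3 : (((α.mul β).sgn g : ℤ) : AlgebraicClosure ℚ) =
      ((α.sgn g : ℤ) : AlgebraicClosure ℚ) * ((β.sgn g : ℤ) : AlgebraicClosure ℚ) := by
    have h4 : (α.mul β).r = α.r * β.r := rfl
    rw [h4] at h1
    have h5 : α.r * β.r ≠ 0 := mul_ne_zero α.ne_zero β.ne_zero
    apply mul_right_cancel₀ h5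
    rw [← h1]
    ring
  apply Units.ext
  rw [Units.val_mul]
  exact_mod_cast h3

lemma Rt.sgn_pow (α : Rt i) (c : ℕ) (g : GK i) : (α.pow c).sgn g = α.sgn g ^ c := by
  have h1 := (α.pow c).smul_eq g
  have h2 : g.1 (α.pow c).r = (g.1 α.r) ^ c := map_pow g.1 α.r c
  rw [h2, α.smul_eq g, mul_pow] at h1
  have h3 := mul_right_cancel₀ (pow_ne_zero c α.ne_zero) h1
  apply Units.ext
  rw [Units.val_pow_eq_pow_val]
  exact_mod_cast h3.symm

lemma exists_rt (i : K →+* AlgebraicClosure ℚ) (x : Kˣ) : ∃ α : Rt i, α.x = x := by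
  obtain ⟨r, hr⟩ := IsAlgClosed.exists_pow_nat_eq (i x) (n := 2) (by norm_num)
  exact ⟨⟨r, x, hr⟩, rfl⟩

end Sign

/-! ### Frobenius elements -/

section Frobenius

variable {K : Type*} [Field K] [NumberField K] {i : K →+* AlgebraicClosure ℚ}

/-- `g` is a Frobenius element at the place `v` of `K`. -/
def FrobAt (g : GK i) (v : HeightOneSpectrum (𝓞 K)) : Prop :=
  ∃ A : ValuationSubring (AlgebraicClosure ℚ), Over i A v ∧
    A.IsFrobeniusAt g.1 (Ideal.absNorm v.asIdeal)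

/-- The Frobenius at `v ∤ 2` has sign `1` if and only if `x` is a local square. -/
theorem sgn_frob_iff (α : Rt i) {g : GK i} {v : HeightOneSpectrum (𝓞 K)} (hg : FrobAt g v)
    (h2 : ((2 : ℕ) : 𝓞 K) ∉ v.asIdeal) (h0 : ord v α.x = 0) :
    α.sgn g = 1 ↔ α.x ∈ locPow 2 v := by
  obtain ⟨A, hA, hF⟩ := hg
  rw [α.sgn_eq_one_iff]
  exact fix_iff_mem_locPow (ζ := -1) Nat.prime_two (IsPrimitiveRoot.neg_one 0 (by norm_num)) h2 h0
    α.eq hA g.2 hF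

/-- Almost every place has a Frobenius element. -/
theorem exists_frobAt (i : K →+* AlgebraicClosure ℚ) : ∃ D : ℕ, D ≠ 0 ∧
    ∀ v : HeightOneSpectrum (𝓞 K), (D : 𝓞 K) ∉ v.asIdeal → ∃ g : GK i, FrobAt g v := by
  obtain ⟨D, hD, hgood⟩ := exists_good K
  refine ⟨D, hD, fun v hv => ?_⟩
  obtain ⟨p, A, hp, hA, hO⟩ := exists_over i v
  have hpv : (p : 𝓞 K) ∈ v.asIdeal := hO.natCast_mem_iff.mpr hA
  have hpD : ¬ p ∣ D := by
    rintro ⟨c, rfl⟩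
    apply hv
    rw [Nat.cast_mul]
    exact v.asIdeal.mul_mem_right _ hpv
  obtain ⟨σ, hσ⟩ := exists_isFrobeniusAt hp hA
  obtain ⟨f, -, hf⟩ := exists_absNorm_eq_pow hp hpv
  refine ⟨⟨σ ^ f, hO.frob_pow_apply hp (hgood p hp hpD) hA hσ hf⟩, A, hO, ?_⟩
  rw [hf]
  exact isFrobeniusAt_pow hσ f

/-- **Density** (Frobenius' theorem, for signs): for `g ∈ G_K`, square roots `α ∈ s` one of which is
moved by `g`, there are infinitely many places with a Frobenius element having the same signs. -/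
theorem exists_frob_sgn (g : GK i) (s : List (Rt i)) (hmove : ∃ α ∈ s, α.sgn g ≠ 1) {D : ℕ}
    (hD : D ≠ 0) : ∃ (v : HeightOneSpectrum (𝓞 K)) (φ : GK i), (D : 𝓞 K) ∉ v.asIdeal ∧
      FrobAt φ v ∧ ∀ α ∈ s, α.sgn φ = α.sgn g := by
  classical
  obtain ⟨D₁, hD₁, hgood⟩ := exists_good K
  let S : Set (AlgebraicClosure ℚ) := {x | ∃ α ∈ s, α.r = x}
  have hSfin : S.Finite := by
    have : S = (s.map (fun α : Rt i => α.r)).toFinset := by
      ext x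
      simp [S]
    rw [this]
    exact Finset.finite_toSet _
  let L₁ : IntermediateField ℚ (AlgebraicClosure ℚ) := i.toRatAlgHom.fieldRange
  have hL₁ : FiniteDimensional ℚ L₁ :=
    LinearEquiv.finiteDimensional
      (AlgEquiv.ofInjectiveField i.toRatAlgHom).toLinearEquiv
  have hf : Finite S := hSfin
  have hL₂ : FiniteDimensional ℚ (IntermediateField.adjoin ℚ S) :=
    IntermediateField.finiteDimensional_adjoin fun x _ => Algebra.IsIntegral.isIntegral x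
  let L : IntermediateField ℚ (AlgebraicClosure ℚ) := L₁ ⊔ IntermediateField.adjoin ℚ S
  have hL : FiniteDimensional ℚ L := IntermediateField.finiteDimensional_sup _ _
  have hLi : ∀ x : K, i x ∈ L := fun x => (le_sup_left : L₁ ≤ L) ⟨x, rfl⟩
  have hLS : ∀ α ∈ s, α.r ∈ L := fun α hα =>
    (le_sup_right : IntermediateField.adjoin ℚ S ≤ L)
      (IntermediateField.subset_adjoin ℚ S ⟨α, hα, rfl⟩)
  obtain ⟨p, hp, hpS, A, hA, φ, hφ, k, k', hk, hk'⟩ := exists_frobenius_on L g.1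
    {q : ℕ | q ∣ D * D₁} (by
      refine (Nat.divisors (D * D₁)).finite_toSet.subset fun q hq => ?_
      exact Nat.mem_divisors.mpr ⟨hq, mul_ne_zero hD hD₁⟩)
  have hpD : ¬ p ∣ D := fun h => hpS (Dvd.dvd.mul_right h D₁)
  have hpD₁ : ¬ p ∣ D₁ := fun h => hpS (Dvd.dvd.mul_left h D)
  have hφK : ∀ x, φ (i x) = i x := by
    intro x
    rw [hk _ (hLi x)]
    exact ((GK i).pow_mem g.2 k) x
  obtain ⟨v, hv⟩ := exists_over_of_liesOver i hp hA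
  have hpv : (p : 𝓞 K) ∈ v.asIdeal := hv.natCast_mem_iff.mpr hA
  obtain ⟨f, -, hf⟩ := exists_absNorm_eq_pow hp hpv
  have hf1 : f = 1 := by
    have h1 := (hv.frob_pow_comp_iff hp (hgood p hp hpD₁) hA hφ hf 1).mp (by
      rw [pow_one]
      exact RingHom.ext hφK)
    exact Nat.dvd_one.mp h1
  rw [hf1, pow_one] at hf
  have hk1 : ∀ α ∈ s, α.sgn g = α.sgn ⟨φ, hφK⟩ ^ k' := by
    intro α hα
    have h1 := hk' _ (hLS α hα)
    have h2 : ((⟨φ, hφK⟩ : GK i) ^ k').1 = φ ^ k' := rfl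
    rw [← map_pow]
    have h3 := α.smul_eq g
    have h4 := α.smul_eq ((⟨φ, hφK⟩ : GK i) ^ k')
    rw [h2, ← h1, h3] at h4
    have h5 := mul_right_cancel₀ α.ne_zero h4
    apply Units.ext
    exact_mod_cast h5
  have hodd : Odd k' := by
    obtain ⟨α, hα, h1⟩ := hmove
    by_contra h2
    rw [Nat.not_odd_iff_even] at h2
    apply h1
    rw [hk1 α hα]
    obtain ⟨m, rfl⟩ := h2
    rw [← two_mul, pow_mul, Int.units_sq, one_pow]
  refine ⟨v, ⟨φ, hφK⟩, ?_, ⟨A, hv, by rw [hf]; exact hφ⟩, fun α hα => ?_⟩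
  · intro hDv
    have h1 := prime_unique hp hp hpv hpv
    -- `D` and `p` are coprime
    have hcop : IsCoprime (p : ℤ) (D : ℤ) :=
      Nat.isCoprime_iff_coprime.mpr ((Nat.Prime.coprime_iff_not_dvd hp).mpr hpD)
    obtain ⟨a, b, hab⟩ := hcop
    apply v.isPrime.ne_top
    rw [Ideal.eq_top_iff_one]
    have h2 : (1 : 𝓞 K) = (a : 𝓞 K) * (p : 𝓞 K) + (b : 𝓞 K) * (D : 𝓞 K) := by
      exact_mod_cast congrArg (fun z : ℤ => (z : 𝓞 K)) hab.symm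
    rw [h2]
    exact v.asIdeal.add_mem (v.asIdeal.mul_mem_left _ hpv) (v.asIdeal.mul_mem_left _ hDv)
  · rw [hk1 α hα]
    obtain ⟨m, rfl⟩ := hodd
    rw [pow_succ, pow_mul, Int.units_sq, one_pow, one_mul]

/-- A finite set of places is excluded by an integer. -/
lemma exists_nat_mem (T : Set (HeightOneSpectrum (𝓞 K))) (hT : T.Finite) :
    ∃ D : ℕ, D ≠ 0 ∧ ∀ v ∈ T, (D : 𝓞 K) ∈ v.asIdeal := by
  refine ⟨∏ v ∈ hT.toFinset, Ideal.absNorm v.asIdeal, ?_, fun v hv => ?_⟩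
  · rw [Finset.prod_ne_zero_iff]
    intro v _
    rw [Ne, Ideal.absNorm_eq_zero_iff]
    exact v.ne_bot
  · obtain ⟨c, hc⟩ := Finset.dvd_prod_of_mem (fun v : HeightOneSpectrum (𝓞 K) =>
      Ideal.absNorm v.asIdeal) (hT.mem_toFinset.mpr hv)
    rw [hc, Nat.cast_mul]
    exact v.asIdeal.mul_mem_right _ (Ideal.absNorm_mem _)

lemma exists_nat_mem' (T : Set (HeightOneSpectrum (𝓞 K))) (hT : T.Finite) (D₀ : ℕ) (hD₀ : D₀ ≠ 0) :
    ∃ D : ℕ, D ≠ 0 ∧ ∀ v : HeightOneSpectrum (𝓞 K), (D : 𝓞 K) ∉ v.asIdeal →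
      v ∉ T ∧ (D₀ : 𝓞 K) ∉ v.asIdeal := by
  obtain ⟨D, hD, h⟩ := exists_nat_mem T hT
  refine ⟨D * D₀, mul_ne_zero hD hD₀, fun v hv => ⟨fun hvT => hv ?_, fun hv0 => hv ?_⟩⟩
  · rw [Nat.cast_mul]
    exact v.asIdeal.mul_mem_right _ (h v hvT)
  · rw [Nat.cast_mul]
    exact v.asIdeal.mul_mem_left _ hv0

end Frobenius

/-! ### Quadratic characters given on the places which split in `K(√a)` -/

section Main

variable {K : Type*} [Field K] [NumberField K]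

/-- At almost all places at which `a` is a local square, `η` is the quadratic character of `x`. -/
def Agree (η : HeightOneSpectrum (𝓞 K) → ZMod 2) (a x : Kˣ) : Prop :=
  ∃ T : Finset (HeightOneSpectrum (𝓞 K)), ∀ v, v ∉ T → a ∈ locPow 2 v →
    (η v = 0 ↔ x ∈ locPow 2 v)

lemma finite_natCast_mem {D : ℕ} (hD : D ≠ 0) :
    {v : HeightOneSpectrum (𝓞 K) | (D : 𝓞 K) ∈ v.asIdeal}.Finite := by
  have hDK : (D : K) ≠ 0 := by exact_mod_cast hD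
  refine (finite_ord_ne_zero (R := 𝓞 K) K (Units.mk0 (D : K) hDK)).subset fun v hv h0 => ?_
  rw [ord_eq_zero_iff] at h0
  have h1 : v.valuation K (algebraMap (𝓞 K) K (D : 𝓞 K)) = 1 := by
    rw [map_natCast]
    exact h0
  exact (v.valuation_eq_one_iff_notMem (K := K)).mp h1 hv

lemma exists_emb (K : Type*) [Field K] [NumberField K] : Nonempty (K →+* AlgebraicClosure ℚ) :=
  ⟨(IsAlgClosed.lift : K →ₐ[ℚ] AlgebraicClosure ℚ).toRingHom⟩

lemma ord_pow_eq_zero {v : HeightOneSpectrum (𝓞 K)} {x : Kˣ} (h : ord v x = 0) (c : ℕ) :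
    ord v (x ^ c) = 0 := by
  rw [ord_pow, h, mul_zero]

/-- **(B)** -/
theorem exists_exponent {η : HeightOneSpectrum (𝓞 K) → ZMod 2} {a₀ a b₀ b : Kˣ}
    (h₀ : Agree η a₀ b₀) (h : Agree η a b) : ∃ c : ℕ, c < 2 ∧ Agree η a (b₀ * a₀ ^ c) := by
  classical
  obtain ⟨i⟩ := exists_emb K
  obtain ⟨α₀, rfl⟩ := exists_rt i a₀
  obtain ⟨α, rfl⟩ := exists_rt i a
  obtain ⟨β₀, rfl⟩ := exists_rt i b₀
  obtain ⟨β, rfl⟩ := exists_rt i b
  obtain ⟨T₀, h₀⟩ := h₀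
  obtain ⟨T, h⟩ := h
  obtain ⟨DF, hDF, hfrob⟩ := exists_frobAt i
  let B : Set (HeightOneSpectrum (𝓞 K)) := (T₀ : Set _) ∪ (T : Set _) ∪
    {v | ord v α₀.x ≠ 0} ∪ {v | ord v α.x ≠ 0} ∪ {v | ord v β₀.x ≠ 0} ∪ {v | ord v β.x ≠ 0}
  have hB : B.Finite := ((((T₀.finite_toSet.union T.finite_toSet).union
    (finite_ord_ne_zero K _)).union (finite_ord_ne_zero K _)).union
    (finite_ord_ne_zero K _)).union (finite_ord_ne_zero K _)
  obtain ⟨D, hD, hDv⟩ := exists_nat_mem' B hB (2 * DF) (mul_ne_zero two_ne_zero hDF)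
  have hout : ∀ v : HeightOneSpectrum (𝓞 K), (D : 𝓞 K) ∉ v.asIdeal → v ∉ T₀ ∧ v ∉ T ∧
      ord v α₀.x = 0 ∧ ord v α.x = 0 ∧ ord v β₀.x = 0 ∧ ord v β.x = 0 ∧
      ((2 : ℕ) : 𝓞 K) ∉ v.asIdeal ∧ (DF : 𝓞 K) ∉ v.asIdeal := by
    intro v hv
    obtain ⟨h1, h2⟩ := hDv v hv
    simp only [B, Set.mem_union, Set.mem_ofPred_eq, not_or, not_not, Finset.mem_coe] at h1
    obtain ⟨⟨⟨⟨⟨h3, h4⟩, h5⟩, h6⟩, h7⟩, h8⟩ := h1
    refine ⟨h3, h4, h5, h6, h7, h8, fun h => h2 ?_, fun h => h2 ?_⟩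
    · rw [Nat.cast_mul]
      exact v.asIdeal.mul_mem_right _ h
    · rw [Nat.cast_mul]
      exact v.asIdeal.mul_mem_left _ h
  have key : ∀ g : GK i, α₀.sgn g = 1 → α.sgn g = 1 → (β₀.mul β).sgn g = 1 := by
    intro g hg₀ hg
    by_contra hne
    rw [Rt.sgn_mul] at hne
    have hmove : ∃ γ ∈ [α₀, α, β₀, β], γ.sgn g ≠ 1 := by
      by_contra hcon
      push Not at hcon
      apply hne
      rw [hcon β₀ (by simp), hcon β (by simp), one_mul]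
    obtain ⟨v, φ, hv, hφ, hs⟩ := exists_frob_sgn g _ hmove hD
    obtain ⟨hT₀, hT, o1, o2, o3, o4, h2, -⟩ := hout v hv
    have e1 : α₀.x ∈ locPow 2 v := (sgn_frob_iff α₀ hφ h2 o1).mp (by rw [hs α₀ (by simp), hg₀])
    have e2 : α.x ∈ locPow 2 v := (sgn_frob_iff α hφ h2 o2).mp (by rw [hs α (by simp), hg])
    have e3 : β₀.sgn φ = 1 ↔ β.sgn φ = 1 := by
      rw [sgn_frob_iff β₀ hφ h2 o3, sgn_frob_iff β hφ h2 o4, ← h₀ v hT₀ e1, ← h v hT e2]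
    apply hne
    rw [← hs β₀ (by simp), ← hs β (by simp)]
    rcases Int.units_eq_one_or (β₀.sgn φ) with h3 | h3 <;>
      rcases Int.units_eq_one_or (β.sgn φ) with h4 | h4 <;> rw [h3, h4] at e3 ⊢
    · rfl
    · exact absurd (e3.mp rfl) (by decide)
    · exact absurd (e3.mpr rfl) (by decide)
    · rfl
  obtain ⟨c, d, hc, hd, hcd⟩ := eq_pow_mul_pow_of_ker _ _ _ key
  refine ⟨c, hc, (finite_natCast_mem (K := K) hD).toFinset, fun v hv hav => ?_⟩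
  rw [Set.Finite.mem_toFinset] at hv
  obtain ⟨hT₀, hT, o1, o2, o3, o4, h2, hvF⟩ := hout v hv
  obtain ⟨g, hg⟩ := hfrob v hvF
  have e1 : α.sgn g = 1 := (sgn_frob_iff α hg h2 o2).mpr hav
  have e2 := hcd g
  rw [Rt.sgn_mul, e1, one_pow, mul_one] at e2
  have e3 : (β₀.mul (α₀.pow c)).sgn g = β.sgn g := by
    rw [Rt.sgn_mul, Rt.sgn_pow, ← e2, ← mul_assoc, Int.units_mul_self, one_mul]
  have o5 : ord v (β₀.mul (α₀.pow c)).x = 0 := by
    change ord v (β₀.x * α₀.x ^ c) = 0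
    rw [ord_mul, o3, ord_pow_eq_zero o1, add_zero]
  rw [h v hT hav, ← sgn_frob_iff β hg h2 o4, ← e3, sgn_frob_iff _ hg h2 o5]
  rfl

lemma valuation_natCast_of_coprime {A : ValuationSubring (AlgebraicClosure ℚ)} {q : ℕ}
    (hA : A.LiesOverPrime q) {b : ℕ} (hb : Nat.Coprime q b) :
    A.valuation (b : AlgebraicClosure ℚ) = 1 := by
  have h1 := GalRep.residue_natCast_ne_zero hA hb
  have h2 : IsUnit (b : A) := by
    rw [← IsLocalRing.residue_ne_zero_iff_isUnit, map_natCast]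
    exact h1
  exact (A.valuation_eq_one_iff (b : A)).mp h2

lemma Rt.sq_eq {i : K →+* AlgebraicClosure ℚ} (α : Rt i) {ℓ : ℕ} (h : (α.x : K) = -(ℓ : K)) :
    α.r ^ 2 = -(ℓ : AlgebraicClosure ℚ) := by
  rw [α.eq, h, map_neg, map_natCast]

/-- An element of the inertia group at `ℓ₀` fixes `K` (unramified at `ℓ₀`) and `√(-ℓ)`, `ℓ₀ ∤ 2ℓ`, and
moves `√(-ℓ₀)`. -/
theorem exists_moved {i : K →+* AlgebraicClosure ℚ} {ℓ₀ : ℕ} (hℓ₀ : ℓ₀.Prime) (h2 : ℓ₀ ≠ 2)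
    (hG : Good K ℓ₀) (α₀ : Rt i) (h₀ : (α₀.x : K) = -(ℓ₀ : K)) :
    ∃ g : GK i, α₀.sgn g ≠ 1 ∧ ∀ ℓ : ℕ, ¬ ℓ₀ ∣ ℓ → ∀ α : Rt i, (α.x : K) = -(ℓ : K) →
      α.sgn g = 1 := by
  obtain ⟨A, hA⟩ := exists_liesOverPrime ℓ₀ hℓ₀
  have hmv : ∃ σ ∈ A.inertiaSubgroupIn ℚ, σ α₀.r ≠ α₀.r := by
    by_contra hcon
    push Not at hcon
    obtain ⟨n, hn⟩ := TW.exists_valuation_eq_zpow_of_fixed hℓ₀ hA hcon α₀.ne_zero
    have hlt : A.valuation (ℓ₀ : AlgebraicClosure ℚ) < 1 := by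
      have h : (ℓ₀ : AlgebraicClosure ℚ) ∈ A.nonunits := hA
      exact h
    have hne : A.valuation (ℓ₀ : AlgebraicClosure ℚ) ≠ 0 := by
      rw [Ne, map_eq_zero]
      exact_mod_cast hℓ₀.ne_zero
    have h3 := congrArg A.valuation (α₀.sq_eq h₀)
    rw [map_pow, hn, Valuation.map_neg] at h3
    have h4 : A.valuation (ℓ₀ : AlgebraicClosure ℚ) ^ (2 * n) =
        A.valuation (ℓ₀ : AlgebraicClosure ℚ) ^ (1 : ℤ) := by
      rw [zpow_one, mul_comm, zpow_mul]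
      exact_mod_cast h3
    have h5 := zpow_right_injective₀ (zero_lt_iff.mpr hne) hlt.ne h4
    omega
  obtain ⟨σ, hσ, hσα⟩ := hmv
  have hσK : ∀ x, σ (i x) = i x := by
    have h3 : (gh σ).comp i = i := hG A hA _ _ (Classic.Disc.redτ_comp_inertia hσ i)
    exact fun x => RingHom.congr_fun h3 x
  refine ⟨⟨σ, hσK⟩, fun h => hσα ((α₀.sgn_eq_one_iff _).mp h), fun ℓ hℓ α hα => ?_⟩
  rw [α.sgn_eq_one_iff]
  rcases α.map ⟨σ, hσK⟩ with h | h
  · exact h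
  · exfalso
    have hcop : Nat.Coprime ℓ₀ ℓ := (Nat.Prime.coprime_iff_not_dvd hℓ₀).mpr hℓ
    have hcop2 : Nat.Coprime ℓ₀ 2 := (Nat.coprime_primes hℓ₀ Nat.prime_two).mpr h2
    have h3 := congrArg A.valuation (α.sq_eq hα)
    rw [map_pow, Valuation.map_neg, valuation_natCast_of_coprime hA hcop] at h3
    have h4 : A.valuation α.r = 1 := (pow_eq_one_iff.mp h3).resolve_right two_ne_zero
    have hmem : α.r ∈ A := (A.valuation_le_one_iff _).mp h4.le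
    have h5 := (sub_mem_nonunits_of_mem_inertia hσ hmem).2
    have h6 : σ α.r - α.r = -((2 : ℕ) : AlgebraicClosure ℚ) * α.r := by
      have h7 : σ α.r = -α.r := h
      rw [h7]
      push_cast
      ring
    rw [h6] at h5
    have h7 : A.valuation (-((2 : ℕ) : AlgebraicClosure ℚ) * α.r) < 1 := h5
    rw [map_mul, Valuation.map_neg, valuation_natCast_of_coprime hA hcop2, h4, one_mul] at h7
    exact lt_irrefl _ h7

/-- **(D)** -/
theorem exponent_unique {η : HeightOneSpectrum (𝓞 K) → ZMod 2} {ℓ₀ ℓ ℓ' : ℕ} (hℓ₀ : ℓ₀.Prime)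
    (h2 : ℓ₀ ≠ 2) (hG : Good K ℓ₀) (hℓ : ¬ ℓ₀ ∣ ℓ) (hℓ' : ¬ ℓ₀ ∣ ℓ') {a₀ a a' b₀ : Kˣ}
    (ha₀ : (a₀ : K) = -(ℓ₀ : K)) (ha : (a : K) = -(ℓ : K)) (ha' : (a' : K) = -(ℓ' : K)) {c c' : ℕ}
    (hc : c < 2) (hc' : c' < 2) (h : Agree η a (b₀ * a₀ ^ c)) (h' : Agree η a' (b₀ * a₀ ^ c')) :
    c = c' := by
  classical
  obtain ⟨i⟩ := exists_emb K
  obtain ⟨α₀, rfl⟩ := exists_rt i a₀
  obtain ⟨α, rfl⟩ := exists_rt i a
  obtain ⟨α', rfl⟩ := exists_rt i a'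
  obtain ⟨β₀, rfl⟩ := exists_rt i b₀
  obtain ⟨T, h⟩ := h
  obtain ⟨T', h'⟩ := h'
  obtain ⟨g, hg₀, hg⟩ := exists_moved hℓ₀ h2 hG α₀ ha₀
  let B : Set (HeightOneSpectrum (𝓞 K)) := (T : Set _) ∪ (T' : Set _) ∪
    {v | ord v α₀.x ≠ 0} ∪ {v | ord v α.x ≠ 0} ∪ {v | ord v α'.x ≠ 0} ∪ {v | ord v β₀.x ≠ 0}
  have hB : B.Finite := ((((T.finite_toSet.union T'.finite_toSet).union
    (finite_ord_ne_zero K _)).union (finite_ord_ne_zero K _)).union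
    (finite_ord_ne_zero K _)).union (finite_ord_ne_zero K _)
  obtain ⟨D, hD, hDv⟩ := exists_nat_mem' B hB 2 two_ne_zero
  obtain ⟨v, φ, hv, hφ, hs⟩ := exists_frob_sgn g [α₀, α, α', β₀] ⟨α₀, by simp, hg₀⟩ hD
  obtain ⟨h1, hv2⟩ := hDv v hv
  simp only [B, Set.mem_union, Set.mem_ofPred_eq, not_or, not_not, Finset.mem_coe] at h1
  obtain ⟨⟨⟨⟨⟨hT, hT'⟩, o1⟩, o2⟩, o3⟩, o4⟩ := h1
  have e1 : α.x ∈ locPow 2 v := (sgn_frob_iff α hφ hv2 o2).mp (by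
    rw [hs α (by simp), hg ℓ hℓ α ha])
  have e2 : α'.x ∈ locPow 2 v := (sgn_frob_iff α' hφ hv2 o3).mp (by
    rw [hs α' (by simp), hg ℓ' hℓ' α' ha'])
  have e3 : α₀.sgn φ = -1 := by
    rw [hs α₀ (by simp)]
    exact (Int.units_eq_one_or _).resolve_left hg₀
  have key : ∀ n : ℕ, (β₀.x * α₀.x ^ n ∈ locPow 2 v ↔ β₀.sgn φ * (-1) ^ n = 1) := by
    intro n
    have o5 : ord v (β₀.mul (α₀.pow n)).x = 0 := by
      change ord v (β₀.x * α₀.x ^ n) = 0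
      rw [ord_mul, o4, ord_pow_eq_zero o1, add_zero]
    have h3 := sgn_frob_iff (β₀.mul (α₀.pow n)) hφ hv2 o5
    rw [Rt.sgn_mul, Rt.sgn_pow, e3] at h3
    exact h3.symm
  have e4 : β₀.sgn φ * (-1) ^ c = 1 ↔ β₀.sgn φ * (-1) ^ c' = 1 := by
    rw [← key c, ← key c', ← h v hT e1, ← h' v hT' e2]
  revert e4
  generalize β₀.sgn φ = u
  interval_cases c <;> interval_cases c' <;> revert u <;> decide

/-- **(E)**: the existence theorem from the totally imaginary quadratic extensions `K(√(-ℓ))`. -/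
theorem exists_of_split {η : HeightOneSpectrum (𝓞 K) → ZMod 2}
    {S : Finset (HeightOneSpectrum (𝓞 K))}
    (hA : ∀ ℓ : ℕ, ℓ.Prime → ℓ ≠ 2 → Good K ℓ → ∀ a : Kˣ, (a : K) = -(ℓ : K) →
      ∃ b : Kˣ, Agree η a b)
    (hC : ∀ ℓ : ℕ, ℓ.Prime → ℓ ≠ 2 → Good K ℓ → ∀ a : Kˣ, (a : K) = -(ℓ : K) →
      ∀ x : Kˣ, Agree η a x → ∀ U : Finset (HeightOneSpectrum (𝓞 K)), S ⊆ U →
        CFT.Global.AboveP 2 U → x ∈ CFT.Global.E U → ∀ v, v ∉ U → ord v a = 0 →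
          a ∈ locPow 2 v → (η v = 0 ↔ x ∈ locPow 2 v)) :
    ∃ (b : Kˣ) (T : Finset (HeightOneSpectrum (𝓞 K))), ∀ v, v ∉ T →
      (η v = 0 ↔ b ∈ locPow 2 v) := by
  classical
  obtain ⟨D₁, hD₁, hgood⟩ := exists_good K
  have hgood' : ∀ p : ℕ, p.Prime → D₁ < p → Good K p := fun p hp hlt =>
    hgood p hp fun h => absurd (Nat.le_of_dvd (Nat.pos_of_ne_zero hD₁) h) (by omega)
  have hun : ∀ ℓ : ℕ, ℓ.Prime → ∃ a : Kˣ, (a : K) = -(ℓ : K) := fun ℓ hℓ =>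
    ⟨Units.mk0 (-(ℓ : K)) (neg_ne_zero.mpr (by exact_mod_cast hℓ.ne_zero)), rfl⟩
  have hnd : ∀ p q : ℕ, p.Prime → q.Prime → p < q → ¬ p ∣ q := fun p q hp hq hlt h =>
    hlt.ne ((Nat.prime_dvd_prime_iff_eq hp hq).mp h)
  obtain ⟨ℓ₀, hge₀, hℓ₀⟩ := Nat.exists_infinite_primes (D₁ + 3)
  obtain ⟨ℓ₁, hge₁, hℓ₁⟩ := Nat.exists_infinite_primes (ℓ₀ + 1)
  obtain ⟨a₀, ha₀⟩ := hun ℓ₀ hℓ₀
  obtain ⟨a₁, ha₁⟩ := hun ℓ₁ hℓ₁
  obtain ⟨b₀, hb₀⟩ := hA ℓ₀ hℓ₀ (by omega) (hgood' ℓ₀ hℓ₀ (by omega)) a₀ ha₀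
  obtain ⟨b₁, hb₁⟩ := hA ℓ₁ hℓ₁ (by omega) (hgood' ℓ₁ hℓ₁ (by omega)) a₁ ha₁
  obtain ⟨c, hc, hc₁⟩ := exists_exponent hb₀ hb₁
  set x : Kˣ := b₀ * a₀ ^ c with hx
  let U : Finset (HeightOneSpectrum (𝓞 K)) := S ∪
    (finite_natCast_mem (K := K) two_ne_zero).toFinset ∪
      (finite_ord_ne_zero (R := 𝓞 K) K x).toFinset
  refine ⟨x, U, fun v hv => ?_⟩
  have hv' := hv
  simp only [U, Finset.mem_union, not_or, Set.Finite.mem_toFinset, Set.mem_ofPred_eq, not_not]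
    at hv'
  obtain ⟨⟨hvS, hv2⟩, hvx⟩ := hv'
  obtain ⟨p, hp, hpv⟩ := exists_prime_mem v
  have : NeZero p := ⟨hp.ne_zero⟩
  obtain ⟨ℓ, hℓgt, hℓ, hℓp⟩ := Nat.forall_exists_prime_gt_and_eq_mod
    (q := p) (a := -1) isUnit_one.neg (ℓ₁ + p)
  obtain ⟨a, ha⟩ := hun ℓ hℓ
  -- `-ℓ ≡ 1` modulo `v`
  have hmem : (-(ℓ : 𝓞 K) - 1) ∈ v.asIdeal := by
    have h1 : ((ℓ + 1 : ℕ) : ZMod p) = 0 := by
      push_cast
      rw [hℓp]
      ring
    rw [ZMod.natCast_eq_zero_iff] at h1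
    obtain ⟨m, hm⟩ := h1
    have h2 : (-(ℓ : 𝓞 K) - 1) = -((p : 𝓞 K) * m) := by
      have h3 : ((ℓ + 1 : ℕ) : 𝓞 K) = ((p * m : ℕ) : 𝓞 K) := by rw [hm]
      push_cast at h3
      rw [← h3]
      ring
    rw [h2]
    exact v.asIdeal.neg_mem (v.asIdeal.mul_mem_right _ hpv)
  have hnm : -(ℓ : 𝓞 K) ∉ v.asIdeal := by
    intro h
    apply v.isPrime.ne_top
    rw [Ideal.eq_top_iff_one]
    have h1 := v.asIdeal.sub_mem h hmem
    simpa using h1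
  have ha' : (a : K) = ((-(ℓ : 𝓞 K) : 𝓞 K) : K) := by
    rw [ha]
    push_cast
    rfl
  have hord : ord v a = 0 := ord_eq_zero_of_notMem ha' hnm
  have hone : (1 : 𝓞 K) ∉ v.asIdeal := fun h => v.isPrime.ne_top ((Ideal.eq_top_iff_one _).mpr h)
  have hloc : a ∈ locPow 2 v := by
    have h1 : a / 1 ∈ cong v 0 := mem_cong_zero_of_sub_mem (x := 1) (c := 1) ha'
      (by simp) hone hmem
    rw [div_one] at h1
    exact cong_zero_le_locPow 2 two_ne_zero v hv2 h1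
  obtain ⟨b, hb⟩ := hA ℓ hℓ (by omega) (hgood' ℓ hℓ (by omega)) a ha
  obtain ⟨c', hc', hcc'⟩ := exists_exponent hb₀ hb
  have hcc : c = c' := exponent_unique hℓ₀ (by omega) (hgood' ℓ₀ hℓ₀ (by omega))
    (hnd ℓ₀ ℓ₁ hℓ₀ hℓ₁ (by omega)) (hnd ℓ₀ ℓ hℓ₀ hℓ (by omega)) ha₀ ha₁ ha hc hc' hc₁ hcc'
  rw [← hcc] at hcc'
  refine hC ℓ hℓ (by omega) (hgood' ℓ hℓ (by omega)) a ha x hcc' U ?_ ?_ ?_ v hv hord hloc
  · intro w hw
    simp only [U, Finset.mem_union]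
    exact Or.inl (Or.inl hw)
  · intro w hw
    simp only [U, Finset.mem_union, Set.Finite.mem_toFinset, Set.mem_ofPred_eq]
    exact Or.inl (Or.inr hw)
  · rw [CFT.Global.mem_E]
    intro w hw
    simp only [U, Finset.mem_union, not_or, Set.Finite.mem_toFinset, Set.mem_ofPred_eq,
      not_not] at hw
    exact hw.2

end Main

end Fermat.Agent.Cor.Diff
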