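import Fermat.Agent.Corollaries.Diff.RealOne
import Fermat.Agent.Corollaries.Diff.Real
import Fermat.Agent.Corollaries.Diff.Kum

/-!
# Every quadratic ray character of a number field is a Kummer character

`K` an arbitrary number field (with real places or without).  A ray character with values in
`ZMod 2` with finite conductor is the quadratic character of some `b ∈ Kˣ`
(`exists_kummer_real`); in particular every quadratic character of the class group of `K` is
(`exists_kum`): the existence theorem for unramified quadratic extensions.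
-/

set_option autoImplicit false

namespace Fermat.Agent.Cor.Diff

open IsDedekindDomain NumberField
open Fermat.Agent.LT (IsRay)
open Fermat.Agent.LT.Tower.Fr (Good)
open Fermat.Agent.CFT.Global (locPow AboveP E)

/-- `-ℓ` is not a square in a number field which is unramified at the odd prime `ℓ`. -/
theorem sq_ne_of_good {K : Type*} [Field K] [NumberField K] {ℓ : ℕ} (hℓ : ℓ.Prime) (h2 : ℓ ≠ 2)
    (hG : Good K ℓ) {a : Kˣ} (ha : (a : K) = -(ℓ : K)) (c : Kˣ) : c ^ 2 ≠ a := by
  intro hc
  obtain ⟨i⟩ := exists_emb K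
  obtain ⟨α, rfl⟩ := exists_rt i a
  obtain ⟨g, hg, -⟩ := exists_moved hℓ h2 hG α ha
  apply hg
  rw [α.sgn_eq_one_iff]
  have h1 : α.r ^ 2 = i (c : K) ^ 2 := by
    rw [α.eq, ← hc, Units.val_pow_eq_pow_val, map_pow]
  rcases sq_eq_sq_iff_eq_or_eq_neg.mp h1 with h3 | h3
  · rw [h3, g.2]
  · rw [h3, map_neg, g.2]

/-- **Existence theorem for quadratic ray characters**, `K` an arbitrary number field. -/
theorem exists_kummer_real {K : Type} [Field K] [NumberField K]
    {S : Finset (HeightOneSpectrum (𝓞 K))} {n : ℕ} {η : HeightOneSpectrum (𝓞 K) → ZMod 2}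
    (hη : IsRay S n η) : ∃ (b : Kˣ) (T : Finset (HeightOneSpectrum (𝓞 K))),
      ∀ v, v ∉ T → (η v = 0 ↔ b ∈ locPow 2 v) := by
  refine exists_of_split (S := S) (fun ℓ hℓ h2 hG a ha => ?_)
    fun ℓ hℓ h2 hG a ha x hx U hSU hU hxU v hv _ hav => ?_
  · exact exists_b hη (sq_ne_of_good hℓ h2 hG ha) (neg_of_eq_neg hℓ.ne_zero ha)
  · obtain ⟨T, hT⟩ := hx
    exact upgrade hη (sq_ne_of_good hℓ h2 hG ha) (neg_of_eq_neg hℓ.ne_zero ha) hT hSU hU hxU hv hav

/-- **Quadratic characters of the class group are Kummer characters**, `K` an arbitrary number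
field. -/
theorem exists_kum (K : Type) [Field K] [NumberField K] (χ : ClassGroup (𝓞 K) →* ℤˣ) :
    ∃ (b : Kˣ) (T : Finset (HeightOneSpectrum (𝓞 K))), ∀ v, v ∉ T →
      (χ (cls v) = 1 ↔ b ∈ locPow 2 v) := by
  obtain ⟨b, T, h⟩ := exists_kummer_real (isRay_et χ)
  exact ⟨b, T, fun v hv => by rw [← et_eq_zero_iff, h v hv]⟩

end Fermat.Agent.Cor.Diff
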