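import Fermat.Agent.Corollaries.Diff.Apply
import Fermat.Agent.Corollaries.Diff.RealKum

/-!
# Hecke's theorem: the ideal class of the different is a square

For every number field `K` (in any universe, with real places or without):

* `isSquare_diffClass`: the class of the different `𝔡` of `K` is a square (E. Hecke, 1923);
* `exists_mul_sq_isPrincipal`: there is an ideal `𝔞 ≠ 0` with `𝔡 𝔞²` principal;
* `exists_unimodular_trace_form`: there is a fractional ideal which is unimodular for a form
  `Tr(a x y)`;
* `isSquare_relDiffClass`: the same for the relative different of an extension `L / K`;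
* `chi_diffClass_eq_one`: every quadratic character of the class group is trivial on `𝔡`;
* `XiF_one_sub_quadratic`, `even_order_LK_quadratic`: the sign of the functional equation of
  `L(s, χ)` is `1`, the order of vanishing at `1/2` is even.
-/

set_option autoImplicit false

noncomputable section

namespace Fermat.Agent.Cor.Diff

open NumberField Fermat.Agent.Classic.Zeta
open scoped nonZeroDivisors

universe u v

/-- every number field is isomorphic to one in the lowest universe -/
theorem exists_ringEquiv_type (K : Type u) [Field K] [NumberField K] :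
    ∃ (K₀ : Type) (_ : Field K₀) (_ : NumberField K₀), Nonempty (K₀ ≃+* K) := by
  obtain ⟨f⟩ : Nonempty (K →ₐ[ℚ] AlgebraicClosure ℚ) := ⟨IsAlgClosed.lift⟩
  let K' : IntermediateField ℚ (AlgebraicClosure ℚ) := f.fieldRange
  let e : K ≃ₐ[ℚ] K' := AlgEquiv.ofInjectiveField f
  have : FiniteDimensional ℚ K' := LinearEquiv.finiteDimensional e.toLinearEquiv
  have : NumberField K' := ⟨⟩
  exact ⟨K', inferInstance, inferInstance, ⟨e.symm.toRingEquiv⟩⟩

/-- **Hecke's theorem** (1923): the ideal class of the different of a number field is a square. -/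
theorem isSquare_diffClass (K : Type u) [Field K] [NumberField K] : IsSquare (diffClass K) := by
  obtain ⟨K₀, _, _, ⟨e⟩⟩ := exists_ringEquiv_type K
  refine isSquare_diffClass_of_ringEquiv e (isSquare_of_forall fun χ => ?_)
  obtain ⟨b, T, h⟩ := exists_kum K₀ χ
  exact diffClass_eq_one_of_kum χ h

section

variable (K : Type u) [Field K] [NumberField K]

/-- **Hecke's theorem**, in terms of ideals. -/
theorem exists_mul_sq_isPrincipal :
    ∃ 𝔞 : Ideal (𝓞 K), 𝔞 ≠ ⊥ ∧ (differentIdeal ℤ (𝓞 K) * 𝔞 ^ 2).IsPrincipal :=
  exists_isPrincipal (isSquare_diffClass K)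

/-- Every number field has a fractional ideal `I` which is a unimodular lattice for a scaled trace
form `Tr(a x y)`. -/
theorem exists_unimodular_trace_form :
    ∃ (I : FractionalIdeal (𝓞 K)⁰ K) (a : K), I ≠ 0 ∧ a ≠ 0 ∧
      ∀ x : K, x ∈ I ↔ ∀ y ∈ I, Algebra.trace ℚ K (a * x * y) ∈ (algebraMap ℤ ℚ).range :=
  exists_unimodular (isSquare_diffClass K)

/-- Hecke's theorem for the relative different: its class is a square. -/
theorem isSquare_relDiffClass (L : Type v) [Field L] [NumberField L] [Algebra K L] :
    IsSquare (relDiffClass K L) :=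
  isSquare_relDiffClass_of K L (isSquare_diffClass K) (isSquare_diffClass L)

variable {K}

/-- Quadratic characters of the class group are trivial on the different. -/
theorem chi_diffClass_eq_one (χ : ClassGroup (𝓞 K) →* ℤˣ) : χ (diffClass K) = 1 := by
  obtain ⟨C, hC⟩ := isSquare_diffClass K
  rw [hC, map_mul]
  exact Int.units_mul_self _

/-- The functional equation of a quadratic character of the class group has sign `1`. -/
theorem XiF_one_sub_quadratic (χ : ClassGroup (𝓞 K) →* ℤˣ) (s : ℂ) :
    XiF (fun C => ((toC χ C : ℂˣ) : ℂ)) (1 - s) = XiF (fun C => ((toC χ C : ℂˣ) : ℂ)) s :=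
  XiF_one_sub_of_quadratic (chi_diffClass_eq_one χ) s

/-- The order of vanishing at `1/2` of the L-function of a quadratic character of the class group
is even. -/
theorem even_order_LK_quadratic (χ : ClassGroup (𝓞 K) →* ℤˣ) :
    ∃ m : ℕ, analyticOrderAt (LK (toC χ)) (1 / 2) = (2 * m : ℕ) :=
  even_order_LK (chi_diffClass_eq_one χ)

end

end Fermat.Agent.Cor.Diff

end
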