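import Fermat.Agent.Corollaries.Diff.LocalQuad
import Fermat.Agent.LT.CubicChar

/-!
# Unramified quadratic extensions and quadratic characters of the class group

`K` a totally complex number field.

* `exists_unramified_ext`: for every `χ ≠ 1 : ClassGroup (𝓞 K) →* ℤˣ` there is a quadratic extension
  `L / K`, unramified at all places, such that for all places `v`: `χ(v) = 1` iff `v` splits in `L`.
* `exists_char_of_unramified`: conversely every quadratic extension `L / K` which is unramified at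
  all places comes from such a character.
* `even_classNumber_iff`: the class number of `K` is even iff `K` has an unramified quadratic
  extension.
-/

set_option autoImplicit false

noncomputable section

namespace Fermat.Agent.Cor.Diff

open NumberField IsDedekindDomain Polynomial WithZero
open Fermat.Agent.CFT.Places
open Fermat.Agent.CFT.SUnits (ord div div_apply valuation_eq_exp_neg_ord ord_div ord_mul
  classOf classOf_surjective classOf_eq_one_iff)
open Fermat.Agent.CFT.Global hiding Inputs p_dvd_index exists_notMem_locPow exists_place powE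
  mem_powE index_powE index_zpowers_sup_powE second hasse_norm FirstInequality exists_eq_nsmul_add
  exists_ne_symVec exists_functional_aux exists_inj forall_ne_zero exists_functional
open Fermat.Agent.LT (IsRay rayVal toAdd_rayVal_eq_sum divVal)
open Fermat.Agent.LT.NV (fdeg edeg card_stab edeg_ne_zero)
open Fermat.Agent.LT.Psi (kum kum_eq_zero_iff zmod_two_eq)
open Fermat.Agent.CFT.Global2
open scoped nonZeroDivisors

section QuadExt

universe u

/-- the field `K(√b)` -/
theorem exists_sqrt_ext {K : Type u} [Field K] [NumberField K] {b : Kˣ}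
    (hb : ∀ c : Kˣ, c ^ 2 ≠ b) :
    ∃ (L : Type u) (_ : Field L) (_ : NumberField L) (_ : Algebra K L) (_ : IsGalois K L)
      (σ : L ≃ₐ[K] L) (α : L), Module.finrank K L = 2 ∧ σ ≠ 1 ∧ α ^ 2 = algebraMap K L b ∧
        σ α = -α := by
  have : Fact (Irreducible (X ^ 2 - C (b : K))) :=
    ⟨Fermat.Agent.CFT.Global.irreducible_of_not_pow Nat.prime_two hb⟩
  have : NumberField (Fermat.Agent.CFT.Global.Rad 2 b) :=
    Fermat.Agent.CFT.Global.numberField_rad Nat.prime_two
  let L := Fermat.Agent.CFT.Global.Rad 2 b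
  let α : L := AdjoinRoot.root (X ^ 2 - C (b : K))
  have hα : α ^ 2 = algebraMap K L (b : K) := root_X_pow_sub_C_pow 2 (b : K)
  have hL : IntermediateField.adjoin K {α} = ⊤ := Fermat.Agent.CFT.Global.adjoin_root_rad 2 b
  have hζ : IsPrimitiveRoot (-1 : K) 2 := IsPrimitiveRoot.neg_one 0 (by norm_num)
  have hb' : ∀ c : K, c ^ 2 ≠ (b : K) := by
    intro c hc
    have hc0 : c ≠ 0 := by
      rintro rfl
      rw [zero_pow two_ne_zero] at hc
      exact b.ne_zero hc.symm
    exact hb (Units.mk0 c hc0) (Units.ext (by rw [Units.val_pow_eq_pow_val]; exact hc))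
  obtain ⟨hgal, σ, hσα, -, hord⟩ :=
    Fermat.Agent.CFT.KummerExt.exists_gen Nat.prime_two hζ hb' hα hL
  have h2 : Module.finrank K L = 2 :=
    Fermat.Agent.CFT.KummerExt.finrank_eq Nat.prime_two hb' hα hL
  rw [map_neg, map_one, neg_one_mul] at hσα
  have hσ : σ ≠ 1 := by
    rintro rfl
    rw [orderOf_one] at hord
    exact absurd hord (by norm_num)
  exact ⟨L, inferInstance, inferInstance, inferInstance, hgal, σ, α, h2, hσ, hα, hσα⟩

end QuadExt

section Symbols

variable {K : Type} [Field K] [NumberField K]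

/-- **The local symbols of `b` at all places.** -/
theorem toAdd_sym_eq (LS : LocalSymbols 2 K)
    (hprod : ∀ a x : Kˣ, (symVec LS two_ne_zero a x).sum (fun _ n => n) = 0)
    (χ : ClassGroup (𝓞 K) →* ℤˣ) {b : Kˣ} {T : Finset (HeightOneSpectrum (𝓞 K))}
    (hT : AboveP 2 T) (hb : b ∈ E T) (h : ∀ v, v ∉ T → (et χ v = 0 ↔ b ∈ locPow 2 v))
    (v₀ : HeightOneSpectrum (𝓞 K)) (x : Kˣ) :
    (LS.sym v₀ b x).toAdd = ord v₀ x • et χ v₀ := by
  classical
  have hout : ∀ v, v ∉ T → ∀ y : Kˣ, (LS.sym v b y).toAdd = ord v y • et χ v := by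
    intro v hv y
    apply zmod_two_eq
    have h3 : (LS.sym v b y).toAdd = 0 ↔ LS.sym v b y = 1 := Iff.rfl
    rw [h3, Fermat.Agent.LT.CubicChar.sym_eq_one_iff LS (fun h' => hv (hT v h'))
      (mem_E.mp hb v hv) y, zsmul_eq_mul, mul_eq_zero, h v hv,
      ZMod.intCast_zmod_eq_zero_iff_dvd, or_comm]
  by_cases hv₀ : v₀ ∈ T
  swap
  · exact hout v₀ hv₀ x
  choose n hn using fun v : HeightOneSpectrum (𝓞 K) => exists_cong_le_locPow 2 two_ne_zero v
  obtain ⟨y, hy⟩ := indep_cong (K := K) T (T.sup n) (fun v => if v = v₀ then x else 1)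
  have hy0 : y / x ∈ cong v₀ (T.sup n) := by
    have := hy v₀ hv₀
    rwa [if_pos rfl] at this
  have hy1 : ∀ v ∈ T, v ≠ v₀ → y ∈ cong v (T.sup n) := by
    intro v hv hne
    have := hy v hv
    rwa [if_neg hne, div_one] at this
  have hs0 : LS.sym v₀ b y = LS.sym v₀ b x := by
    have h1 : LS.sym v₀ b (y / x) = 1 :=
      LS.sym_eq_one_of_right (hn v₀ (cong_anti v₀ (Finset.le_sup hv₀) hy0))
    rw [_root_.map_div, div_eq_one] at h1
    exact h1
  have ho0 : ord v₀ y = ord v₀ x := by
    have h1 := ord_eq_zero_of_mem_cong hy0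
    rw [ord_div] at h1
    omega
  have hs1 : ∀ v ∈ T, v ≠ v₀ → LS.sym v b y = 1 := fun v hv hne =>
    LS.sym_eq_one_of_right (hn v (cong_anti v (Finset.le_sup hv) (hy1 v hv hne)))
  have ho1 : ∀ v ∈ T, v ≠ v₀ → ord v y = 0 := fun v hv hne =>
    ord_eq_zero_of_mem_cong (hy1 v hv hne)
  -- the two sums
  set U : Finset (HeightOneSpectrum (𝓞 K)) :=
    insert v₀ ((div y).support ∪ (symVec LS two_ne_zero b y).support) with hU
  have hA : ∑ v ∈ U, (LS.sym v b y).toAdd = 0 := by
    refine Eq.trans ?_ (hprod b y)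
    rw [Finsupp.sum]
    symm
    refine Finset.sum_subset (fun v hv => ?_) (fun v _ hv => ?_)
    · rw [hU, Finset.mem_insert, Finset.mem_union]
      exact Or.inr (Or.inr hv)
    · rw [Finsupp.notMem_support_iff, symVec_apply] at hv
      exact hv
  have hB : ∑ v ∈ U, ord v y • et χ v = 0 := by
    have h1 := isRay_et χ y (fun v hv => absurd hv (Finset.notMem_empty v))
    have h2 : (rayVal ∅ (et χ) y).toAdd = 0 := by rw [h1]; rfl
    rw [toAdd_rayVal_eq_sum ∅ U (et χ) y] at h2
    · simpa using h2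
    · intro v hv _
      rw [hU, Finset.mem_insert, not_or, Finset.mem_union, not_or, Finsupp.notMem_support_iff] at hv
      rw [← div_apply, hv.2.1, zero_smul]
  have hU0 : v₀ ∈ U := Finset.mem_insert_self _ _
  rw [← Finset.add_sum_erase U _ hU0] at hA hB
  have hC : ∑ v ∈ U.erase v₀, (LS.sym v b y).toAdd = ∑ v ∈ U.erase v₀, ord v y • et χ v := by
    refine Finset.sum_congr rfl fun v hv => ?_
    have hne := Finset.ne_of_mem_erase hv
    by_cases hvT : v ∈ T
    · rw [hs1 v hvT hne, ho1 v hvT hne, zero_smul]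
      rfl
    · exact hout v hvT y
  rw [hC] at hA
  rw [hs0] at hA
  rw [ho0] at hB
  exact add_right_cancel (hA.trans hB.symm)

/-- the splitting law at every place -/
theorem et_eq_zero_iff_mem_locPow (LS : LocalSymbols 2 K) {χ : ClassGroup (𝓞 K) →* ℤˣ} {b : Kˣ}
    (h : ∀ v x, (LS.sym v b x).toAdd = ord v x • et χ v) (v : HeightOneSpectrum (𝓞 K)) :
    et χ v = 0 ↔ b ∈ locPow 2 v := by
  rw [LS.mem_locPow_iff]
  constructor
  · intro h0 x
    have h1 := h v x
    rw [h0, smul_zero] at h1
    exact h1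
  · intro h1
    obtain ⟨π, hπ⟩ := Fermat.Agent.CFT.Global.exists_ord_eq_one (K := K) v
    have h2 := h v π
    rw [h1, hπ, one_smul] at h2
    exact h2.symm

/-- `K(√b)` is unramified everywhere. -/
theorem edeg_eq_one (LS : LocalSymbols 2 K) {χ : ClassGroup (𝓞 K) →* ℤˣ} {b : Kˣ}
    (h : ∀ v x, (LS.sym v b x).toAdd = ord v x • et χ v)
    {L : Type*} [Field L] [NumberField L] [Algebra K L] [IsGalois K L]
    (h2 : Module.finrank K L = 2) {σ : L ≃ₐ[K] L} (hσ : σ ≠ 1) {α : L}
    (hα : α ^ 2 = algebraMap K L b) (hσα : σ α = -α) (w : HeightOneSpectrum (𝓞 L)) :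
    edeg K w = 1 := by
  set v := w.under (𝓞 K) with hv
  by_cases hloc : b ∈ locPow 2 v
  · have hw : conj σ w ≠ w :=
      Fermat.Agent.CFT.FirstIneq.conj_ne_of_mem_locPow Nat.prime_two (Unr.isPrimitiveRoot_neg_one' K) hα hloc
        (by rw [hσα, map_neg, map_one, neg_one_mul]) w rfl
    have hG : Nat.card Gal(L/K) = 2 := by rw [IsGalois.card_aut_eq_finrank, h2]
    have hc := card_stab (K := K) w
    have h1 : Nat.card {τ : L ≃ₐ[K] L // conj τ w = w} = 1 := by
      rw [Nat.card_eq_one_iff_unique]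
      refine ⟨⟨fun a b => ?_⟩, ⟨⟨1, conj_one w⟩⟩⟩
      have key : ∀ a : {τ : L ≃ₐ[K] L // conj τ w = w}, a.1 = 1 := by
        rintro ⟨τ, hτ⟩
        rcases Unr.eq_one_or_of_card_two hG hσ τ with rfl | rfl
        · rfl
        · exact absurd hτ hw
      exact Subtype.ext ((key a).trans (key b).symm)
    rw [h1] at hc
    exact Nat.eq_one_of_mul_eq_one_right hc.symm
  · have het : et χ v = 1 := by
      have h0 : et χ v ≠ 0 := fun h0 => hloc ((et_eq_zero_iff_mem_locPow LS h v).mp h0)
      have : ∀ z : ZMod 2, z ≠ 0 → z = 1 := by decide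
      exact this _ h0
    obtain ⟨c, hc⟩ := exists_irred v
    let b₀ : Kˣ := Units.mk0 (1 - 4 * (c : K)) (one_sub_ne_zero_of_irred hc)
    have hb₀ : (b₀ : K) = 1 - 4 * (c : K) := rfl
    have hb₀2 : ∀ r : Kˣ, r ^ 2 ≠ b₀ := by
      intro r hr
      apply sq_ne_of_irred hc (r : K)
      rw [← Units.val_pow_eq_pow_val, hr, hb₀]
    -- the extension `K(√b₀)` is inert and unramified at `v`
    obtain ⟨M, _, _, _, _, τ, β, hM2, hτ, hβ, hτβ⟩ := exists_sqrt_ext hb₀2
    have hall : ∀ w' : HeightOneSpectrum (𝓞 M), w'.under (𝓞 K) = v →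
        edeg K w' = 1 ∧ fdeg K w' = 2 := by
      intro w' hw'
      obtain ⟨t, ht⟩ := exists_root (w := w') (b := b₀) hb₀ hβ (by
        rw [← sq]
        exact pow_mem_locPow 2 _ b₀)
      exact deg_of_fdeg_ne_one hM2 (fdeg_ne_one_of_root (by rwa [hw']) ht)
    have he : ∀ w' : HeightOneSpectrum (𝓞 M), w'.under (𝓞 K) = v →
        v.asIdeal.ramificationIdx' w'.asIdeal = 1 := by
      intro w' hw'
      have := (hall w' hw').1
      rw [edeg, hw'] at this
      exact this
    have hinert : Unr.Inert M v := by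
      obtain ⟨w', hw'⟩ := exists_below_eq M v
      rw [← hw', Unr.inert_iff hM2 hτ]
      by_contra hne
      have h3 := fdeg_of_moved hM2 hτ hne
      rw [(hall w' hw').2] at h3
      exact absurd h3 (by norm_num)
    have hsym₀ : ∀ x : Kˣ, LS.sym v b₀ x = 1 ↔ Even (ord v x) := fun x =>
      Unr.sym_eq_one_iff hM2 hτ LS hβ hτβ hb₀2 he hinert x
    have hprod : b * b₀ ∈ locPow 2 v := by
      rw [LS.mem_locPow_iff]
      intro x
      have h5 := h v x
      rw [het] at h5
      have h6 : ∀ s t : Multiplicative (ZMod 2), (s = 1 ↔ t = 1) → s * t = 1 := by decide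
      rw [map_mul, MonoidHom.mul_apply]
      apply h6
      rw [hsym₀ x]
      have h7 : LS.sym v b x = 1 ↔ (LS.sym v b x).toAdd = 0 := Iff.rfl
      rw [h7, h5, zsmul_eq_mul, mul_one, ZMod.intCast_zmod_eq_zero_iff_dvd, even_iff_two_dvd]
      rfl
    obtain ⟨t, ht⟩ := exists_root (w := w) hb₀ hα hprod
    exact (deg_of_fdeg_ne_one h2 (fdeg_ne_one_of_root hc ht)).1

end Symbols

section Main

variable {K : Type} [Field K] [NumberField K]

/-- **Existence.**  `K` totally complex: every character `χ ≠ 1` of order two of the class group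
belongs to a quadratic extension `L / K` which is unramified at all places; for all places `v` of
`K`: `χ(v) = 1` iff `v` splits in `L`. -/
theorem exists_unramified_ext [IsTotallyComplex K] {χ : ClassGroup (𝓞 K) →* ℤˣ} (hχ : χ ≠ 1) :
    ∃ (L : Type) (_ : Field L) (_ : NumberField L) (_ : Algebra K L), IsGalois K L ∧
      Module.finrank K L = 2 ∧
      (∀ w : HeightOneSpectrum (𝓞 L),
        (w.under (𝓞 K)).asIdeal.ramificationIdx' w.asIdeal = 1) ∧
      ∀ v : HeightOneSpectrum (𝓞 K), (χ (cls v) = 1 ↔ ¬ Unr.Inert L v) := by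
  obtain ⟨LS, hprod⟩ := exists_productFormula_two K
  obtain ⟨b, T, -, hT, hb, h⟩ := Fermat.Agent.LT.Quad.exists_kummer (p := 2)
    Fermat.Agent.LT.Quad.neg_one_root (isRay_et χ)
  have hsym := toAdd_sym_eq LS hprod χ hT hb h
  have hloc := et_eq_zero_iff_mem_locPow LS hsym
  have hb2 : ∀ c : Kˣ, c ^ 2 ≠ b := by
    rintro c rfl
    exact hχ (eq_one_of_forall χ ∅ fun v _ => by
      rw [← et_eq_zero_iff, hloc v]
      exact pow_mem_locPow 2 v c)
  obtain ⟨L, _, _, _, hgal, σ, α, h2, hσ, hα, hσα⟩ := exists_sqrt_ext hb2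
  have he : ∀ w : HeightOneSpectrum (𝓞 L),
      (w.under (𝓞 K)).asIdeal.ramificationIdx' w.asIdeal = 1 := fun w =>
    edeg_eq_one LS hsym h2 hσ hα hσα w
  refine ⟨L, inferInstance, inferInstance, inferInstance, hgal, h2, he, fun v => ?_⟩
  rw [← et_eq_zero_iff, hloc v]
  exact Unr.mem_locPow_iff_not_inert h2 hσ hα hσα (by rintro w rfl; exact he w)

/-- A function on the places with values in `ℤ/2` which kills the principal divisors is a character
of the class group. -/
theorem exists_chi_of_isRay {η : HeightOneSpectrum (𝓞 K) → ZMod 2} (hη : IsRay ∅ 0 η) :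
    ∃ χ : ClassGroup (𝓞 K) →* ℤˣ, ∀ v, et χ v = η v := by
  classical
  let g : Multiplicative (ZMod 2) →* ℤˣ :=
    { toFun := fun z => if z = 1 then 1 else -1
      map_one' := rfl
      map_mul' := by decide }
  let ψ : Multiplicative (HeightOneSpectrum (𝓞 K) →₀ ℤ) →* ℤˣ :=
    g.comp (AddMonoidHom.toMultiplicative (divVal ∅ η))
  have hker : (classOf (K := K)).ker ≤ ψ.ker := by
    intro D hD
    rw [MonoidHom.mem_ker] at hD ⊢
    obtain ⟨x, hx⟩ := (classOf_eq_one_iff D).mp hD
    have h1 := hη x (fun v hv => absurd hv (Finset.notMem_empty v))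
    rw [Fermat.Agent.LT.rayVal_apply, hx] at h1
    change g (Multiplicative.ofAdd (divVal ∅ η D.toAdd)) = 1
    rw [h1, map_one]
  let χ : ClassGroup (𝓞 K) →* ℤˣ :=
    (classOf (K := K)).liftOfSurjective classOf_surjective ⟨ψ, hker⟩
  have hχ : ∀ D, χ (classOf D) = ψ D := fun D =>
    MonoidHom.liftOfRightInverse_comp_apply (classOf (K := K)) _ _ ⟨ψ, hker⟩ D
  refine ⟨χ, fun v => ?_⟩
  have h2 : χ (cls v) = g (Multiplicative.ofAdd (η v)) := by
    have h3 := classOf_single v 1
    rw [zpow_one] at h3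
    rw [← h3, hχ]
    change g (Multiplicative.ofAdd (divVal ∅ η (Finsupp.single v 1))) = _
    rw [Fermat.Agent.LT.divVal_single ∅ η (Finset.notMem_empty v), one_smul]
  rw [et, h2]
  have h4 : ∀ z : ZMod 2, (if g (Multiplicative.ofAdd z) = 1 then (0 : ZMod 2) else 1) = z := by
    decide
  exact h4 (η v)

open Classical in
/-- **Reciprocity.**  `K` totally complex: every quadratic extension `L / K` which is unramified
at all places comes from a character `χ ≠ 1` of the class group. -/
theorem exists_char_of_unramified [IsTotallyComplex K] {L : Type*} [Field L] [NumberField L]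
    [Algebra K L] [IsGalois K L] (h2 : Module.finrank K L = 2)
    (he : ∀ w : HeightOneSpectrum (𝓞 L),
      (w.under (𝓞 K)).asIdeal.ramificationIdx' w.asIdeal = 1) :
    ∃ χ : ClassGroup (𝓞 K) →* ℤˣ, χ ≠ 1 ∧
      ∀ v : HeightOneSpectrum (𝓞 K), (χ (cls v) = 1 ↔ ¬ Unr.Inert L v) := by
  let η : HeightOneSpectrum (𝓞 K) → ZMod 2 := fun v => if Unr.Inert L v then 1 else 0
  have hη0 : ∀ v, η v = 0 ↔ ¬ Unr.Inert L v := by
    intro v
    change (if Unr.Inert L v then (1 : ZMod 2) else 0) = 0 ↔ _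
    split_ifs with h
    · simp [h]
    · simp [h]
  have hray : IsRay ∅ 0 η := by
    intro x _
    apply toAdd_eq_zero.mp
    rw [toAdd_rayVal_eq_sum ∅ (div x).support η x (fun v hv _ => by
      rw [Finsupp.notMem_support_iff, div_apply] at hv
      rw [hv, zero_smul])]
    have h1 := Unr.recip h2 he x
    have h3 : {v : HeightOneSpectrum (𝓞 K) | Unr.Inert L v ∧ Odd (ord v x)} =
        (((div x : HeightOneSpectrum (𝓞 K) →₀ ℤ).support.filter
          fun v => Unr.Inert L v ∧ Odd (ord v x) : Finset (HeightOneSpectrum (𝓞 K))) :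
            Set (HeightOneSpectrum (𝓞 K))) := by
      ext v
      rw [Finset.mem_coe, Finset.mem_filter, Finsupp.mem_support_iff, div_apply]
      constructor
      · rintro ⟨h4, h5⟩
        refine ⟨?_, h4, h5⟩
        rintro h6
        rw [h6] at h5
        exact absurd h5 (by decide)
      · exact fun h => h.2
    rw [h3, Set.ncard_coe_finset, ← ZMod.natCast_eq_zero_iff_even, Finset.card_filter] at h1
    rw [← h1]
    push_cast
    refine Finset.sum_congr rfl fun v _ => ?_
    rw [if_neg (Finset.notMem_empty v)]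
    change ord v x • (if Unr.Inert L v then (1 : ZMod 2) else 0) = _
    by_cases hv : Unr.Inert L v
    · rw [if_pos hv, zsmul_eq_mul, mul_one]
      by_cases ho : Odd (ord v x)
      · rw [if_pos ⟨hv, ho⟩]
        exact (ZMod.intCast_eq_one_iff_odd.mpr ho)
      · rw [if_neg (fun h => ho h.2)]
        rw [Int.not_odd_iff_even] at ho
        exact (ZMod.intCast_eq_zero_iff_even.mpr ho)
    · rw [if_neg hv, if_neg (fun h => hv h.1), smul_zero]
  obtain ⟨χ, hχ⟩ := exists_chi_of_isRay hray
  have hlaw : ∀ v : HeightOneSpectrum (𝓞 K), (χ (cls v) = 1 ↔ ¬ Unr.Inert L v) := fun v => by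
    rw [← et_eq_zero_iff, hχ v, hη0 v]
  refine ⟨χ, fun h1 => ?_, hlaw⟩
  obtain ⟨v, hv⟩ := Unr.exists_inert h2 he
  exact (hlaw v).mp (by rw [h1]; rfl) hv

end Main

end Fermat.Agent.Cor.Diff

end
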