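import Fermat.Agent.Corollaries.Diff.Hilbert
import Fermat.Agent.Corollaries.HM.RealFinal

/-!
# The local symbols of a quadratic class field over a number field with real places

`K` an arbitrary number field, `η` a function on the places with values in `ZMod 2` which kills
the principal divisors of the totally positive elements (a quadratic character of the narrow class
group) and `b ∈ Kˣ` with `η v = 0 ↔ b ∈ K_v²` for almost all places.  Then
`(b, x)_v = ord_v(x) η(v)` at all finite places (`toAdd_sym_eq_of_pos_aux`).  If `η` comes from a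
character of the class group, then `b` is positive at all real places (`pos_of_kum_aux`).
-/

set_option autoImplicit false

namespace Fermat.Agent.Cor.Diff

open NumberField IsDedekindDomain
open Fermat.Agent.CFT.SUnits (ord div div_apply ord_div ord_mul ord_one finite_ord_ne_zero)
open Fermat.Agent.CFT.Global (locPow E mem_E AboveP LocalSymbols symVec symVec_apply
  dvd_ord_of_mem_locPow)
open Fermat.Agent.LT (IsRay rayVal toAdd_rayVal_eq_sum)
open Fermat.Agent.LT.Psi (zmod_two_eq)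
open Fermat.Agent.Cor.HM (pf pf_eq_sum zmod_two_eq_zero ApproxStmt exists_sign_locPow
  pf_eq_sum_sg sum_symVec_of_pos)

section Main

variable {K : Type} [Field K] [NumberField K]

/-- an even multiple is zero in `ZMod 2` -/
lemma smul_eq_zero_of_even {m : ℤ} (h : ((2 : ℕ) : ℤ) ∣ m) (t : ZMod 2) : m • t = 0 := by
  obtain ⟨k, rfl⟩ := h
  rw [mul_comm, mul_smul, natCast_zsmul, two_nsmul, CharTwo.add_self_eq_zero, smul_zero]

lemma smul_congr_of_even {m n : ℤ} (h : ((2 : ℕ) : ℤ) ∣ m - n) (t : ZMod 2) : m • t = n • t := by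
  rw [← sub_eq_zero, ← sub_smul]
  exact smul_eq_zero_of_even h t

lemma toAdd_sym_of_notMem (LS : LocalSymbols 2 K) {η : HeightOneSpectrum (𝓞 K) → ZMod 2} {b : Kˣ}
    {T : Finset (HeightOneSpectrum (𝓞 K))} (hT : AboveP 2 T) (hb : b ∈ E T)
    (h : ∀ v, v ∉ T → (η v = 0 ↔ b ∈ locPow 2 v)) {v : HeightOneSpectrum (𝓞 K)} (hv : v ∉ T)
    (y : Kˣ) : (LS.sym v b y).toAdd = ord v y • η v := by
  apply zmod_two_eq
  have h3 : (LS.sym v b y).toAdd = 0 ↔ LS.sym v b y = 1 := Iff.rfl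
  rw [h3, Fermat.Agent.LT.CubicChar.sym_eq_one_iff LS (fun h' => hv (hT v h'))
    (mem_E.mp hb v hv) y, zsmul_eq_mul, mul_eq_zero, h v hv,
    ZMod.intCast_zmod_eq_zero_iff_dvd, or_comm]

/-- the sum of the symbols of `b` and an element whose divisor is killed by `η` -/
lemma pf_eq_of_kum (LS : LocalSymbols 2 K) {η : HeightOneSpectrum (𝓞 K) → ZMod 2} {b : Kˣ}
    {T : Finset (HeightOneSpectrum (𝓞 K))} (hT : AboveP 2 T) (hb : b ∈ E T)
    (h : ∀ v, v ∉ T → (η v = 0 ↔ b ∈ locPow 2 v)) {y : Kˣ} (hy : rayVal ∅ η y = 1) :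
    pf LS b y = ∑ v ∈ T, ((LS.sym v b y).toAdd + ord v y • η v) := by
  classical
  set U : Finset (HeightOneSpectrum (𝓞 K)) := T ∪ (div y).support with hU
  have hB : ∑ v ∈ U, ord v y • η v = 0 := by
    have h2 : (rayVal ∅ η y).toAdd = 0 := by rw [hy]; rfl
    rw [toAdd_rayVal_eq_sum ∅ U η y] at h2
    · simpa using h2
    · intro v hv _
      rw [hU, Finset.mem_union, not_or, Finsupp.notMem_support_iff] at hv
      rw [← div_apply, hv.2, zero_smul]
  have hA : pf LS b y = ∑ v ∈ U, (LS.sym v b y).toAdd := by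
    refine pf_eq_sum LS fun v hv => ?_
    rw [hU, Finset.mem_union, not_or, Finsupp.notMem_support_iff, div_apply] at hv
    have h3 := toAdd_sym_of_notMem LS hT hb h hv.1 y
    rw [hv.2, zero_smul] at h3
    exact h3
  have hC : pf LS b y = ∑ v ∈ U, ((LS.sym v b y).toAdd + ord v y • η v) := by
    rw [Finset.sum_add_distrib, hB, add_zero, hA]
  rw [hC]
  symm
  refine Finset.sum_subset Finset.subset_union_left fun v _ hv => ?_
  rw [toAdd_sym_of_notMem LS hT hb h hv y, CharTwo.add_self_eq_zero]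

/-- enlarging the exceptional set -/
lemma exists_good_set {η : HeightOneSpectrum (𝓞 K) → ZMod 2} {b : Kˣ}
    {T : Finset (HeightOneSpectrum (𝓞 K))} (h : ∀ v, v ∉ T → (η v = 0 ↔ b ∈ locPow 2 v)) :
    ∃ T' : Finset (HeightOneSpectrum (𝓞 K)), AboveP 2 T' ∧ b ∈ E T' ∧
      ∀ v, v ∉ T' → (η v = 0 ↔ b ∈ locPow 2 v) := by
  classical
  obtain ⟨T', hTT', hT'2, -, hF⟩ :=
    Fermat.Agent.CFT.Global.exists_good (K := K) 2 two_ne_zero T {b}
  exact ⟨T', hT'2, hF b (Finset.mem_singleton_self b), fun v hv => h v fun h' => hv (hTT' h')⟩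

/-- **The local symbols of `b` at all places**: `η` a quadratic character of the narrow class
group. -/
theorem toAdd_sym_eq_of_pos_aux (LS : LocalSymbols 2 K) (hA : ApproxStmt K)
    {η : HeightOneSpectrum (𝓞 K) → ZMod 2}
    (hη : ∀ x : Kˣ, (∀ σ : K →+* ℝ, 0 < σ (x : K)) → rayVal ∅ η x = 1)
    {b : Kˣ} {T : Finset (HeightOneSpectrum (𝓞 K))}
    (h : ∀ v, v ∉ T → (η v = 0 ↔ b ∈ locPow 2 v))
    (v₀ : HeightOneSpectrum (𝓞 K)) (x : Kˣ) :
    (LS.sym v₀ b x).toAdd = ord v₀ x • η v₀ := by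
  classical
  obtain ⟨T, hT, hb, h⟩ := exists_good_set h
  by_cases hv₀ : v₀ ∈ T
  swap
  · exact toAdd_sym_of_notMem LS hT hb h hv₀ x
  obtain ⟨y, hy, hys⟩ := exists_sign_locPow hA T (fun v => if v = v₀ then x else 1)
    (fun _ => False)
  have hpos : ∀ σ : K →+* ℝ, 0 < σ (y : K) := fun σ =>
    HM.sg_eq_zero_iff.mp (zmod_two_eq_zero fun h' => (hys σ).mp (HM.sg_eq_one_iff.mp h'))
  have hy0 : y / x ∈ locPow 2 v₀ := by
    have := hy v₀ hv₀
    rwa [if_pos rfl] at this
  have hy1 : ∀ v ∈ T, v ≠ v₀ → y ∈ locPow 2 v := by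
    intro v hv hne
    have := hy v hv
    rwa [if_neg hne, div_one] at this
  have hs0 : LS.sym v₀ b y = LS.sym v₀ b x := by
    have h1 : LS.sym v₀ b (y / x) = 1 := LS.sym_eq_one_of_right hy0
    rwa [_root_.map_div, div_eq_one] at h1
  have ho0 : ord v₀ y • η v₀ = ord v₀ x • η v₀ := by
    apply smul_congr_of_even
    rw [← ord_div]
    exact dvd_ord_of_mem_locPow hy0
  have h1 := pf_eq_of_kum LS hT hb h (hη y hpos)
  have h2 : pf LS b y = 0 := sum_symVec_of_pos LS hpos b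
  rw [h2, Finset.sum_eq_single_of_mem v₀ hv₀ (fun v hv hne => by
      rw [LS.sym_eq_one_of_right (hy1 v hv hne),
        smul_eq_zero_of_even (dvd_ord_of_mem_locPow (hy1 v hv hne)), add_zero]
      rfl), hs0, ho0] at h1
  exact CharTwo.add_eq_zero.mp h1.symm

/-- `b` is positive at all real places if `η` kills all principal divisors. -/
theorem pos_of_isRay_aux (LS : LocalSymbols 2 K) (hA : ApproxStmt K)
    {η : HeightOneSpectrum (𝓞 K) → ZMod 2} (hη : IsRay ∅ 0 η) {b : Kˣ}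
    {T : Finset (HeightOneSpectrum (𝓞 K))} (h : ∀ v, v ∉ T → (η v = 0 ↔ b ∈ locPow 2 v))
    (σ : K →+* ℝ) : 0 < σ (b : K) := by
  classical
  obtain ⟨T, hT, hb, h⟩ := exists_good_set h
  obtain ⟨y, hy, hys⟩ := exists_sign_locPow hA T (fun _ => 1) (fun τ => τ = σ)
  have h1 := pf_eq_of_kum LS hT hb h (hη y fun v hv => absurd hv (Finset.notMem_empty v))
  have hy1 : ∀ v ∈ T, y ∈ locPow 2 v := by
    intro v hv
    have := hy v hv
    rwa [div_one] at this
  rw [Finset.sum_eq_zero (fun v hv => by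
    rw [LS.sym_eq_one_of_right (hy1 v hv), smul_eq_zero_of_even (dvd_ord_of_mem_locPow (hy1 v hv)),
      add_zero]
    rfl), HM.sum_sym_of hA, Finset.sum_eq_single_of_mem σ (Finset.mem_univ σ),
    HM.sg_eq_one_iff.mpr ((hys σ).mpr rfl), mul_one] at h1
  · exact HM.sg_eq_zero_iff.mp h1
  · intro τ _ hτ
    rw [zmod_two_eq_zero (t := HM.sg τ y) (fun h' => hτ ((hys τ).mp (HM.sg_eq_one_iff.mp h'))),
      mul_zero]

/-- **The symbols of the Kummer generator of a quadratic character of the class group**, `K` an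
arbitrary number field. -/
theorem sym_eq_of_kum_aux (LS : LocalSymbols 2 K) (hA : ApproxStmt K)
    (χ : ClassGroup (𝓞 K) →* ℤˣ) {b : Kˣ} {T : Finset (HeightOneSpectrum (𝓞 K))}
    (h : ∀ v, v ∉ T → (χ (cls v) = 1 ↔ b ∈ locPow 2 v)) :
    (∀ v x, (LS.sym v b x).toAdd = ord v x • et χ v) ∧ ∀ σ : K →+* ℝ, 0 < σ (b : K) := by
  have h' : ∀ v, v ∉ T → (et χ v = 0 ↔ b ∈ locPow 2 v) := fun v hv => by
    rw [et_eq_zero_iff, h v hv]
  exact ⟨toAdd_sym_eq_of_pos_aux LS hA
      (fun x _ => isRay_et χ x fun v hv => absurd hv (Finset.notMem_empty v)) h',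
    pos_of_isRay_aux LS hA (isRay_et χ) h'⟩

/-- **The local symbols of `b` at all places**: `η` a quadratic character of the narrow class
group of an arbitrary number field. -/
theorem toAdd_sym_eq_of_pos (LS : LocalSymbols 2 K) {η : HeightOneSpectrum (𝓞 K) → ZMod 2}
    (hη : ∀ x : Kˣ, (∀ σ : K →+* ℝ, 0 < σ (x : K)) → rayVal ∅ η x = 1)
    {b : Kˣ} {T : Finset (HeightOneSpectrum (𝓞 K))}
    (h : ∀ v, v ∉ T → (η v = 0 ↔ b ∈ locPow 2 v))
    (v : HeightOneSpectrum (𝓞 K)) (x : Kˣ) : (LS.sym v b x).toAdd = ord v x • η v :=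
  toAdd_sym_eq_of_pos_aux LS (HM.approxStmt K) hη h v x

/-- `b` is totally positive if `η` kills all principal divisors. -/
theorem pos_of_isRay (LS : LocalSymbols 2 K) {η : HeightOneSpectrum (𝓞 K) → ZMod 2}
    (hη : IsRay ∅ 0 η) {b : Kˣ} {T : Finset (HeightOneSpectrum (𝓞 K))}
    (h : ∀ v, v ∉ T → (η v = 0 ↔ b ∈ locPow 2 v)) (σ : K →+* ℝ) : 0 < σ (b : K) :=
  pos_of_isRay_aux LS (HM.approxStmt K) hη h σ

/-- **The symbols of the Kummer generator of a quadratic character of the class group**, `K` an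
arbitrary number field. -/
theorem sym_eq_of_kum (LS : LocalSymbols 2 K) (χ : ClassGroup (𝓞 K) →* ℤˣ) {b : Kˣ}
    {T : Finset (HeightOneSpectrum (𝓞 K))}
    (h : ∀ v, v ∉ T → (χ (cls v) = 1 ↔ b ∈ locPow 2 v)) :
    (∀ v x, (LS.sym v b x).toAdd = ord v x • et χ v) ∧ ∀ σ : K →+* ℝ, 0 < σ (b : K) :=
  sym_eq_of_kum_aux LS (HM.approxStmt K) χ h

end Main

end Fermat.Agent.Cor.Diff
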