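import Fermat.Agent.Corollaries.Diff.Split

/-!
# The unramified quadratic extension at a place

`v` a place of `K`, `X² + X + c` a polynomial over `𝓞 K` without roots modulo `v`, `b₀ = 1 - 4 c`.
If `b b₀` is a square in `K_v`, then every place `w` of `L = K(√b)` above `v` is unramified with
residue degree `2`.  In particular this holds for `L = K(√b₀)`.
-/

set_option autoImplicit false

noncomputable section

namespace Fermat.Agent.Cor.Diff

open NumberField IsDedekindDomain Polynomial WithZero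
open Fermat.Agent.CFT.Places
open Fermat.Agent.CFT.SUnits (ord valuation_eq_exp_neg_ord)
open Fermat.Agent.CFT.Global (above mem_above locPow mem_locPow pow_mem_locPow)
open Fermat.Agent.LT.NV (fdeg edeg card_stab edeg_ne_zero)
open Fermat.Agent.CFT.Global2
open scoped nonZeroDivisors

section Irred

variable {K : Type*} [Field K] [NumberField K]

/-- there is a polynomial `X² + X + c` without roots in the residue field -/
theorem exists_irred (v : HeightOneSpectrum (𝓞 K)) :
    ∃ c : 𝓞 K, ∀ s : 𝓞 K, s ^ 2 + s + c ∉ v.asIdeal := by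
  let _ : Field (𝓞 K ⧸ v.asIdeal) := Ideal.Quotient.field v.asIdeal
  have hfin : Finite (𝓞 K ⧸ v.asIdeal) := inferInstance
  let f : (𝓞 K ⧸ v.asIdeal) → (𝓞 K ⧸ v.asIdeal) := fun x => x ^ 2 + x
  have hni : ¬ Function.Injective f := by
    intro h
    have h1 : (0 : 𝓞 K ⧸ v.asIdeal) = -1 := h (by simp [f])
    exact one_ne_zero (α := 𝓞 K ⧸ v.asIdeal) (by linear_combination h1)
  have hns : ¬ Function.Surjective f := fun h => hni (Finite.injective_iff_surjective.mpr h)
  rw [Function.Surjective] at hns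
  push Not at hns
  obtain ⟨y, hy⟩ := hns
  obtain ⟨c, rfl⟩ := Ideal.Quotient.mk_surjective y
  refine ⟨-c, fun s hs => hy (Ideal.Quotient.mk v.asIdeal s) ?_⟩
  change Ideal.Quotient.mk v.asIdeal s ^ 2 + Ideal.Quotient.mk v.asIdeal s = _
  rw [← map_pow, ← map_add, Ideal.Quotient.eq]
  convert hs using 1
  ring

/-- `1 - 4 c` is not a square in `K` if `X² + X + c` has no root modulo some place. -/
theorem sq_ne_of_irred {v : HeightOneSpectrum (𝓞 K)} {c : 𝓞 K}
    (hc : ∀ s : 𝓞 K, s ^ 2 + s + c ∉ v.asIdeal) (r : K) : r ^ 2 ≠ 1 - 4 * (c : K) := by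
  intro hr
  have hroot : ((-1 + r) / 2) ^ 2 + (-1 + r) / 2 + (c : K) = 0 := by
    field_simp
    linear_combination hr
  have hint : IsIntegral (𝓞 K) ((-1 + r) / 2) := by
    refine ⟨X ^ 2 + X + C c, ?_, ?_⟩
    · monicity!
    · simpa using hroot
  obtain ⟨s, hs⟩ := IsIntegrallyClosed.isIntegral_iff.mp hint
  apply hc s
  have h1 : algebraMap (𝓞 K) K (s ^ 2 + s + c) = 0 := by
    rw [map_add, map_add, map_pow, hs]
    exact hroot
  rw [FaithfulSMul.algebraMap_eq_zero_iff] at h1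
  rw [h1]
  exact zero_mem _

theorem one_sub_ne_zero_of_irred {v : HeightOneSpectrum (𝓞 K)} {c : 𝓞 K}
    (hc : ∀ s : 𝓞 K, s ^ 2 + s + c ∉ v.asIdeal) : 1 - 4 * (c : K) ≠ 0 := by
  intro h
  exact sq_ne_of_irred hc 0 (by rw [h]; ring)

end Irred

section Ext

variable {K L : Type*} [Field K] [NumberField K] [Field L] [NumberField L] [Algebra K L]

/-- a root of `X² + X + c` modulo `w` -/
theorem fdeg_ne_one_of_root {w : HeightOneSpectrum (𝓞 L)} {c : 𝓞 K}
    (hc : ∀ s : 𝓞 K, s ^ 2 + s + c ∉ (w.under (𝓞 K)).asIdeal) {t : 𝓞 L}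
    (ht : t ^ 2 + t + algebraMap (𝓞 K) (𝓞 L) c ∈ w.asIdeal) : fdeg K w ≠ 1 := by
  intro hf
  set v := w.under (𝓞 K) with hv
  let _ : Field (𝓞 K ⧸ v.asIdeal) := Ideal.Quotient.field v.asIdeal
  let _ : Field (𝓞 L ⧸ w.asIdeal) := Ideal.Quotient.field w.asIdeal
  have hd : Module.finrank (𝓞 K ⧸ v.asIdeal) (𝓞 L ⧸ w.asIdeal) = 1 := by
    rw [← Ideal.inertiaDeg'_algebraMap]
    exact hf
  obtain ⟨s, hs⟩ := (finrank_eq_one_iff_of_nonzero' (1 : 𝓞 L ⧸ w.asIdeal) one_ne_zero).mp hd
    (Ideal.Quotient.mk w.asIdeal t)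
  obtain ⟨s, rfl⟩ := Ideal.Quotient.mk_surjective s
  rw [Algebra.smul_def, mul_one] at hs
  have hs' : Ideal.Quotient.mk w.asIdeal (algebraMap (𝓞 K) (𝓞 L) s) =
      Ideal.Quotient.mk w.asIdeal t := hs
  apply hc s
  have h1 : algebraMap (𝓞 K) (𝓞 L) (s ^ 2 + s + c) ∈ w.asIdeal := by
    have h2 := Ideal.Quotient.eq_zero_iff_mem.mpr ht
    rw [← Ideal.Quotient.eq_zero_iff_mem]
    simp only [map_add, map_pow, hs'] at h2 ⊢
    exact h2
  rw [(liesOver_below (K := K) w).over, Ideal.under_def, Ideal.mem_comap] at *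
  exact h1

/-- an approximate square root of `b₀` in `L` gives a root of `X² + X + c` modulo `w` -/
theorem exists_root {w : HeightOneSpectrum (𝓞 L)} {b b₀ : Kˣ} {c : 𝓞 K}
    (hb₀ : (b₀ : K) = 1 - 4 * (c : K)) {α : L} (hα : α ^ 2 = algebraMap K L b)
    (h : b * b₀ ∈ locPow 2 (w.under (𝓞 K))) :
    ∃ t : 𝓞 L, t ^ 2 + t + algebraMap (𝓞 K) (𝓞 L) c ∈ w.asIdeal := by
  set v := w.under (𝓞 K) with hv
  have hα0 : α ≠ 0 := by
    rintro rfl
    rw [zero_pow two_ne_zero] at hα
    exact (map_ne_zero (algebraMap K L)).mpr b.ne_zero hα.symm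
  -- the precision
  have h4 : (4 : K) ≠ 0 := by norm_num
  obtain ⟨n, hn⟩ : ∃ n : ℕ, exp (-((n : ℤ) + 1)) < v.valuation K (4 : K) := by
    have h5 := valuation_eq_exp_neg_ord K v (Units.mk0 (4 : K) h4)
    rw [Units.val_mk0] at h5
    refine ⟨(ord v (Units.mk0 (4 : K) h4)).toNat, ?_⟩
    rw [h5, exp_lt_exp]
    have := Int.self_le_toNat (ord v (Units.mk0 (4 : K) h4))
    omega
  obtain ⟨y, hy⟩ := (mem_locPow.mp h) n
  set δ : K := ((b * b₀ / y ^ 2 : Kˣ) : K) - 1 with hδ
  have hδ4 : v.valuation K δ < v.valuation K (4 : K) := lt_of_le_of_lt hy hn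
  have hy0 : (y : K) ≠ 0 := y.ne_zero
  have hb0 : (b : K) ≠ 0 := b.ne_zero
  set z : L := algebraMap K L y / α with hz
  have hz2 : z ^ 2 = algebraMap K L ((y : K) ^ 2 / b) := by
    rw [hz, div_pow, hα, ← map_pow, ← map_div₀]
  have e1 : (b₀ : K) - (y : K) ^ 2 / b = (y : K) ^ 2 / b * δ := by
    rw [hδ]
    push_cast
    field_simp
  -- `|y² / b| ≤ 1`
  have hW4 : w.valuation L (algebraMap K L δ) < w.valuation L (algebraMap K L 4) :=
    (valuation_algebraMap_lt_iff w δ 4).mpr hδ4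
  have hc1 : v.valuation K (c : K) ≤ 1 := v.valuation_le_one c
  have h41 : v.valuation K (4 : K) ≤ 1 := by
    have e : algebraMap (𝓞 K) K 4 = 4 := map_ofNat _ 4
    rw [← e]
    exact v.valuation_le_one 4
  have hb₀1 : v.valuation K (b₀ : K) ≤ 1 := by
    rw [hb₀]
    refine (Valuation.map_sub _ _ _).trans (max_le (map_one _).le ?_)
    rw [map_mul]
    exact mul_le_one' h41 hc1
  have hyb : v.valuation K ((y : K) ^ 2 / b) ≤ 1 := by
    have e2 : (b₀ : K) = (y : K) ^ 2 / b * (1 + δ) := by linear_combination e1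
    have h6 : v.valuation K (1 + δ) = 1 := by
      rw [Valuation.map_add_eq_of_lt_left _ (by rw [map_one]; exact hδ4.trans_le h41), map_one]
    rw [e2, map_mul, h6, mul_one] at hb₀1
    exact hb₀1
  set θ : L := (-1 + z) / 2 with hθ
  have hθ2 : θ ^ 2 + θ + algebraMap K L c = -(algebraMap K L ((y : K) ^ 2 / b * δ) / 4) := by
    rw [← e1, map_sub, ← hz2, hb₀, map_sub, map_one, map_mul, map_ofNat, hθ]
    field_simp
    ring
  have hsmall : w.valuation L (θ ^ 2 + θ + algebraMap K L c) < 1 := by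
    rw [hθ2, Valuation.map_neg, map_div₀, map_mul, map_mul]
    have h40 : w.valuation L (4 : L) ≠ 0 := by
      rw [Ne, map_eq_zero]
      norm_num
    rw [div_lt_one₀ (pos_iff_ne_zero.mpr h40)]
    have h7 : w.valuation L (algebraMap K L ((y : K) ^ 2 / b)) ≤ 1 := by
      rw [valuation_algebraMap_le_one_iff]
      exact hyb
    calc w.valuation L (algebraMap K L ((y : K) ^ 2 / b)) * w.valuation L (algebraMap K L δ)
        ≤ 1 * w.valuation L (algebraMap K L δ) := mul_le_mul_left h7 _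
      _ < w.valuation L (4 : L) := by
          rw [one_mul]
          rwa [map_ofNat] at hW4
  have hcL : w.valuation L (algebraMap K L c) ≤ 1 := by
    rw [valuation_algebraMap_le_one_iff]
    exact hc1
  have hθ1 : w.valuation L θ ≤ 1 := by
    by_contra hcon
    push Not at hcon
    have h8 : w.valuation L (θ + 1) = w.valuation L θ :=
      Valuation.map_add_eq_of_lt_left _ (by rwa [map_one])
    have h9 : w.valuation L (θ * (θ + 1)) ≤ 1 := by
      have e3 : θ * (θ + 1) = (θ ^ 2 + θ + algebraMap K L c) - algebraMap K L c := by ring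
      rw [e3]
      exact (Valuation.map_sub _ _ _).trans (max_le hsmall.le hcL)
    rw [map_mul, h8] at h9
    exact absurd h9 (not_le.mpr (one_lt_mul'' hcon hcon))
  obtain ⟨t, ht⟩ := w.exists_valuation_sub_lt_of_integer hθ1 1
  refine ⟨t, ?_⟩
  rw [Units.val_one] at ht
  have h10 : w.valuation L (algebraMap (𝓞 L) L (t ^ 2 + t + algebraMap (𝓞 K) (𝓞 L) c)) < 1 := by
    have e4 : algebraMap (𝓞 L) L (t ^ 2 + t + algebraMap (𝓞 K) (𝓞 L) c) =
        (algebraMap (𝓞 L) L t - θ) * (algebraMap (𝓞 L) L t + θ + 1) +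
          (θ ^ 2 + θ + algebraMap K L c) := by
      rw [map_add, map_add, map_pow, ← IsScalarTower.algebraMap_apply (𝓞 K) (𝓞 L) L,
        IsScalarTower.algebraMap_apply (𝓞 K) K L]
      ring
    rw [e4]
    refine (Valuation.map_add _ _ _).trans_lt (max_lt ?_ hsmall)
    rw [map_mul]
    have h11 : w.valuation L (algebraMap (𝓞 L) L t + θ + 1) ≤ 1 :=
      (Valuation.map_add _ _ _).trans (max_le ((Valuation.map_add _ _ _).trans
        (max_le (w.valuation_le_one t) hθ1)) (map_one _).le)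
    calc w.valuation L (algebraMap (𝓞 L) L t - θ) * w.valuation L (algebraMap (𝓞 L) L t + θ + 1)
        ≤ w.valuation L (algebraMap (𝓞 L) L t - θ) * 1 := mul_le_mul_right h11 _
      _ < 1 := by rwa [mul_one]
  exact (w.valuation_lt_one_iff_mem _).mp h10

/-- in a quadratic extension: residue degree not one implies inert and unramified -/
theorem deg_of_fdeg_ne_one [IsGalois K L] (h2 : Module.finrank K L = 2)
    {w : HeightOneSpectrum (𝓞 L)} (h : fdeg K w ≠ 1) : edeg K w = 1 ∧ fdeg K w = 2 := by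
  have hG : Nat.card Gal(L/K) = 2 := by rw [IsGalois.card_aut_eq_finrank, h2]
  have hc := card_stab (K := K) w
  have h1 : Nat.card {σ : L ≃ₐ[K] L // conj σ w = w} ≤ 2 := by
    rw [← hG]
    exact Nat.card_le_card_of_injective (fun σ => σ.1) Subtype.val_injective
  have h3 : 0 < Nat.card {σ : L ≃ₐ[K] L // conj σ w = w} := by
    have : Nonempty {σ : L ≃ₐ[K] L // conj σ w = w} := ⟨⟨1, conj_one w⟩⟩
    exact Nat.card_pos
  rw [hc] at h1 h3
  have he := edeg_ne_zero (K := K) w
  have hf : fdeg K w ≠ 0 := by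
    intro h0
    rw [h0, mul_zero] at h3
    exact lt_irrefl _ h3
  have he1 : 1 ≤ edeg K w := Nat.one_le_iff_ne_zero.mpr he
  have hf2 : 2 ≤ fdeg K w := by omega
  constructor
  · nlinarith
  · nlinarith

end Ext

end Fermat.Agent.Cor.Diff

end
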