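import Fermat.Agent.Corollaries.Diff.RealKum

/-!
# Quadratic characters of narrow ray class groups are Kummer characters

`K` an arbitrary number field.  `IsRayP S n η`: `η` is a narrow ray character, i.e. trivial on the
divisors of the totally positive `x` with `x ≡ 1` at `S` (mod a power).  The descent of
`Diff/RealOne.lean` from the totally complex fields `K(√(-ℓ))` works also for narrow characters,
since norms from `K(√(-ℓ))` are totally positive.

* `exists_kummer_narrow`: a narrow ray character with values in `ZMod 2` is the quadratic character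
  of some `b ∈ Kˣ`.
-/

set_option autoImplicit false
set_option linter.unusedSectionVars false

namespace Fermat.Agent.Cor.Diff

open IsDedekindDomain NumberField Polynomial
open Fermat.Agent.CFT.SUnits (ord ord_one ord_mul ord_inv ord_pow ord_div finite_ord_ne_zero)
open Fermat.Agent.CFT.Places (conj below_conj exists_below_eq)
open Fermat.Agent.CFT.Global (E mem_E locPow pow_mem_locPow above mem_above normU
  AboveP Rad irreducible_of_not_pow numberField_rad adjoin_root_rad cong ord_eq_zero_of_mem_cong)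
open Fermat.Agent.CFT.Global2
open Fermat.Agent.LT (IsRay rayVal toAdd_rayVal)
open Fermat.Agent.CFT.SUnits (div)
open Fermat.Agent.LT.Tower.Fr (Good)
open Fermat.Agent.LT.Psi (kum kum_eq_zero_iff kum_eq_one_iff zmod_two_eq exists_isRay_kum up galU
  coe_up coe_galU up_injective conj_conj mem_locPow_conj ord_galU up_normU mem_locPow_of_up)
open Fermat.Agent.LT.NV (pull fdeg edeg card_stab edeg_fdeg_eq)

section Defs

variable {F : Type*} [Field F] [NumberField F] {A : Type*} [AddCommGroup A]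

/-- narrow ray characters: trivial on the totally positive elements which are `1` modulo a power of
each place in `S` -/
def IsRayP (S : Finset (HeightOneSpectrum (𝓞 F))) (n : ℕ) (η : HeightOneSpectrum (𝓞 F) → A) :
    Prop :=
  ∀ x : Fˣ, (∀ φ : F →+* ℝ, 0 < φ x) → (∀ v ∈ S, x ∈ cong v n) → rayVal S η x = 1

theorem IsRayP.of_isRay {S : Finset (HeightOneSpectrum (𝓞 F))} {n : ℕ}
    {η : HeightOneSpectrum (𝓞 F) → A} (h : IsRay S n η) : IsRayP S n η := fun x _ hx => h x hx

theorem IsRayP.isRay_of_isEmpty {S : Finset (HeightOneSpectrum (𝓞 F))} {n : ℕ}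
    {η : HeightOneSpectrum (𝓞 F) → A} (h : IsRayP S n η) (hF : IsEmpty (F →+* ℝ)) :
    IsRay S n η := fun x hx => h x (fun φ => (hF.false φ).elim) hx

/-- enlarging `S` -/
theorem IsRayP.mono_set {S T : Finset (HeightOneSpectrum (𝓞 F))} {n : ℕ}
    {η : HeightOneSpectrum (𝓞 F) → A} (h : IsRayP S n η) (hST : S ⊆ T) : IsRayP T n η := by
  classical
  intro x hpos hx
  have h1 := h x hpos fun v hv => hx v (hST hv)
  apply toAdd_eq_zero.mp
  have h2 : (rayVal S η x).toAdd = 0 := toAdd_eq_zero.mpr h1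
  rw [← h2, toAdd_rayVal, toAdd_rayVal]
  refine Finsupp.sum_congr fun v _ => ?_
  by_cases hvT : v ∈ T
  · rw [if_pos hvT]
    split_ifs with hvS
    · rfl
    · have : div x v = 0 := ord_eq_zero_of_mem_cong (hx v hvT)
      rw [this, zero_smul]
  · rw [if_neg hvT, if_neg (fun h' => hvT (hST h'))]

/-- the real place of a real embedding -/
theorem isReal_mk_ofReal {F : Type*} [Field F] (φ : F →+* ℝ) :
    (InfinitePlace.mk (Complex.ofRealHom.comp φ)).IsReal := by
  rw [InfinitePlace.isReal_mk_iff, ComplexEmbedding.isReal_iff]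
  ext x
  simp [ComplexEmbedding.conjugate]

end Defs

/-! ### The abstract quadratic extension -/

section Abs

variable {K L : Type} [Field K] [NumberField K] [Field L] [NumberField L] [Algebra K L]
  [IsGalois K L] [IsTotallyComplex L] (h2 : Module.finrank K L = 2) {σ : L ≃ₐ[K] L} (hσ : σ ≠ 1)
  {α : L} {a : Kˣ} (hα : α ^ 2 = algebraMap K L a) (hσα : σ α = -α)

include h2 hσ hα hσα in
omit [IsTotallyComplex L] in
/-- norms from `K(√a)` are totally positive if `a` is totally negative -/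
theorem normU_pos (hneg : ∀ φ : K →+* ℝ, φ a < 0) (x : Lˣ) (φ : K →+* ℝ) :
    0 < φ (normU (K := K) L x : Kˣ) := by
  have hσσ : ∀ z : L, σ (σ z) = z := Unr.apply_apply h2 hσ
  have hα0 : α ≠ 0 := by
    rintro rfl
    rw [zero_pow two_ne_zero] at hα
    exact (map_ne_zero (algebraMap K L)).mpr a.ne_zero hα.symm
  obtain ⟨p, hp⟩ := Unr.mem_range_of_fixed h2 hσ (x := (x : L) + σ x) (by
    rw [map_add, hσσ, add_comm])
  obtain ⟨q, hq⟩ := Unr.mem_range_of_fixed h2 hσ (x := ((x : L) - σ x) / α) (by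
    rw [map_div₀, map_sub, hσσ, hσα, div_neg, ← neg_div, neg_sub])
  have hN : algebraMap K L ((normU (K := K) L x : Kˣ) : K) = (x : L) * σ x := by
    have h3 := congrArg Units.val (up_normU h2 hσ x)
    rw [coe_up] at h3
    rw [h3, Units.val_mul, coe_galU]
  have h3 : 4 * ((normU (K := K) L x : Kˣ) : K) = p ^ 2 - a * q ^ 2 := by
    apply (algebraMap K L).injective
    rw [map_mul, map_sub, map_mul, map_pow, map_pow, hp, hq, hN, ← hα, div_pow]
    field_simp
    rw [map_ofNat]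
    ring
  have h4 := congrArg φ h3
  rw [map_mul, map_sub, map_mul, map_pow, map_pow, map_ofNat] at h4
  have h5 : φ ((normU (K := K) L x : Kˣ) : K) ≠ 0 := (map_ne_zero φ).mpr (Units.ne_zero _)
  have h6 : 0 ≤ φ ((normU (K := K) L x : Kˣ) : K) := by
    nlinarith [sq_nonneg (φ p), mul_nonneg (neg_nonneg.mpr (hneg φ).le) (sq_nonneg (φ q))]
  exact lt_of_le_of_ne h6 (Ne.symm h5)

include h2 hσ hα hσα in
omit [IsTotallyComplex L] in
/-- the norm pull-back of a narrow ray character to `K(√a)`, `a` totally negative -/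
theorem IsRayP.pull {A : Type*} [AddCommGroup A] {S : Finset (HeightOneSpectrum (𝓞 K))} {n : ℕ}
    {η : HeightOneSpectrum (𝓞 K) → A} (h : IsRayP S n η) (hneg : ∀ φ : K →+* ℝ, φ a < 0) :
    ∃ n', IsRay (above L S) n' (Fermat.Agent.LT.NV.pull L η) := by
  classical
  refine ⟨(n + 1) * ∑ V ∈ above L S, edeg K V, fun x hx => ?_⟩
  apply toAdd_eq_zero.mp
  rw [Fermat.Agent.LT.NV.toAdd_rayVal_pull]
  apply toAdd_eq_zero.mpr
  refine h _ (fun φ => normU_pos h2 hσ hα hσα hneg x φ) fun v hv => ?_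
  obtain ⟨V, rfl⟩ := exists_below_eq L v
  refine Fermat.Agent.LT.NV.normU_mem_cong' (n' := (n + 1) * ∑ V ∈ above L S, edeg K V) ?_
    (fun W hW => hx W ((mem_above L).mpr (by rwa [hW])))
  have h3 : edeg K V ≤ ∑ V ∈ above L S, edeg K V :=
    Finset.single_le_sum (f := fun V : HeightOneSpectrum (𝓞 L) => edeg K V)
      (fun _ _ => Nat.zero_le _) ((mem_above L).mpr hv)
  calc edeg K V * (n + 1) ≤ (∑ V ∈ above L S, edeg K V) * (n + 1) := Nat.mul_le_mul_right _ h3
    _ = (n + 1) * ∑ V ∈ above L S, edeg K V := mul_comm _ _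
    _ ≤ _ := Nat.le_succ _

include h2 hσ hα hσα in
theorem upgrade_aux_narrow {S : Finset (HeightOneSpectrum (𝓞 K))} {n : ℕ}
    {η : HeightOneSpectrum (𝓞 K) → ZMod 2} (hη : IsRayP S n η) (hneg : ∀ φ : K →+* ℝ, φ a < 0)
    {x : Kˣ}
    {T : Finset (HeightOneSpectrum (𝓞 K))}
    (h : ∀ v, v ∉ T → a ∈ locPow 2 v → (η v = 0 ↔ x ∈ locPow 2 v))
    {U : Finset (HeightOneSpectrum (𝓞 K))} (hSU : S ⊆ U) (hU : AboveP 2 U) (hx : x ∈ E U)
    {v : HeightOneSpectrum (𝓞 K)} (hv : v ∉ U) (hav : a ∈ locPow 2 v) :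
    η v = 0 ↔ x ∈ locPow 2 v := by
  classical
  have hU2 : ∀ w : HeightOneSpectrum (𝓞 L), w ∉ above L U → (2 : 𝓞 L) ∉ w.asIdeal := by
    intro w hw h'
    apply hw
    rw [mem_above]
    apply hU
    rw [Fermat.Agent.LT.NV.natCast_mem_under]
    exact_mod_cast h'
  obtain ⟨n', hn'⟩ := (hη.mono_set hSU).pull h2 hσ hα hσα hneg
  obtain ⟨m, hm⟩ := exists_isRay_kum (K := L) (S := above L U) (d := up L x) (by
    intro w hw
    by_contra hw'
    exact hU2 w hw' (by exact_mod_cast hw)) (by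
    rw [mem_E]
    intro w hw
    rw [Fermat.Agent.LT.Psi.ord_up, mem_E.mp hx _ (fun h' => hw ((mem_above L).mpr h')), mul_zero])
  have hθ : IsRay (above L U) (max n' m) (fun w => pull L η w + kum (up L x) w) :=
    (hn'.mono (le_max_left _ _)).add (hm.mono (le_max_right _ _))
  have hsplit : ∀ w : HeightOneSpectrum (𝓞 L), conj σ w ≠ w →
      (pull L η w + kum (up L x) w = 0 ↔
        (η (w.under (𝓞 K)) = 0 ↔ x ∈ locPow 2 (w.under (𝓞 K)))) := by
    intro w hw
    rw [pull_of_conj_ne h2 hσ η hw, ← up_mem_locPow_iff h2 hσ hw, ← kum_eq_zero_iff]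
    have key : ∀ s t : ZMod 2, s + t = 0 ↔ (s = 0 ↔ t = 0) := by decide
    exact key _ _
  have hzero := Fermat.Agent.LT.Quad.eq_zero_of_large hθ (T := above L (T ∪ U ∪
    (finite_ord_ne_zero K a).toFinset)) (by
    intro w hw
    rw [mem_above, Finset.mem_union, Finset.mem_union, not_or, not_or, Set.Finite.mem_toFinset,
      Set.mem_ofPred_eq, not_not] at hw
    obtain ⟨⟨hwT, hwU⟩, hwa⟩ := hw
    have hw2 := hU2 w (fun h' => hwU ((mem_above L).mp h'))
    have hw2' : (2 : 𝓞 K) ∉ (w.under (𝓞 K)).asIdeal := by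
      intro h'
      apply hw2
      have h'' : ((2 : ℕ) : 𝓞 K) ∈ (w.under (𝓞 K)).asIdeal := by exact_mod_cast h'
      rw [Fermat.Agent.LT.NV.natCast_mem_under] at h''
      exact_mod_cast h''
    have he : edeg K w = 1 := Fermat.Agent.LT.NV.ramificationIdx'_eq_one h2 hσ hα hσα
      (by exact_mod_cast hw2) (by rw [hwa]; exact dvd_zero _)
    by_cases hw' : conj σ w = w
    · change pull L η w + kum (up L x) w = 0
      rw [pull_of_conj_eq h2 hσ η hw' he, zero_add, kum_eq_zero_iff]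
      have hax : a ∉ locPow 2 (w.under (𝓞 K)) := fun h' =>
        Fermat.Agent.LT.Psi.conj_ne_of_mem_locPow hw2 hα hσα h' hw'
      by_cases hxw : x ∈ locPow 2 (w.under (𝓞 K))
      · exact Fermat.Agent.LT.NormSym.up_mem_locPow w hxw
      · have h3 := mul_mem_locPow hw2' hwa (mem_E.mp hx _ hwU) hax hxw
        have h4 := Fermat.Agent.LT.NormSym.up_mem_locPow (E := L) w h3
        have h5 : up L a ∈ locPow 2 w := by
          have hα0 : α ≠ 0 := by
            rintro rfl
            rw [zero_pow two_ne_zero] at hα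
            exact (map_ne_zero (algebraMap K L)).mpr a.ne_zero hα.symm
          have h6 : up L a = Units.mk0 α hα0 ^ 2 := by
            ext
            simp [hα]
          rw [h6]
          exact pow_mem_locPow 2 w _
        rw [map_mul] at h4
        have h7 := mul_mem (inv_mem h5) h4
        rwa [inv_mul_cancel_left] at h7
    · have haw : a ∈ locPow 2 (w.under (𝓞 K)) := Unr.mem_locPow_of_conj_ne h2 hσ hα hσα hw' he
      exact (hsplit w hw').mpr (h _ hwT haw))
  obtain ⟨w, rfl⟩ := exists_below_eq L v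
  have hwU : w ∉ above L U := fun h' => hv ((mem_above L).mp h')
  have hw : conj σ w ≠ w := Fermat.Agent.LT.Psi.conj_ne_of_mem_locPow (hU2 w hwU) hα hσα hav
  exact (hsplit w hw).mp (hzero w hwU)

include h2 hσ hα hσα in
theorem exists_b_aux_narrow {S : Finset (HeightOneSpectrum (𝓞 K))} {n : ℕ}
    {η : HeightOneSpectrum (𝓞 K) → ZMod 2} (hη : IsRayP S n η) (hneg : ∀ φ : K →+* ℝ, φ a < 0)
    (φ : K →+* ℝ) :
    ∃ (b : Kˣ) (T : Finset (HeightOneSpectrum (𝓞 K))),
      ∀ v, v ∉ T → a ∈ locPow 2 v → (η v = 0 ↔ b ∈ locPow 2 v) := by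
  classical
  have hα0 : α ≠ 0 := by
    rintro rfl
    rw [zero_pow two_ne_zero] at hα
    exact (map_ne_zero (algebraMap K L)).mpr a.ne_zero hα.symm
  have hφ := hneg φ
  obtain ⟨n', hn'⟩ := hη.pull h2 hσ hα hσα hneg
  obtain ⟨β, T', hST', hT'2, hβE, hβ⟩ :=
    Fermat.Agent.LT.Quad.exists_kummer (p := 2) Fermat.Agent.LT.Quad.neg_one_root hn'
  have hT2 : ∀ w : HeightOneSpectrum (𝓞 L), w ∉ T' → (2 : 𝓞 L) ∉ w.asIdeal :=
    fun w hw h' => hw (hT'2 w (by exact_mod_cast h'))
  -- it is enough to have `β ∈ up b * Lˣ²`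
  suffices hb : ∃ (b : Kˣ) (e : Lˣ), β = up L b * e ^ 2 by
    obtain ⟨b, e, hbe⟩ := hb
    refine ⟨b, T'.image fun w => w.under (𝓞 K), fun v hv hav => ?_⟩
    obtain ⟨w, rfl⟩ := exists_below_eq L v
    have hw : w ∉ T' := fun h' => hv (Finset.mem_image_of_mem _ h')
    have hw' : conj σ w ≠ w := Fermat.Agent.LT.Psi.conj_ne_of_mem_locPow (hT2 w hw) hα hσα hav
    rw [← pull_of_conj_ne h2 hσ η hw', hβ w hw, ← up_mem_locPow_iff h2 hσ hw', hbe]
    have h3 := pow_mem_locPow 2 w e
    constructor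
    · intro h4
      have := mul_mem h4 (inv_mem h3)
      rwa [mul_inv_cancel_right] at this
    · exact fun h4 => mul_mem h4 h3
  -- the norm of `β` is a square in `L`
  obtain ⟨c, hc⟩ : ∃ c : Lˣ, c ^ 2 = β * galU σ β := by
    by_contra hcon
    push Not at hcon
    obtain ⟨w, hw, hβw⟩ := exists_notMem_locPow (p := 2) inputs Fermat.Agent.LT.Quad.neg_one_root
      (T' ∪ T'.image (conj σ)) hcon
    rw [Finset.mem_union, not_or] at hw
    have hw1 : conj σ w ∉ T' := by
      intro h'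
      apply hw.2
      have := Finset.mem_image_of_mem (conj σ) h'
      rwa [conj_conj h2 hσ] at this
    have h3 : galU σ β ∈ locPow 2 w ↔ β ∈ locPow 2 w := by
      have h4 := mem_locPow_conj 2 σ (conj σ w) β
      rw [conj_conj h2 hσ] at h4
      rw [h4, ← hβ _ hw1, ← hβ _ hw.1, pull_conj]
    apply hβw
    by_cases h4 : β ∈ locPow 2 w
    · exact mul_mem h4 (h3.mpr h4)
    · refine mul_mem_locPow (hT2 w hw.1) (mem_E.mp hβE _ hw.1) ?_ h4 (fun h' => h4 (h3.mp h'))
      rw [ord_galU h2 hσ]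
      exact mem_E.mp hβE _ hw1
  have hσσ : ∀ z : L, σ (σ z) = z := Unr.apply_apply h2 hσ
  have hcc : (c : L) ^ 2 = (β : L) * σ β := by
    have := congrArg Units.val hc
    simpa using this
  have hσc2 : σ (c : L) ^ 2 = (c : L) ^ 2 := by
    rw [← map_pow, hcc, map_mul, hσσ, mul_comm]
  have h2L : (2 : L) ≠ 0 := two_ne_zero
  rcases sq_eq_sq_iff_eq_or_eq_neg.mp hσc2 with hσc | hσc
  · -- Hilbert 90
    obtain ⟨c₀, hc₀⟩ := Unr.mem_range_of_fixed h2 hσ hσc
    have hc₀0 : c₀ ≠ 0 := by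
      rintro rfl
      rw [map_zero] at hc₀
      exact c.ne_zero hc₀.symm
    set c₁ : Kˣ := Units.mk0 c₀ hc₀0 with hc₁
    have hupc : up L c₁ = c := by
      ext
      simp [hc₁, hc₀]
    by_cases he : (β : L) + c = 0
    · refine ⟨-c₁, 1, ?_⟩
      ext
      rw [one_pow, mul_one, coe_up, Units.val_neg, map_neg, ← coe_up, hupc]
      exact eq_neg_of_add_eq_zero_left he
    · set e : Lˣ := Units.mk0 _ he with hedef
      have hee : (e : L) = β + c := rfl
      have h3 : β * galU σ e = c * e := by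
        ext
        rw [Units.val_mul, Units.val_mul, coe_galU, hee, map_add, hσc, mul_add, ← hcc]
        ring
      have h4 : β * up L (normU (K := K) L e) = c * e ^ 2 := by
        rw [up_normU h2 hσ, mul_left_comm, h3, mul_left_comm, ← sq]
      refine ⟨c₁ * normU L e, e / up L (normU (K := K) L e), ?_⟩
      rw [map_mul, hupc, div_pow, ← mul_div_assoc, mul_right_comm, ← h4, sq,
        mul_assoc, mul_div_assoc, div_self', mul_one]
  · -- the sign
    exfalso
    obtain ⟨t, ht⟩ := Unr.mem_range_of_fixed h2 hσ (x := (c : L) / α) (by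
      rw [map_div₀, hσc, hσα, neg_div_neg_eq])
    obtain ⟨x, hx⟩ := Unr.mem_range_of_fixed h2 hσ (x := (β : L) + σ β) (by
      rw [map_add, hσσ, add_comm])
    obtain ⟨y, hy⟩ := Unr.mem_range_of_fixed h2 hσ (x := ((β : L) - σ β) / α) (by
      rw [map_div₀, map_sub, hσσ, hσα, div_neg, ← neg_div, neg_sub])
    have ht0 : t ≠ 0 := by
      rintro rfl
      rw [map_zero] at ht
      exact div_ne_zero c.ne_zero hα0 ht.symm
    have h3 : 4 * (a : K) * t ^ 2 = x ^ 2 - a * y ^ 2 := by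
      apply (algebraMap K L).injective
      rw [map_mul, map_mul, map_pow, map_sub, map_mul, map_pow, map_pow, ht, hx, hy, ← hα,
        div_pow, div_pow, hcc]
      field_simp
      rw [map_ofNat]
      ring
    have h4 := congrArg φ h3
    rw [map_mul, map_mul, map_pow, map_sub, map_mul, map_pow, map_pow, map_ofNat] at h4
    have h5 : 0 < φ t ^ 2 := by
      have : φ t ≠ 0 := (map_ne_zero φ).mpr ht0
      positivity
    nlinarith [sq_nonneg (φ x), sq_nonneg (φ y), mul_neg_of_neg_of_pos hφ h5,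
      mul_nonneg (neg_nonneg.mpr hφ.le) (sq_nonneg (φ y))]

end Abs

/-! ### The extension `K(√a)` -/

section Main

variable {K : Type} [Field K] [NumberField K]

/-- **Existence on the split places** for narrow ray characters. -/
theorem exists_b_narrow {S : Finset (HeightOneSpectrum (𝓞 K))} {n : ℕ}
    {η : HeightOneSpectrum (𝓞 K) → ZMod 2} (hη : IsRayP S n η) {a : Kˣ}
    (ha : ∀ c : Kˣ, c ^ 2 ≠ a) (hneg : ∀ φ : K →+* ℝ, φ a < 0) :
    ∃ (b : Kˣ) (T : Finset (HeightOneSpectrum (𝓞 K))),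
      ∀ v, v ∉ T → a ∈ locPow 2 v → (η v = 0 ↔ b ∈ locPow 2 v) := by
  by_cases hK : ∃ w : InfinitePlace K, w.IsReal
  · obtain ⟨w, hw⟩ := hK
    obtain ⟨L, _, _, _, _, _, σ, α, h2, hσ, hα, hσα⟩ := exists_quad ha hneg
    exact exists_b_aux_narrow h2 hσ hα hσα hη hneg (InfinitePlace.embedding_of_isReal hw)
  · push Not at hK
    have : IsTotallyComplex K := ⟨fun w => InfinitePlace.not_isReal_iff_isComplex.mp (hK w)⟩
    obtain ⟨b, T, -, -, -, hb⟩ :=
      Fermat.Agent.LT.Quad.exists_kummer (p := 2) Fermat.Agent.LT.Quad.neg_one_root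
        (hη.isRay_of_isEmpty ⟨fun φ => hK _ (isReal_mk_ofReal φ)⟩)
    exact ⟨b, T, fun v hv _ => hb v hv⟩

/-- **Exactness** for narrow ray characters. -/
theorem upgrade_narrow {S : Finset (HeightOneSpectrum (𝓞 K))} {n : ℕ}
    {η : HeightOneSpectrum (𝓞 K) → ZMod 2} (hη : IsRayP S n η) {a : Kˣ}
    (ha : ∀ c : Kˣ, c ^ 2 ≠ a) (hneg : ∀ φ : K →+* ℝ, φ a < 0) {x : Kˣ}
    {T : Finset (HeightOneSpectrum (𝓞 K))}
    (h : ∀ v, v ∉ T → a ∈ locPow 2 v → (η v = 0 ↔ x ∈ locPow 2 v))
    {U : Finset (HeightOneSpectrum (𝓞 K))} (hSU : S ⊆ U) (hU : AboveP 2 U) (hx : x ∈ E U)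
    {v : HeightOneSpectrum (𝓞 K)} (hv : v ∉ U) (hav : a ∈ locPow 2 v) :
    η v = 0 ↔ x ∈ locPow 2 v := by
  obtain ⟨L, _, _, _, _, _, σ, α, h2, hσ, hα, hσα⟩ := exists_quad ha hneg
  exact upgrade_aux_narrow h2 hσ hα hσα hη hneg h hSU hU hx hv hav

/-- **Existence theorem for quadratic narrow ray characters**, `K` an arbitrary number field. -/
theorem exists_kummer_narrow {S : Finset (HeightOneSpectrum (𝓞 K))} {n : ℕ}
    {η : HeightOneSpectrum (𝓞 K) → ZMod 2} (hη : IsRayP S n η) :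
    ∃ (b : Kˣ) (T : Finset (HeightOneSpectrum (𝓞 K))),
      ∀ v, v ∉ T → (η v = 0 ↔ b ∈ locPow 2 v) := by
  refine exists_of_split (S := S) (fun ℓ hℓ h2 hG a ha => ?_)
    fun ℓ hℓ h2 hG a ha x hx U hSU hU hxU v hv _ hav => ?_
  · exact exists_b_narrow hη (sq_ne_of_good hℓ h2 hG ha) (neg_of_eq_neg hℓ.ne_zero ha)
  · obtain ⟨T, hT⟩ := hx
    exact upgrade_narrow hη (sq_ne_of_good hℓ h2 hG ha) (neg_of_eq_neg hℓ.ne_zero ha) hT hSU hU hxU
      hv hav

end Main

end Fermat.Agent.Cor.Diff
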