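import Fermat.Agent.Corollaries.Diff.HilbertReal
import Fermat.Agent.Corollaries.Diff.NarrowOne
import Fermat.Agent.Corollaries.Diff.ClassNumber

/-!
# Kummer generators of the quadratic characters of the narrow class group

`K` an arbitrary number field.  `KumSym LS η b`: `(b, x)_v = ord_v(x) η(v)` for all finite places
`v` and all `x ∈ Kˣ`; `K(√b)` is then unramified at all finite places and `η(v) = 0` iff `v` splits.

* `exists_kumSym`: every quadratic character `η` of the narrow class group has such a `b`;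
* `KumSym.even_ord`: all `ord_v(b)` are even;
* `KumSym.sum_sg`: for two of them the number of real places at which both generators are
  negative is even (Hilbert's product formula);
* `KumSym.isRay_iff`: `η` is a character of the class group iff `b` is totally positive;
* `KumSym.isRayP`: conversely, `b` with `(b, x)_v = ord_v(x) η(v)` comes from a narrow character.
-/

set_option autoImplicit false

noncomputable section

namespace Fermat.Agent.Cor.Diff

open NumberField IsDedekindDomain
open Fermat.Agent.CFT.SUnits (ord div div_apply ord_div ord_mul ord_one)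
open Fermat.Agent.CFT.Global (locPow pow_mem_locPow LocalSymbols symVec symVec_apply
  dvd_ord_of_mem_locPow)
open Fermat.Agent.LT (IsRay rayVal toAdd_rayVal_eq_sum)
open Fermat.Agent.CFT.Global2
open Fermat.Agent.LT.NV (fdeg edeg card_stab edeg_ne_zero)
open Fermat.Agent.CFT.Places

section Kum

variable {K : Type} [Field K] [NumberField K]

/-- `(b, x)_v = ord_v(x) η(v)` at all finite places -/
def KumSym (LS : LocalSymbols 2 K) (η : HeightOneSpectrum (𝓞 K) → ZMod 2) (b : Kˣ) : Prop :=
  ∀ v x, (LS.sym v b x).toAdd = ord v x • η v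

variable {LS : LocalSymbols 2 K} {η θ : HeightOneSpectrum (𝓞 K) → ZMod 2} {b c : Kˣ}

theorem KumSym.mul (h : KumSym LS η b) (h' : KumSym LS θ c) :
    KumSym LS (fun v => η v + θ v) (b * c) := by
  intro v x
  rw [map_mul, MonoidHom.mul_apply, toAdd_mul, h v x, h' v x, smul_add]

theorem exists_kumSym (LS : LocalSymbols 2 K) (hη : IsRayP ∅ 0 η) : ∃ b : Kˣ, KumSym LS η b := by
  obtain ⟨b, T, h⟩ := exists_kummer_narrow hη
  exact ⟨b, toAdd_sym_eq_of_pos LS
    (fun x hx => hη x hx fun v hv => absurd hv (Finset.notMem_empty v)) h⟩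

theorem KumSym.eq_zero_iff (h : KumSym LS η b) (v : HeightOneSpectrum (𝓞 K)) :
    η v = 0 ↔ b ∈ locPow 2 v := by
  rw [LS.mem_locPow_iff]
  constructor
  · intro h0 x
    have h1 := h v x
    rw [h0, smul_zero] at h1
    exact h1
  · intro h1
    obtain ⟨π, hπ⟩ := Fermat.Agent.CFT.Global.exists_ord_eq_one (K := K) v
    have h2 := h v π
    rw [h1, hπ, one_smul] at h2
    exact h2.symm

theorem KumSym.exists_sq (h : KumSym LS (fun _ => 0) b) : ∃ c : Kˣ, c ^ 2 = b :=
  HM.exists_sq_of_forall_locPow ∅ fun v _ => (h.eq_zero_iff v).mp rfl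

theorem KumSym.of_sq (LS : LocalSymbols 2 K) (c : Kˣ) : KumSym LS (fun _ => 0) (c ^ 2) := by
  intro v x
  rw [smul_zero]
  exact LS.sym_eq_one_of_left (pow_mem_locPow 2 v c)

theorem KumSym.even_ord (h : KumSym LS η b) (v : HeightOneSpectrum (𝓞 K)) : Even (ord v b) := by
  by_cases h0 : η v = 0
  · rw [even_iff_two_dvd]
    exact dvd_ord_of_mem_locPow ((h.eq_zero_iff v).mp h0)
  · have h1 : η v = 1 := by
      have : ∀ z : ZMod 2, z ≠ 0 → z = 1 := by decide
      exact this _ h0
    have h2 := h v (-b)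
    rw [HM.sym_self_neg, h1, toAdd_one, zsmul_eq_mul, mul_one] at h2
    have h3 : ord v (-b) = ord v b := by
      have h4 : (-b : Kˣ) = (-1) * b := by rw [neg_one_mul]
      have h5 : ord v (-1 : Kˣ) = 0 := by
        have h6 : ord v ((-1 : Kˣ) * (-1)) = 0 := by
          rw [neg_one_mul, neg_neg, ord_one]
        rw [ord_mul] at h6
        omega
      rw [h4, ord_mul, h5, zero_add]
    rw [h3] at h2
    exact ZMod.intCast_eq_zero_iff_even.mp h2.symm

theorem KumSym.sym_eq_one (h : KumSym LS η b) (h' : KumSym LS θ c) (v : HeightOneSpectrum (𝓞 K)) :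
    LS.sym v b c = 1 := by
  obtain ⟨k, hk⟩ := h'.even_ord v
  have h1 := h v c
  rw [hk, ← two_mul, mul_comm, mul_smul, two_smul, CharTwo.add_self_eq_zero, smul_zero] at h1
  exact h1

/-- **The signatures are orthogonal.** -/
theorem KumSym.sum_sg (h : KumSym LS η b) (h' : KumSym LS θ c) :
    ∑ σ : K →+* ℝ, HM.sg σ b * HM.sg σ c = 0 := by
  rw [← HM.sum_sym_of (HM.approxStmt K) LS]
  exact HM.pf_eq_zero_of_forall LS fun v => h.sym_eq_one h' v

/-- the value of `η` on the divisor of `x` is the sum of the symbols -/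
theorem KumSym.toAdd_rayVal (h : KumSym LS η b) (x : Kˣ) :
    (rayVal ∅ η x).toAdd = HM.pf LS b x := by
  classical
  rw [toAdd_rayVal_eq_sum ∅ (div x).support η x (fun v hv _ => by
    rw [Finsupp.notMem_support_iff, div_apply] at hv
    rw [hv, zero_smul]),
    HM.pf_eq_sum LS (U := (div x).support) (fun v hv => by
      rw [Finsupp.notMem_support_iff, div_apply] at hv
      have := h v x
      rw [hv, zero_smul] at this
      exact this)]
  refine Finset.sum_congr rfl fun v _ => ?_
  rw [if_neg (Finset.notMem_empty v), h v x]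

/-- `b` with symbols `ord_v(x) η(v)` comes from a character of the narrow class group -/
theorem KumSym.isRayP (h : KumSym LS η b) : IsRayP ∅ 0 η := by
  intro x hx _
  apply toAdd_eq_zero.mp
  rw [h.toAdd_rayVal]
  exact HM.sum_symVec_of_pos LS hx b

theorem KumSym.isRay_of_pos (h : KumSym LS η b) (hb : ∀ σ : K →+* ℝ, 0 < σ (b : K)) :
    IsRay ∅ 0 η := by
  intro x _
  apply toAdd_eq_zero.mp
  rw [h.toAdd_rayVal, HM.pf_comm]
  exact HM.sum_symVec_of_pos LS hb x

/-- `η` is a character of the class group iff its Kummer generator is totally positive -/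
theorem KumSym.isRay_iff (h : KumSym LS η b) :
    IsRay ∅ 0 η ↔ ∀ σ : K →+* ℝ, 0 < σ (b : K) :=
  ⟨fun hη => pos_of_isRay LS (T := ∅) hη fun v _ => h.eq_zero_iff v, h.isRay_of_pos⟩

omit [NumberField K] in
theorem sg_sq (σ : K →+* ℝ) (c : Kˣ) : HM.sg σ (c ^ 2) = 0 := by
  rw [HM.sg_eq_zero_iff, Units.val_pow_eq_pow_val, map_pow]
  have : σ (c : K) ≠ 0 := (map_ne_zero σ).mpr c.ne_zero
  positivity

/-- the signature is determined by `η` -/
theorem KumSym.sg_eq (h : KumSym LS η b) (h' : KumSym LS η c) (σ : K →+* ℝ) :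
    HM.sg σ b = HM.sg σ c := by
  have h1 : KumSym LS (fun _ => 0) (b * c) := by
    have := h.mul h'
    refine fun v x => ?_
    rw [this v x]
    change ord v x • (η v + η v) = ord v x • (0 : ZMod 2)
    rw [CharTwo.add_self_eq_zero]
  obtain ⟨d, hd⟩ := h1.exists_sq
  have h2 : HM.sg σ b + HM.sg σ c = 0 := by
    rw [← HM.sg_mul, ← hd, sg_sq]
  exact CharTwo.add_eq_zero.mp h2

/-- `K(√b)` is unramified at all finite places. -/
theorem KumSym.edeg_eq_one (h : KumSym LS η b)
    {L : Type*} [Field L] [NumberField L] [Algebra K L] [IsGalois K L]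
    (h2 : Module.finrank K L = 2) {σ : L ≃ₐ[K] L} (hσ : σ ≠ 1) {α : L}
    (hα : α ^ 2 = algebraMap K L b) (hσα : σ α = -α) (w : HeightOneSpectrum (𝓞 L)) :
    edeg K w = 1 := by
  set v := w.under (𝓞 K) with hv
  by_cases hloc : b ∈ locPow 2 v
  · have hw : conj σ w ≠ w :=
      Fermat.Agent.CFT.FirstIneq.conj_ne_of_mem_locPow Nat.prime_two (Unr.isPrimitiveRoot_neg_one' K) hα hloc
        (by rw [hσα, map_neg, map_one, neg_one_mul]) w rfl
    exact (edeg_fdeg_of_conj_ne h2 hσ hw).1
  · have het : η v = 1 := by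
      have h0 : η v ≠ 0 := fun h0 => hloc ((h.eq_zero_iff v).mp h0)
      have : ∀ z : ZMod 2, z ≠ 0 → z = 1 := by decide
      exact this _ h0
    obtain ⟨c, hc⟩ := exists_irred v
    let b₀ : Kˣ := Units.mk0 (1 - 4 * (c : K)) (one_sub_ne_zero_of_irred hc)
    have hb₀ : (b₀ : K) = 1 - 4 * (c : K) := rfl
    have hb₀2 : ∀ r : Kˣ, r ^ 2 ≠ b₀ := by
      intro r hr
      apply sq_ne_of_irred hc (r : K)
      rw [← Units.val_pow_eq_pow_val, hr, hb₀]
    -- the extension `K(√b₀)` is inert and unramified at `v`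
    obtain ⟨M, _, _, _, _, τ, β, hM2, hτ, hβ, hτβ⟩ := exists_sqrt_ext hb₀2
    have hall : ∀ w' : HeightOneSpectrum (𝓞 M), w'.under (𝓞 K) = v →
        edeg K w' = 1 ∧ fdeg K w' = 2 := by
      intro w' hw'
      obtain ⟨t, ht⟩ := exists_root (w := w') (b := b₀) hb₀ hβ (by
        rw [← sq]
        exact pow_mem_locPow 2 _ b₀)
      exact deg_of_fdeg_ne_one hM2 (fdeg_ne_one_of_root (by rwa [hw']) ht)
    have he : ∀ w' : HeightOneSpectrum (𝓞 M), w'.under (𝓞 K) = v →
        v.asIdeal.ramificationIdx' w'.asIdeal = 1 := by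
      intro w' hw'
      have := (hall w' hw').1
      rw [edeg, hw'] at this
      exact this
    have hinert : Unr.Inert M v := by
      obtain ⟨w', hw'⟩ := exists_below_eq M v
      rw [← hw', Unr.inert_iff hM2 hτ]
      by_contra hne
      have h3 := fdeg_of_moved hM2 hτ hne
      rw [(hall w' hw').2] at h3
      exact absurd h3 (by norm_num)
    have hsym₀ : ∀ x : Kˣ, LS.sym v b₀ x = 1 ↔ Even (ord v x) := fun x =>
      Unr.sym_eq_one_iff hM2 hτ LS hβ hτβ hb₀2 he hinert x
    have hprod : b * b₀ ∈ locPow 2 v := by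
      rw [LS.mem_locPow_iff]
      intro x
      have h5 := h v x
      rw [het] at h5
      have h6 : ∀ s t : Multiplicative (ZMod 2), (s = 1 ↔ t = 1) → s * t = 1 := by decide
      rw [map_mul, MonoidHom.mul_apply]
      apply h6
      rw [hsym₀ x]
      have h7 : LS.sym v b x = 1 ↔ (LS.sym v b x).toAdd = 0 := Iff.rfl
      rw [h7, h5, zsmul_eq_mul, mul_one, ZMod.intCast_zmod_eq_zero_iff_dvd, even_iff_two_dvd]
      rfl
    obtain ⟨t, ht⟩ := exists_root (w := w) hb₀ hα hprod
    exact (deg_of_fdeg_ne_one h2 (fdeg_ne_one_of_root hc ht)).1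

/-- The Kummer generator of a quadratic extension which is unramified at all finite places. -/
theorem kumSym_of_unramified (LS : LocalSymbols 2 K) {L : Type*} [Field L] [NumberField L]
    [Algebra K L] [IsGalois K L]
    (h2 : Module.finrank K L = 2) (he : ∀ w : HeightOneSpectrum (𝓞 L),
      (w.under (𝓞 K)).asIdeal.ramificationIdx' w.asIdeal = 1) {σ : L ≃ₐ[K] L} (hσ : σ ≠ 1) {α : L}
    (hα : α ^ 2 = algebraMap K L b) (hσα : σ α = -α) (hb : ∀ c : Kˣ, c ^ 2 ≠ b)
    (hη : ∀ v, η v = 0 ↔ ¬ Unr.Inert L v) : KumSym LS η b := by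
  intro v x
  have he' : ∀ w : HeightOneSpectrum (𝓞 L),
      w.under (𝓞 K) = v → v.asIdeal.ramificationIdx' w.asIdeal = 1 := by
    rintro w rfl
    exact he w
  by_cases hv : Unr.Inert L v
  · have h1 : η v = 1 := by
      have h0 : η v ≠ 0 := fun h0 => (hη v).mp h0 hv
      have : ∀ z : ZMod 2, z ≠ 0 → z = 1 := by decide
      exact this _ h0
    have h3 := Unr.sym_eq_one_iff h2 hσ LS hα hσα hb he' hv x
    apply Fermat.Agent.LT.Psi.zmod_two_eq
    rw [h1, zsmul_eq_mul, mul_one, ZMod.intCast_eq_zero_iff_even]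
    exact h3
  · rw [(hη v).mpr hv, smul_zero]
    exact LS.sym_eq_one_of_left ((Unr.mem_locPow_iff_not_inert h2 hσ hα hσα he').mpr hv)

end Kum

end Fermat.Agent.Cor.Diff

end
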