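import Fermat.Agent.Corollaries.Diff.UnitSig

/-!
# Oriat's theorem

`K / ℚ` abelian such that `τ ^ (2 ^ k + 1) = 1` for all `τ ∈ Gal(K/ℚ)`, for some `k ≥ 1` (the
exponent of the Galois group divides `2 ^ k + 1`, i.e. it is odd and `-1` is a power of `2` modulo
the exponent; for example cyclic cubic fields).  Then every quadratic character of the narrow class
group is a character of the class group (`exists_comp_toClass`); the class group and the narrow
class group have the same 2-rank (`card_two_torsion_narrow_eq`), and if the class number is odd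
then all signatures of units occur (`index_posUnits_of_odd`).

The signatures of the Kummer generators are a totally isotropic subspace of `F₂[G]` which is stable
under `G = Gal(K/ℚ)`.  An element `f` of it satisfies `f f* = 0` with `f* = f ^ (2 ^ k)`, so `f` is
nilpotent, and `F₂[G]` is reduced.
-/

set_option autoImplicit false

noncomputable section

namespace Fermat.Agent.Cor.Diff

open NumberField IsDedekindDomain
open Fermat.Agent.CFT.SUnits (ord div div_apply)
open Fermat.Agent.CFT.Places (conj conj_one)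
open Fermat.Agent.CFT.Global (LocalSymbols locPow)
open Fermat.Agent.LT (IsRay rayVal toAdd_rayVal_eq_sum)
open Fermat.Agent.CFT.Global2
open Fermat.Agent.LT.Psi (galU coe_galU mem_locPow_conj ord_conj)

section GroupAlgebra

/-- A function on `G` with values in `F₂` which is orthogonal to its translates is zero, if
`g ^ (2 ^ k + 1) = 1` on `G`. -/
theorem eq_zero_of_isotropic {G : Type*} [CommGroup G] [Fintype G] {k : ℕ} (hk : k ≠ 0)
    (hG : ∀ g : G, g ^ (2 ^ k + 1) = 1) (f : G → ZMod 2)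
    (hf : ∀ h : G, ∑ g, f (h * g) * f g = 0) (g : G) : f g = 0 := by
  classical
  have hchar : CharP (MonoidAlgebra (ZMod 2) G) 2 :=
    charP_of_injective_algebraMap (algebraMap (ZMod 2) (MonoidAlgebra (ZMod 2) G)).injective 2
  let F : MonoidAlgebra (ZMod 2) G := ∑ g, MonoidAlgebra.single g (f g)
  have hFapp : ∀ g, F.coeff g = f g := by
    intro g
    change (∑ x, MonoidAlgebra.single x (f x) : MonoidAlgebra (ZMod 2) G).coeff g = f g
    rw [MonoidAlgebra.coeff_sum, Finsupp.finsetSum_apply]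
    simp [Finsupp.single_apply]
  have hpow : ∀ n : ℕ, F ^ 2 ^ n = ∑ g, MonoidAlgebra.single (g ^ 2 ^ n) (f g) := by
    intro n
    rw [sum_pow_char_pow]
    refine Finset.sum_congr rfl fun g _ => ?_
    rw [MonoidAlgebra.single_pow, ZMod.pow_card_pow]
  have hinv : ∀ g : G, g ^ 2 ^ k = g⁻¹ := by
    intro g
    have := hG g
    rw [pow_succ] at this
    exact eq_inv_of_mul_eq_one_left this
  -- `F F* = 0`
  have h1 : F ^ (2 ^ k + 1) = 0 := by
    rw [pow_succ, hpow k]
    change (∑ g, MonoidAlgebra.single (g ^ 2 ^ k) (f g) : MonoidAlgebra (ZMod 2) G) *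
      (∑ g, MonoidAlgebra.single g (f g)) = 0
    rw [Finset.sum_mul_sum]
    have h2 : ∀ x : G, ∑ y, (MonoidAlgebra.single (x ^ 2 ^ k) (f x) *
        MonoidAlgebra.single y (f y) : MonoidAlgebra (ZMod 2) G) =
        ∑ h, MonoidAlgebra.single h (f (h * x) * f x) := by
      intro x
      rw [← Equiv.sum_comp (Equiv.mulRight x)]
      refine Finset.sum_congr rfl fun h _ => ?_
      rw [MonoidAlgebra.single_mul_single, hinv]
      change MonoidAlgebra.single (x⁻¹ * (h * x)) (f x * f (h * x)) = _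
      rw [mul_comm h x, inv_mul_cancel_left, mul_comm (f x)]
    rw [Finset.sum_congr rfl fun x _ => h2 x, Finset.sum_comm]
    refine Finset.sum_eq_zero fun h _ => ?_
    have h3 := map_sum (MonoidAlgebra.singleAddHom (R := ZMod 2) h) (fun x => f (h * x) * f x)
      Finset.univ
    rw [hf h, map_zero] at h3
    exact h3.symm
  have h2 : F ^ 2 ^ (k + k) = F := by
    rw [hpow]
    refine Finset.sum_congr rfl fun g _ => ?_
    rw [pow_add, pow_mul, hinv, hinv, inv_inv]
  have h3 : 2 ^ k + 1 ≤ 2 ^ (k + k) := by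
    rw [pow_add]
    have h4 : 2 ≤ 2 ^ k := by
      calc 2 = 2 ^ 1 := (pow_one 2).symm
        _ ≤ 2 ^ k := Nat.pow_le_pow_right two_pos (Nat.one_le_iff_ne_zero.mpr hk)
    nlinarith
  have h4 : F = 0 := by
    rw [← h2, ← Nat.sub_add_cancel h3, pow_add, h1, mul_zero]
  rw [← hFapp g, h4]
  rfl

end GroupAlgebra

section Transport

variable {K : Type} [Field K] [NumberField K] {LS : LocalSymbols 2 K}
  {η : HeightOneSpectrum (𝓞 K) → ZMod 2} {b : Kˣ}

theorem conj_inv_conj (τ : K ≃ₐ[ℚ] K) (v : HeightOneSpectrum (𝓞 K)) :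
    conj τ (conj τ⁻¹ v) = v := by
  rw [← Fermat.Agent.CFT.Places.conj_mul, mul_inv_cancel, conj_one]

theorem conj_conj_inv (τ : K ≃ₐ[ℚ] K) (v : HeightOneSpectrum (𝓞 K)) :
    conj τ⁻¹ (conj τ v) = v := by
  rw [← Fermat.Agent.CFT.Places.conj_mul, inv_mul_cancel, conj_one]

theorem toAdd_rayVal_conj (τ : K ≃ₐ[ℚ] K) (η : HeightOneSpectrum (𝓞 K) → ZMod 2) (x : Kˣ) :
    (rayVal ∅ (fun v => η (conj τ⁻¹ v)) x).toAdd = (rayVal ∅ η (galU τ⁻¹ x)).toAdd := by
  classical
  have hord : ∀ v, ord (conj τ⁻¹ v) (galU τ⁻¹ x) = ord v x := fun v => ord_conj τ⁻¹ v x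
  set T : Finset (HeightOneSpectrum (𝓞 K)) := (div x).support with hT
  have hT' : ∀ v, v ∉ T → ord v x = 0 := by
    intro v hv
    rw [hT, Finsupp.notMem_support_iff, div_apply] at hv
    exact hv
  rw [toAdd_rayVal_eq_sum ∅ T (fun v => η (conj τ⁻¹ v)) x
      (fun v hv _ => by rw [hT' v hv, zero_smul]),
    toAdd_rayVal_eq_sum ∅ (T.image fun v => conj τ⁻¹ v) η (galU τ⁻¹ x) (fun v hv _ => by
      have h1 : conj τ v ∉ T := fun h => hv (by
        rw [Finset.mem_image]
        exact ⟨conj τ v, h, conj_conj_inv τ v⟩)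
      have h2 := hord (conj τ v)
      rw [conj_conj_inv, hT' _ h1] at h2
      rw [h2, zero_smul]),
    Finset.sum_image (fun v _ w _ h => by
      rw [← conj_inv_conj τ v, ← conj_inv_conj τ w]
      exact congrArg (conj τ) h)]
  refine Finset.sum_congr rfl fun v _ => ?_
  rw [if_neg (Finset.notMem_empty _), if_neg (Finset.notMem_empty _), hord]

/-- The Galois group acts on the Kummer generators. -/
theorem KumSym.conj (h : KumSym LS η b) (τ : K ≃ₐ[ℚ] K) :
    KumSym LS (fun v => η (Fermat.Agent.CFT.Places.conj τ⁻¹ v)) (galU τ b) := by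
  refine toAdd_sym_eq_of_pos LS (T := ∅) (fun x hx => ?_) fun v _ => ?_
  · apply toAdd_eq_zero.mp
    rw [toAdd_rayVal_conj]
    apply toAdd_eq_zero.mpr
    refine h.isRayP _ (fun σ => ?_) fun v hv => absurd hv (Finset.notMem_empty v)
    exact hx (σ.comp ((τ⁻¹ : K ≃ₐ[ℚ] K) : K →+* K))
  · rw [h.eq_zero_iff]
    have h1 := mem_locPow_conj 2 τ (Fermat.Agent.CFT.Places.conj τ⁻¹ v) b
    rw [conj_inv_conj] at h1
    exact h1.symm

variable [IsGalois ℚ K]

/-- the real embeddings are permuted transitively -/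
theorem exists_comp_eq (σ₀ σ : K →+* ℝ) :
    ∃ τ : K ≃ₐ[ℚ] K, σ = σ₀.comp ((τ : K ≃ₐ[ℚ] K) : K →+* K) := by
  let _ : Algebra K ℝ := σ₀.toAlgebra
  have : IsScalarTower ℚ K ℝ := IsScalarTower.of_algebraMap_eq fun x => by simp
  let s : K →ₐ[ℚ] ℝ := σ.toRatAlgHom
  refine ⟨Normal.algHomEquivAut ℚ ℝ K s, ?_⟩
  have h1 := (Normal.algHomEquivAut ℚ ℝ K).symm_apply_apply s
  ext x
  exact (DFunLike.congr_fun h1 x).symm

/-- the sum over the real embeddings as a sum over the Galois group -/
theorem sum_real_eq (σ₀ : K →+* ℝ) (F : (K →+* ℝ) → ZMod 2) :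
    ∑ σ, F σ = ∑ τ : K ≃ₐ[ℚ] K, F (σ₀.comp ((τ : K ≃ₐ[ℚ] K) : K →+* K)) := by
  symm
  refine Fintype.sum_bijective (fun τ : K ≃ₐ[ℚ] K => σ₀.comp ((τ : K ≃ₐ[ℚ] K) : K →+* K))
    ⟨fun τ τ' h => ?_, fun σ => ?_⟩ _ _ fun τ => rfl
  · ext x
    exact σ₀.injective (DFunLike.congr_fun h x)
  · obtain ⟨τ, hτ⟩ := exists_comp_eq σ₀ σ
    exact ⟨τ, hτ.symm⟩

end Transport

section Main

variable {K : Type} [Field K] [NumberField K] [IsAbelianGalois ℚ K]

theorem KumSym.pos_of_abelian {LS : LocalSymbols 2 K} {η : HeightOneSpectrum (𝓞 K) → ZMod 2}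
    {b : Kˣ} (h : KumSym LS η b) {k : ℕ} (hk : k ≠ 0)
    (hexp : ∀ τ : K ≃ₐ[ℚ] K, τ ^ (2 ^ k + 1) = 1) (σ₀ : K →+* ℝ) : 0 < σ₀ (b : K) := by
  classical
  let _ : CommGroup (K ≃ₐ[ℚ] K) :=
    { (inferInstance : Group (K ≃ₐ[ℚ] K)) with
      mul_comm := fun σ τ => (IsMulCommutative.is_comm (M := K ≃ₐ[ℚ] K)).comm σ τ }
  have key := eq_zero_of_isotropic (G := K ≃ₐ[ℚ] K) hk hexp
    (fun τ => HM.sg σ₀ (galU τ b)) (fun ρ => by
      have h1 := (h.conj ρ).sum_sg h
      rw [sum_real_eq σ₀] at h1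
      rw [← h1]
      refine Finset.sum_congr rfl fun τ _ => ?_
      rw [mul_comm ρ τ]
      rfl) 1
  exact HM.sg_eq_zero_iff.mp key

/-- **Oriat's theorem** for characters: every quadratic character of the narrow class group of `K`
is a character of the class group. -/
theorem exists_comp_toClass {k : ℕ} (hk : k ≠ 0)
    (hexp : ∀ τ : K ≃ₐ[ℚ] K, τ ^ (2 ^ k + 1) = 1) (χ : NarrowClassGroup K →* ℤˣ) :
    ∃ ψ : ClassGroup (𝓞 K) →* ℤˣ, ψ.comp (toClass K) = χ := by
  obtain ⟨LS⟩ := Fermat.Agent.CFT.Bridge.nonempty_localSymbols_all K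
    (Unr.isPrimitiveRoot_neg_one' K)
  apply exists_of_mem_ker LS (χ := Additive.ofMul χ)
  rw [AddMonoidHom.mem_ker]
  ext σ
  rw [sgn_apply]
  exact HM.sg_eq_zero_iff.mpr ((kumSym_kgen LS χ).pos_of_abelian hk hexp σ)

/-- **Oriat's theorem** (1977; for cyclic cubic fields Armitage and Fröhlich 1967): the class group
and the narrow class group have the same 2-rank, if `K / ℚ` is abelian and the exponent of its
Galois group divides `2 ^ k + 1` for some `k ≥ 1`. -/
theorem card_two_torsion_narrow_eq {k : ℕ} (hk : k ≠ 0)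
    (hexp : ∀ τ : K ≃ₐ[ℚ] K, τ ^ (2 ^ k + 1) = 1) :
    Nat.card {c : NarrowClassGroup K // c ^ 2 = 1} =
      Nat.card {c : ClassGroup (𝓞 K) // c ^ 2 = 1} := by
  rw [← card_quadratic_char, ← card_quadratic_char]
  symm
  refine Nat.card_congr (Equiv.ofBijective
    (fun ψ : ClassGroup (𝓞 K) →* ℤˣ => ψ.comp (toClass K)) ⟨fun ψ ψ' h => ?_, fun χ => ?_⟩)
  · exact comp_toClass_injective h
  · exact exists_comp_toClass hk hexp χ

/-- every quadratic extension of `K` which is unramified at all finite places is unramified at the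
infinite places -/
theorem isUnramifiedAtInfinitePlaces_of_abelian {k : ℕ} (hk : k ≠ 0)
    (hexp : ∀ τ : K ≃ₐ[ℚ] K, τ ^ (2 ^ k + 1) = 1) {L : Type*} [Field L] [NumberField L]
    [Algebra K L] [IsGalois K L] (h2 : Module.finrank K L = 2)
    (he : ∀ w : HeightOneSpectrum (𝓞 L), Algebra.IsUnramifiedAt (𝓞 K) w.asIdeal) :
    IsUnramifiedAtInfinitePlaces K L := by
  obtain ⟨χ, -, -, -, hinf⟩ := existsUnique_character_narrow h2 he
  exact hinf.mpr (exists_comp_toClass hk hexp χ)

/-- If the class number of `K` is odd, then all signatures of units occur. -/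
theorem index_posUnits_of_odd {k : ℕ} (hk : k ≠ 0)
    (hexp : ∀ τ : K ≃ₐ[ℚ] K, τ ^ (2 ^ k + 1) = 1) (h : Odd (classNumber K)) :
    (posUnits K).index = 2 ^ InfinitePlace.nrRealPlaces K := by
  refine (odd_card_narrow_iff.mp ?_).2
  rw [← Nat.not_even_iff_odd, even_card_iff]
  rintro ⟨χ, hχ⟩
  obtain ⟨ψ, rfl⟩ := exists_comp_toClass hk hexp χ
  have h1 : ψ = 1 := by
    by_contra h1
    have h2 : Even (Nat.card (ClassGroup (𝓞 K))) := even_card_iff.mpr ⟨ψ, h1⟩
    rw [classNumber, ← Nat.card_eq_fintype_card] at h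
    exact Nat.not_even_iff_odd.mpr h h2
  apply hχ
  rw [h1]
  rfl

end Main

section Prime

variable {K : Type} [Field K] [NumberField K] [IsGalois ℚ K]

/-- a Galois extension of prime degree is abelian -/
theorem isAbelianGalois_of_prime {p : ℕ} (hp : p.Prime) (h : Module.finrank ℚ K = p) :
    IsAbelianGalois ℚ K := by
  have : Fact p.Prime := ⟨hp⟩
  have hc : Nat.card (K ≃ₐ[ℚ] K) = p := by rw [IsGalois.card_aut_eq_finrank, h]
  have := isCyclic_of_prime_card hc
  have := IsCyclic.isMulCommutative (α := K ≃ₐ[ℚ] K)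
  exact { }

/-- **Cyclic fields of prime degree `p`** such that `p` divides `2 ^ k + 1` (`p = 3, 5, 11, 13, 17,
19, ...`): the class group and the narrow class group have the same 2-rank. -/
theorem card_two_torsion_narrow_eq_of_prime {p k : ℕ} (hp : p.Prime) (hk : k ≠ 0)
    (hpk : p ∣ 2 ^ k + 1) (h : Module.finrank ℚ K = p) :
    Nat.card {c : NarrowClassGroup K // c ^ 2 = 1} =
      Nat.card {c : ClassGroup (𝓞 K) // c ^ 2 = 1} := by
  have := isAbelianGalois_of_prime hp h
  refine card_two_torsion_narrow_eq hk fun τ => ?_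
  have hc : Nat.card (K ≃ₐ[ℚ] K) = p := by rw [IsGalois.card_aut_eq_finrank, h]
  exact orderOf_dvd_iff_pow_eq_one.mp ((hc ▸ orderOf_dvd_natCard τ).trans hpk)

/-- a Galois extension of `ℚ` of odd degree has only real places -/
theorem nrRealPlaces_of_odd (h : Odd (Module.finrank ℚ K)) :
    InfinitePlace.nrRealPlaces K = Module.finrank ℚ K := by
  have hu : IsUnramifiedAtInfinitePlaces ℚ K :=
    _root_.IsUnramifiedAtInfinitePlaces_of_odd_finrank h
  have : IsTotallyReal K := ⟨fun w => by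
    have h1 := hu.isUnramified w
    rw [InfinitePlace.isUnramified_iff] at h1
    refine h1.resolve_right fun h2 => ?_
    exact InfinitePlace.not_isReal_iff_isComplex.mpr h2
      (IsTotallyReal.isReal (K := ℚ) (w.comap (algebraMap ℚ K)))⟩
  exact (IsTotallyReal.finrank K).symm

/-- Cyclic fields of prime degree `p` dividing `2 ^ k + 1` with odd class number have units of all
`2 ^ p` signatures. -/
theorem index_posUnits_of_prime {p k : ℕ} (hp : p.Prime) (hk : k ≠ 0)
    (hpk : p ∣ 2 ^ k + 1) (h : Module.finrank ℚ K = p) (hodd : Odd (classNumber K)) :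
    (posUnits K).index = 2 ^ p := by
  have := isAbelianGalois_of_prime hp h
  have hc : Nat.card (K ≃ₐ[ℚ] K) = p := by rw [IsGalois.card_aut_eq_finrank, h]
  have hp2 : Odd p := by
    rcases hp.eq_two_or_odd' with rfl | h2
    · exfalso
      have h3 : (2 : ℕ) ∣ 2 ^ k := dvd_pow_self 2 hk
      have h4 : (2 : ℕ) ∣ 1 := (Nat.dvd_add_right h3).mp hpk
      omega
    · exact h2
  rw [index_posUnits_of_odd hk (fun τ =>
    orderOf_dvd_iff_pow_eq_one.mp ((hc ▸ orderOf_dvd_natCard τ).trans hpk)) hodd,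
    nrRealPlaces_of_odd (by rwa [h]), h]

/-- **Cyclic cubic fields** (Armitage and Fröhlich): same 2-rank. -/
theorem card_two_torsion_narrow_eq_of_cubic (h : Module.finrank ℚ K = 3) :
    Nat.card {c : NarrowClassGroup K // c ^ 2 = 1} =
      Nat.card {c : ClassGroup (𝓞 K) // c ^ 2 = 1} :=
  card_two_torsion_narrow_eq_of_prime (k := 1) Nat.prime_three one_ne_zero (by norm_num) h

/-- **Cyclic cubic fields** with odd class number have units of all eight signatures. -/
theorem index_posUnits_of_cubic (h : Module.finrank ℚ K = 3) (hodd : Odd (classNumber K)) :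
    (posUnits K).index = 8 :=
  index_posUnits_of_prime (k := 1) Nat.prime_three one_ne_zero (by norm_num) h hodd

end Prime

end Fermat.Agent.Cor.Diff

end
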