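import Fermat.Agent.Corollaries.Diff.Oriat

/-!
# Odd narrow class numbers in quadratic extensions

`K / F` quadratic, the narrow class number of `F` odd, `K / F` unramified outside one finite place
of `F`: then the narrow class number of `K` is odd (`odd_card_narrow_of_quadratic`).
-/

set_option autoImplicit false

noncomputable section

namespace Fermat.Agent.Cor.Diff

open NumberField IsDedekindDomain
open Fermat.Agent.CFT.SUnits (ord div div_apply ord_mul ord_div ord_one)
open Fermat.Agent.CFT.Places (conj conj_one below_conj exists_below_eq)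
open Fermat.Agent.CFT.Global (LocalSymbols locPow pow_mem_locPow above mem_above normU
  dvd_ord_of_mem_locPow)
open Fermat.Agent.LT (IsRay rayVal toAdd_rayVal_eq_sum)
open Fermat.Agent.CFT.Global2
open Fermat.Agent.LT.Psi (galU coe_galU mem_locPow_conj ord_conj up coe_up up_normU up_injective
  conj_conj ord_up)
open Fermat.Agent.LT.NV (edeg fdeg edeg_mul_ord_normU edeg_fdeg_eq card_stab edeg_ne_zero)

section Conj

variable {F K : Type} [Field F] [NumberField F] [Field K] [NumberField K] [Algebra F K]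
  {LS : LocalSymbols 2 K} {η : HeightOneSpectrum (𝓞 K) → ZMod 2} {b : Kˣ}

/-- The automorphisms over any base field act on the Kummer generators. -/
theorem kumSym_conj_base (h : KumSym LS η b) (τ : K ≃ₐ[F] K) :
    KumSym LS (fun v => η (conj τ⁻¹ v)) (galU τ b) := by
  classical
  have hci : ∀ v : HeightOneSpectrum (𝓞 K), conj τ (conj τ⁻¹ v) = v := fun v => by
    rw [← Fermat.Agent.CFT.Places.conj_mul, mul_inv_cancel, conj_one]
  have hic : ∀ v : HeightOneSpectrum (𝓞 K), conj τ⁻¹ (conj τ v) = v := fun v => by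
    rw [← Fermat.Agent.CFT.Places.conj_mul, inv_mul_cancel, conj_one]
  refine toAdd_sym_eq_of_pos LS (T := ∅) (fun x hx => ?_) fun v _ => ?_
  · apply toAdd_eq_zero.mp
    have hord : ∀ v, ord (conj τ⁻¹ v) (galU τ⁻¹ x) = ord v x := fun v => ord_conj τ⁻¹ v x
    set T : Finset (HeightOneSpectrum (𝓞 K)) := (div x).support with hT
    have hT' : ∀ v, v ∉ T → ord v x = 0 := by
      intro v hv
      rw [hT, Finsupp.notMem_support_iff, div_apply] at hv
      exact hv
    have h0 : (rayVal ∅ η (galU τ⁻¹ x)).toAdd = 0 := by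
      apply toAdd_eq_zero.mpr
      refine h.isRayP _ (fun σ => ?_) fun v hv => absurd hv (Finset.notMem_empty v)
      exact hx (σ.comp ((τ⁻¹ : K ≃ₐ[F] K) : K →+* K))
    rw [toAdd_rayVal_eq_sum ∅ (T.image fun v => conj τ⁻¹ v) η (galU τ⁻¹ x) (fun v hv _ => by
        have h1 : conj τ v ∉ T := fun h => hv (by
          rw [Finset.mem_image]
          exact ⟨conj τ v, h, hic v⟩)
        have h2 := hord (conj τ v)
        rw [hic, hT' _ h1] at h2
        rw [h2, zero_smul]),
      Finset.sum_image (fun v _ w _ h => by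
        rw [← hci v, ← hci w]
        exact congrArg (conj τ) h)] at h0
    rw [toAdd_rayVal_eq_sum ∅ T (fun v => η (conj τ⁻¹ v)) x
      (fun v hv _ => by rw [hT' v hv, zero_smul]), ← h0]
    refine Finset.sum_congr rfl fun v _ => ?_
    rw [if_neg (Finset.notMem_empty _), if_neg (Finset.notMem_empty _), hord]
  · rw [h.eq_zero_iff]
    have h1 := mem_locPow_conj 2 τ (conj τ⁻¹ v) b
    rw [hci] at h1
    exact h1.symm

end Conj

section Unit

variable {F : Type} [Field F] [NumberField F]

/-- if all units have trivial symbols with `b` at all finite places, then `b` is a Kummer generator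
of a character of the narrow class group -/
theorem exists_kumSym_of_units (LS : LocalSymbols 2 F) {b : Fˣ}
    (h : ∀ (v : HeightOneSpectrum (𝓞 F)) (u : Fˣ), ord v u = 0 → LS.sym v b u = 1) :
    ∃ θ, KumSym LS θ b := by
  choose π hπ using fun v : HeightOneSpectrum (𝓞 F) =>
    Fermat.Agent.CFT.Global.exists_ord_eq_one (K := F) v
  refine ⟨fun v => (LS.sym v b (π v)).toAdd, fun v x => ?_⟩
  have h1 : LS.sym v b (x / π v ^ ord v x) = 1 := by
    apply h
    have h2 : ∀ n : ℤ, ord v (π v ^ n) = n := by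
      intro n
      induction n using Int.induction_on with
      | zero => rw [zpow_zero, ord_one]
      | succ n ih => rw [zpow_add_one, ord_mul, ih, hπ]
      | pred n ih => rw [zpow_sub_one, ← div_eq_mul_inv, ord_div, ih, hπ]
    rw [ord_div, h2, sub_self]
  rw [_root_.map_div, div_eq_one, map_zpow] at h1
  rw [h1, toAdd_zpow]

theorem KumSym.exists_sq_of_odd {LS : LocalSymbols 2 F} {θ : HeightOneSpectrum (𝓞 F) → ZMod 2}
    {b : Fˣ} (h : KumSym LS θ b) (hF : Odd (Nat.card (NarrowClassGroup F))) :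
    ∃ c : Fˣ, c ^ 2 = b := by
  obtain ⟨χ, hχ⟩ := exists_nchar h.isRayP
  have h1 : χ = 1 := by
    by_contra h1
    exact Nat.not_even_iff_odd.mpr hF (even_card_iff.mpr ⟨χ, h1⟩)
  refine HM.exists_sq_of_forall_locPow ∅ fun v _ => (h.eq_zero_iff v).mp ?_
  rw [← hχ v, ent_eq_zero_iff, h1]
  rfl

end Unit

section Step

variable {F K : Type} [Field F] [NumberField F] [Field K] [NumberField K] [Algebra F K]
  [IsGalois F K] (h2 : Module.finrank F K = 2) {τ : K ≃ₐ[F] K} (hτ : τ ≠ 1)
  {α : K} {a : Fˣ} (hα : α ^ 2 = algebraMap F K a) (hτα : τ α = -α)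
  (LS : LocalSymbols 2 F) {LS' : LocalSymbols 2 K} {η : HeightOneSpectrum (𝓞 K) → ZMod 2}

include h2 hτ in
lemma sum_gal (f : (K ≃ₐ[F] K) → ℤ) : ∑ σ, f σ = f 1 + f τ := by
  classical
  have hG : Nat.card Gal(K/F) = 2 := by rw [IsGalois.card_aut_eq_finrank, h2]
  have h1 : (Finset.univ : Finset (K ≃ₐ[F] K)) = {1, τ} := by
    ext σ
    simp only [Finset.mem_univ, Finset.mem_insert, Finset.mem_singleton, true_iff]
    exact Unr.eq_one_or_of_card_two hG hτ σ
  rw [h1, Finset.sum_pair hτ.symm]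

include h2 hτ in
/-- the symbols of norms with even order with a Kummer generator from `F` are trivial -/
theorem sym_normU_of_even {b : Fˣ} (hb : KumSym LS' η (up K b))
    (hinv : ∀ w, η (conj τ w) = η w) (v : HeightOneSpectrum (𝓞 F)) {y : Kˣ}
    (hy : Even (ord v (normU (K := F) K y))) : LS.sym v b (normU (K := F) K y) = 1 := by
  classical
  have key : ∀ y : Kˣ, (LS.sym v b (normU (K := F) K y)).toAdd =
      ∑ w ∈ above K {v}, ord w y • η w := by
    intro y
    rw [← HM.prod_sym_eq_sym_normU h2 hτ LS LS', toAdd_prod]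
    exact Finset.sum_congr rfl fun w _ => hb w y
  obtain ⟨w, rfl⟩ := exists_below_eq K v
  apply toAdd_eq_zero.mp
  have h3 := edeg_mul_ord_normU (K := F) w y
  rw [sum_gal h2 hτ, conj_one] at h3
  obtain ⟨m, hm⟩ := hy
  by_cases hw : conj τ w = w
  · have h1 : above K {w.under (𝓞 F)} = {w} := by
      ext w'
      rw [HM.mem_above_iff h2 hτ, hw, or_self, Finset.mem_singleton]
    rw [key, h1, Finset.sum_singleton]
    have hG : Nat.card Gal(K/F) = 2 := by rw [IsGalois.card_aut_eq_finrank, h2]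
    have h4 : edeg F w * fdeg F w = 2 := by
      rw [← card_stab w, ← hG]
      refine Nat.card_congr (Equiv.subtypeUnivEquiv fun σ => ?_)
      rcases Unr.eq_one_or_of_card_two hG hτ σ with h | h
      · rw [h, conj_one]
      · rw [h, hw]
    rw [hw] at h3
    have h5 : edeg F w = 1 ∨ edeg F w = 2 := by
      have : edeg F w ∣ 2 := ⟨_, h4.symm⟩
      exact (Nat.dvd_prime Nat.prime_two).mp this
    rcases h5 with h5 | h5
    · -- the inert case
      obtain ⟨c, hc⟩ := Fermat.Agent.CFT.Global.exists_ord_eq_one (K := F) (w.under (𝓞 F))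
      have h6 := key (up K c)
      have h7 : normU (K := F) K (up K c) = c ^ 2 := by
        apply up_injective (L := K)
        rw [up_normU h2 hτ, Fermat.Agent.LT.Psi.galU_up, map_pow, sq]
      rw [h7, h1, Finset.sum_singleton, LS.sym_eq_one_of_right (pow_mem_locPow 2 _ c), ord_up] at h6
      have h8 : (w.under (𝓞 F)).asIdeal.ramificationIdx' w.asIdeal = 1 := h5
      rw [h8, hc, Nat.cast_one, mul_one, one_smul] at h6
      rw [← h6]
      exact smul_zero _
    · rw [h5, hm] at h3
      have h6 : ord w y = m + m := by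
        push_cast at h3
        omega
      rw [h6, add_smul, CharTwo.add_self_eq_zero]
  · have h1 : above K {w.under (𝓞 F)} = {w, conj τ w} := by
      ext w'
      rw [HM.mem_above_iff h2 hτ, Finset.mem_insert, Finset.mem_singleton]
    rw [key, h1, Finset.sum_pair (Ne.symm hw), hinv, ← add_smul]
    have h5 := (edeg_fdeg_of_conj_ne h2 hτ hw).1
    rw [h5, Nat.cast_one, one_mul, hm] at h3
    rw [← h3, add_smul, CharTwo.add_self_eq_zero]

include h2 hτ hα hτα in
/-- a unit which is a local norm from `K` has trivial symbol with `b` -/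
theorem sym_unit_of_norm {b : Fˣ} (hb : KumSym LS' η (up K b))
    (hinv : ∀ w, η (conj τ w) = η w) {v : HeightOneSpectrum (𝓞 F)} {u : Fˣ}
    (hu : ord v u = 0) (hau : LS.sym v a u = 1) : LS.sym v b u = 1 := by
  obtain ⟨s, t, b₁, hb₁, hT⟩ := HM.exists_norm_simul LS {v} a u (by
    intro w hw
    rw [Finset.mem_singleton] at hw
    rwa [hw])
  have h1 := hT v (Finset.mem_singleton_self v)
  set y₀ : K := algebraMap F K s + algebraMap F K t * α with hy₀
  have h3 : y₀ * τ y₀ = algebraMap F K b₁ := by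
    rw [hy₀, map_add, map_mul, AlgEquiv.commutes, AlgEquiv.commutes, hτα, hb₁, map_sub, map_mul,
      map_pow, map_pow, ← hα]
    ring
  have hy0 : y₀ ≠ 0 := by
    intro h0
    rw [h0, zero_mul] at h3
    exact (map_ne_zero (algebraMap F K)).mpr b₁.ne_zero h3.symm
  have h4 : normU (K := F) K (Units.mk0 y₀ hy0) = b₁ := by
    apply up_injective (L := K)
    rw [up_normU h2 hτ]
    ext
    rw [Units.val_mul, coe_galU, Units.val_mk0, coe_up]
    exact h3
  have h5 : Even (ord v b₁) := by
    have h6 := dvd_ord_of_mem_locPow h1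
    rw [ord_div, hu] at h6
    rw [even_iff_two_dvd]
    have h7 : ((2 : ℕ) : ℤ) = 2 := rfl
    rw [h7] at h6
    omega
  have h6 := sym_normU_of_even h2 hτ LS hb hinv v (y := Units.mk0 y₀ hy0) (by rwa [h4])
  rw [h4] at h6
  have h7 : LS.sym v b (u / b₁) = 1 := LS.sym_eq_one_of_right h1
  rw [_root_.map_div, h6, div_one] at h7
  exact h7

include h2 hτ hα hτα in
/-- one of `b`, `a b` has trivial symbols with all units -/
theorem exists_unr_generator {b : Fˣ} (hb : KumSym LS' η (up K b))
    (hinv : ∀ w, η (conj τ w) = η w) (v₀ : HeightOneSpectrum (𝓞 F))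
    (hun : ∀ v, v ≠ v₀ → ∀ u : Fˣ, ord v u = 0 → LS.sym v a u = 1) :
    ∃ b' : Fˣ, (b' = b ∨ b' = a * b) ∧ ∀ v (u : Fˣ), ord v u = 0 → LS.sym v b' u = 1 := by
  have hnorm : ∀ v (u : Fˣ), ord v u = 0 → LS.sym v a u = 1 → LS.sym v b u = 1 := fun v u hu hau =>
    sym_unit_of_norm h2 hτ hα hτα LS hb hinv hu hau
  have hone : ∀ x y : Multiplicative (ZMod 2), x ≠ 1 → y ≠ 1 → x * y = 1 := by decide
  by_cases hall : ∀ u : Fˣ, ord v₀ u = 0 → LS.sym v₀ b u = 1
  · refine ⟨b, Or.inl rfl, fun v u hu => ?_⟩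
    by_cases hv : v = v₀
    · rw [hv] at hu ⊢
      exact hall u hu
    · exact hnorm v u hu (hun v hv u hu)
  · push Not at hall
    obtain ⟨u₁, hu₁, hbu₁⟩ := hall
    refine ⟨a * b, Or.inr rfl, fun v u hu => ?_⟩
    rw [map_mul, MonoidHom.mul_apply]
    by_cases hv : v = v₀
    · rw [hv] at hu ⊢
      by_cases hau : LS.sym v₀ a u = 1
      · rw [hau, hnorm v₀ u hu hau, one_mul]
      · have hau₁ : LS.sym v₀ a u₁ ≠ 1 := fun h => hbu₁ (hnorm v₀ u₁ hu₁ h)
        have h1 : LS.sym v₀ a (u * u₁) = 1 := by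
          rw [map_mul]
          exact hone _ _ hau hau₁
        have h3 := hnorm v₀ (u * u₁) (by rw [ord_mul, hu, hu₁, add_zero]) h1
        rw [map_mul] at h3
        have h4 : LS.sym v₀ b u ≠ 1 := by
          intro h4
          rw [h4, one_mul] at h3
          exact hbu₁ h3
        exact hone _ _ hau h4
    · have h1 := hun v hv u hu
      rw [h1, hnorm v u hu h1, one_mul]

include h2 hτ hα hτα in
/-- An invariant quadratic character of the narrow class group of `K` is trivial. -/
theorem exists_sq_of_invariant {β : Kˣ} (hβ : KumSym LS' η β)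
    (hinv : ∀ w, η (conj τ w) = η w) (hF : Odd (Nat.card (NarrowClassGroup F)))
    (w₀ : HeightOneSpectrum (𝓞 K)) (hw₀ : edeg F w₀ ≠ 1)
    (hun : ∀ v, v ≠ w₀.under (𝓞 F) → ∀ u : Fˣ, ord v u = 0 → LS.sym v a u = 1) :
    ∃ c : Kˣ, c ^ 2 = β := by
  classical
  have hα0 : α ≠ 0 := by
    rintro rfl
    rw [zero_pow two_ne_zero] at hα
    exact (map_ne_zero (algebraMap F K)).mpr a.ne_zero hα.symm
  have hinv' : ∀ w, η (conj τ⁻¹ w) = η w := by
    intro w
    rw [← hinv (conj τ⁻¹ w), ← Fermat.Agent.CFT.Places.conj_mul, mul_inv_cancel, conj_one]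
  have hconj := kumSym_conj_base hβ τ
  rw [show (fun v => η (conj τ⁻¹ v)) = η from funext hinv'] at hconj
  have hN0 : KumSym LS' (fun _ => 0) (β * galU τ β) := by
    have h1 := hβ.mul hconj
    intro v x
    rw [h1 v x]
    change ord v x • (η v + η v) = ord v x • (0 : ZMod 2)
    rw [CharTwo.add_self_eq_zero]
  obtain ⟨c, hc⟩ := hN0.exists_sq
  have hσσ : ∀ z : K, τ (τ z) = z := Unr.apply_apply h2 hτ
  have hcc : (c : K) ^ 2 = (β : K) * τ β := by
    have := congrArg Units.val hc
    simpa using this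
  have hσc2 : τ (c : K) ^ 2 = (c : K) ^ 2 := by
    rw [← map_pow, hcc, map_mul, hσσ, mul_comm]
  rcases sq_eq_sq_iff_eq_or_eq_neg.mp hσc2 with hσc | hσc
  · -- Hilbert 90
    obtain ⟨b, e, hbe⟩ : ∃ (b : Fˣ) (e : Kˣ), β = up K b * e ^ 2 := by
      obtain ⟨c₀, hc₀⟩ := Unr.mem_range_of_fixed h2 hτ hσc
      have hc₀0 : c₀ ≠ 0 := by
        rintro rfl
        rw [map_zero] at hc₀
        exact c.ne_zero hc₀.symm
      set c₁ : Fˣ := Units.mk0 c₀ hc₀0 with hc₁
      have hupc : up K c₁ = c := by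
        ext
        simp [hc₁, hc₀]
      by_cases he : (β : K) + c = 0
      · refine ⟨-c₁, 1, ?_⟩
        ext
        rw [one_pow, mul_one, coe_up, Units.val_neg, map_neg, ← coe_up, hupc]
        exact eq_neg_of_add_eq_zero_left he
      · set e : Kˣ := Units.mk0 _ he with hedef
        have hee : (e : K) = β + c := rfl
        have h3 : β * galU τ e = c * e := by
          ext
          rw [Units.val_mul, Units.val_mul, coe_galU, hee, map_add, hσc, mul_add, ← hcc]
          ring
        have h4 : β * up K (normU (K := F) K e) = c * e ^ 2 := by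
          rw [up_normU h2 hτ, mul_left_comm, h3, mul_left_comm, ← sq]
        refine ⟨c₁ * normU K e, e / up K (normU (K := F) K e), ?_⟩
        rw [map_mul, hupc, div_pow, ← mul_div_assoc, mul_right_comm, ← h4, sq,
          mul_assoc, mul_div_assoc, div_self', mul_one]
    have hb : KumSym LS' η (up K b) := by
      have h1 := hβ.mul (KumSym.of_sq LS' e⁻¹)
      intro v x
      have h3 : up K b = β * e⁻¹ ^ 2 := by
        rw [hbe, inv_pow, mul_inv_cancel_right]
      rw [h3, h1 v x]
      change ord v x • (η v + 0) = _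
      rw [add_zero]
    obtain ⟨b', hb', hunit⟩ := exists_unr_generator h2 hτ hα hτα LS hb hinv (w₀.under (𝓞 F)) hun
    obtain ⟨θ, hθ⟩ := exists_kumSym_of_units LS hunit
    obtain ⟨d, hd⟩ := hθ.exists_sq_of_odd hF
    rcases hb' with rfl | rfl
    · refine ⟨up K d * e, ?_⟩
      rw [mul_pow, ← map_pow, hd, hbe]
    · refine ⟨up K d / Units.mk0 α hα0 * e, ?_⟩
      have h3 : (Units.mk0 α hα0) ^ 2 = up K a := by
        ext
        simp [hα]
      rw [mul_pow, div_pow, ← map_pow, hd, h3, map_mul, mul_div_cancel_left, hbe]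
  · -- the other sign
    exfalso
    obtain ⟨t, ht⟩ := Unr.mem_range_of_fixed h2 hτ (x := (c : K) / α) (by
      rw [map_div₀, hσc, hτα, neg_div_neg_eq])
    have ht0 : t ≠ 0 := by
      rintro rfl
      rw [map_zero] at ht
      exact div_ne_zero c.ne_zero hα0 ht.symm
    set t₁ : Fˣ := Units.mk0 t ht0 with ht₁
    have hNβ : normU (K := F) K β = a * t₁ ^ 2 := by
      apply up_injective (L := K)
      rw [up_normU h2 hτ]
      ext
      rw [Units.val_mul, coe_galU, ← hcc, coe_up, Units.val_mul, Units.val_pow_eq_pow_val, map_mul,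
        map_pow, ht₁, Units.val_mk0, ht, ← hα, div_pow, mul_div_cancel₀ _ (pow_ne_zero 2 hα0)]
    have hw : conj τ w₀ = w₀ := by
      by_contra hw
      exact hw₀ (edeg_fdeg_of_conj_ne h2 hτ hw).1
    have he2 : edeg F w₀ = 2 := by
      have hG : Nat.card Gal(K/F) = 2 := by rw [IsGalois.card_aut_eq_finrank, h2]
      have h4 : edeg F w₀ * fdeg F w₀ = 2 := by
        rw [← card_stab w₀, ← hG]
        refine Nat.card_congr (Equiv.subtypeUnivEquiv fun σ => ?_)
        rcases Unr.eq_one_or_of_card_two hG hτ σ with h | h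
        · rw [h, conj_one]
        · rw [h, hw]
      have : edeg F w₀ ∣ 2 := ⟨_, h4.symm⟩
      exact ((Nat.dvd_prime Nat.prime_two).mp this).resolve_left hw₀
    have h1 : above K {w₀.under (𝓞 F)} = {w₀} := by
      ext w'
      rw [HM.mem_above_iff h2 hτ, hw, or_self, Finset.mem_singleton]
    have hax : a ∈ locPow 2 (w₀.under (𝓞 F)) := by
      rw [LS.mem_locPow_iff]
      intro x
      have h3 := HM.prod_sym_eq_sym_normU h2 hτ LS LS' (w₀.under (𝓞 F)) x β
      rw [h1, Finset.prod_singleton, hNβ, map_mul,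
        LS.sym_eq_one_of_right (pow_mem_locPow 2 _ t₁), mul_one, HM.sym_comm LS _ x a,
        HM.sym_comm LS' w₀] at h3
      rw [← h3]
      apply toAdd_eq_zero.mp
      have h4 := hβ w₀ (HM.mapU F K x)
      have h5 : ord w₀ (HM.mapU F K x) = 2 * ord (w₀.under (𝓞 F)) x := by
        have h6 := ord_up (K := F) w₀ x
        have h7 : (w₀.under (𝓞 F)).asIdeal.ramificationIdx' w₀.asIdeal = 2 := he2
        rw [h7] at h6
        exact_mod_cast h6
      rw [h4, h5, two_mul, add_smul, CharTwo.add_self_eq_zero]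
    exact Fermat.Agent.CFT.FirstIneq.conj_ne_of_mem_locPow Nat.prime_two
      (Unr.isPrimitiveRoot_neg_one' F) hα hax
      (by rw [hτα, map_neg, map_one, neg_one_mul]) w₀ rfl hw

end Step

section Main

variable {F K : Type} [Field F] [NumberField F] [Field K] [NumberField K] [Algebra F K]
  [IsGalois F K]

/-- **Odd narrow class numbers.**  `K / F` quadratic, the narrow class number of `F` odd, `K / F`
unramified at all finite places of `K` which are not above `v₀`: the narrow class number of `K` is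
odd. -/
theorem odd_card_narrow_of_quadratic (h2 : Module.finrank F K = 2)
    (hF : Odd (Nat.card (NarrowClassGroup F))) (v₀ : HeightOneSpectrum (𝓞 F))
    (hv : ∀ w : HeightOneSpectrum (𝓞 K), w.under (𝓞 F) ≠ v₀ →
      Algebra.IsUnramifiedAt (𝓞 F) w.asIdeal) : Odd (Nat.card (NarrowClassGroup K)) := by
  classical
  obtain ⟨LS⟩ := Fermat.Agent.CFT.Bridge.nonempty_localSymbols_all F
    (Unr.isPrimitiveRoot_neg_one' F)
  obtain ⟨LS'⟩ := Fermat.Agent.CFT.Bridge.nonempty_localSymbols_all K
    (Unr.isPrimitiveRoot_neg_one' K)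
  have hG : Nat.card Gal(K/F) = 2 := by rw [IsGalois.card_aut_eq_finrank, h2]
  have : Nontrivial Gal(K/F) := by
    by_contra h
    rw [not_nontrivial_iff_subsingleton] at h
    have := Nat.card_of_subsingleton (1 : Gal(K/F))
    omega
  obtain ⟨τ, hτ⟩ := exists_ne (1 : Gal(K/F))
  obtain ⟨α, a, hα, hτα, hna, -⟩ := Unr.exists_gen_quad h2 hτ
  have hna' : ∀ c : Fˣ, c ^ 2 ≠ a := by
    intro c hc
    exact hna c (by rw [← hc, Units.val_pow_eq_pow_val])
  -- `v₀` is ramified
  obtain ⟨w₀, hw₀⟩ : ∃ w₀ : HeightOneSpectrum (𝓞 K), edeg F w₀ ≠ 1 := by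
    by_contra hcon
    push Not at hcon
    exact Nat.not_even_iff_odd.mpr hF (even_card_narrow_iff.mpr ⟨K, inferInstance, inferInstance,
      inferInstance, inferInstance, h2, fun w => (isUnramifiedAt_iff w).mpr (hcon w)⟩)
  have hv₀ : w₀.under (𝓞 F) = v₀ := by
    by_contra h
    exact hw₀ ((isUnramifiedAt_iff w₀).mp (hv w₀ h))
  have hun : ∀ v, v ≠ w₀.under (𝓞 F) → ∀ u : Fˣ, ord v u = 0 → LS.sym v a u = 1 := by
    intro v hvv u hu
    have he' : ∀ w : HeightOneSpectrum (𝓞 K),
        w.under (𝓞 F) = v → v.asIdeal.ramificationIdx' w.asIdeal = 1 := by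
      rintro w rfl
      exact (isUnramifiedAt_iff w).mp (hv w (by rwa [← hv₀]))
    by_cases hin : Unr.Inert K v
    · rw [Unr.sym_eq_one_iff h2 hτ LS hα hτα hna' he' hin u, hu]
      exact Even.zero
    · exact LS.sym_eq_one_of_left ((Unr.mem_locPow_iff_not_inert h2 hτ hα hτα he').mpr hin)
  rw [← Nat.not_even_iff_odd, even_card_iff]
  rintro ⟨χ, hχ⟩
  set β := kgen LS' χ
  have hβ : KumSym LS' (ent χ) β := kumSym_kgen LS' χ
  have hττ : τ⁻¹ = τ := by
    rcases Unr.eq_one_or_of_card_two hG hτ τ⁻¹ with h | h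
    · exact absurd (inv_eq_one.mp h) hτ
    · exact h
  have hcc : ∀ w : HeightOneSpectrum (𝓞 K), conj τ (conj τ w) = w := conj_conj h2 hτ
  have h1 := hβ.mul (kumSym_conj_base hβ τ)
  rw [hττ] at h1
  obtain ⟨d, hd⟩ := exists_sq_of_invariant h2 hτ hα hτα LS h1 (fun w => by
    rw [hcc, add_comm]) hF w₀ hw₀ hun
  have h3 : ∀ w, ent χ w + ent χ (conj τ w) = 0 := by
    intro w
    rw [h1.eq_zero_iff w, ← hd]
    exact pow_mem_locPow 2 w d
  obtain ⟨e, he⟩ := exists_sq_of_invariant h2 hτ hα hτα LS hβ (fun w =>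
    (CharTwo.add_eq_zero.mp (h3 w)).symm) hF w₀ hw₀ hun
  apply hχ
  refine nchar_ext fun w => ?_
  rw [MonoidHom.one_apply, ← ent_eq_zero_iff, hβ.eq_zero_iff w, ← he]
  exact pow_mem_locPow 2 w e

/-- The class number of `K` is odd and all signatures of units of `K` occur. -/
theorem odd_classNumber_of_quadratic (h2 : Module.finrank F K = 2)
    (hF : Odd (Nat.card (NarrowClassGroup F))) (v₀ : HeightOneSpectrum (𝓞 F))
    (hv : ∀ w : HeightOneSpectrum (𝓞 K), w.under (𝓞 F) ≠ v₀ →
      Algebra.IsUnramifiedAt (𝓞 F) w.asIdeal) :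
    Odd (classNumber K) ∧ (posUnits K).index = 2 ^ InfinitePlace.nrRealPlaces K :=
  odd_card_narrow_iff.mp (odd_card_narrow_of_quadratic h2 hF v₀ hv)

end Main

end Fermat.Agent.Cor.Diff

end
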