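import Fermat.Agent.Corollaries.Diff.Weber

/-!
# Galois fields of 2-power degree over `ℚ` in which one prime is ramified

* `odd_of_discr`: `K / ℚ` Galois of degree `2 ^ (n + 1)`, only one prime divides the discriminant:
  the narrow class number of `K` is odd, and all signatures of units of `K` occur
  (`index_posUnits_of_discr`).
* `exists_unit_sign`: the meaning of `[U : U⁺] = 2 ^ r₁`; `posUnits_eq_squares`: for totally real
  `K` then every totally positive unit is a square.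
* `exists_norm_neg_one`: a real quadratic field in which only one prime is ramified has a unit of
  norm `-1`.
-/

set_option autoImplicit false

noncomputable section

namespace Fermat.Agent.Cor.Diff

open NumberField IsDedekindDomain
open Fermat.Agent.CFT.Places (exists_below_eq)

section Signs

variable {K : Type*} [Field K] [NumberField K]

/-- `[U : U⁺] = 2 ^ r₁`: there are units with arbitrary signs at the real places -/
theorem exists_unit_sign (h : (posUnits K).index = 2 ^ InfinitePlace.nrRealPlaces K)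
    (s : (K →+* ℝ) → Prop) : ∃ u : (𝓞 K)ˣ, ∀ σ : K →+* ℝ, (σ (u : K) < 0 ↔ s σ) := by
  have h3 : (posUnits K).index =
      (totPos K).relIndex (Units.map (algebraMap (𝓞 K) K).toMonoidHom).range :=
    Subgroup.index_comap _ _
  have h4 : (totPos K).relIndex ((Units.map (algebraMap (𝓞 K) K).toMonoidHom).range ⊔ totPos K) *
      ((Units.map (algebraMap (𝓞 K) K).toMonoidHom).range ⊔ totPos K).index = (totPos K).index :=
    Subgroup.relIndex_mul_index le_sup_right
  rw [Subgroup.relIndex_sup_right, index_totPos, ← h3, h] at h4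
  have h5 : ((Units.map (algebraMap (𝓞 K) K).toMonoidHom).range ⊔ totPos K).index = 1 :=
    Nat.eq_of_mul_eq_mul_left (by positivity : 0 < 2 ^ InfinitePlace.nrRealPlaces K)
      (by rw [h4, mul_one])
  rw [Subgroup.index_eq_one] at h5
  obtain ⟨z, -, hz⟩ := HM.exists_sign_locPow (HM.approxStmt K) ∅ (fun _ => 1) s
  have h6 : z ∈ (Units.map (algebraMap (𝓞 K) K).toMonoidHom).range ⊔ totPos K := by
    rw [h5]
    exact Subgroup.mem_top z
  obtain ⟨_, ⟨u, rfl⟩, t, ht, hut⟩ := Subgroup.mem_sup.mp h6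
  refine ⟨u, fun σ => ?_⟩
  rw [← hz σ, ← hut, Units.val_mul, map_mul]
  have h7 : 0 < σ (t : K) := ht σ
  have h8 : ((Units.map (algebraMap (𝓞 K) K).toMonoidHom u : Kˣ) : K) = (u : K) := rfl
  rw [h8]
  constructor
  · exact fun h9 => mul_neg_of_neg_of_pos h9 h7
  · intro h9
    by_contra h10
    exact absurd h9 (not_lt.mpr (mul_nonneg (not_lt.mp h10) h7.le))

/-- the squares of units have index `2 ^ (r₁ + r₂)` -/
theorem index_squares : (powMonoidHom 2 : (𝓞 K)ˣ →* (𝓞 K)ˣ).range.index =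
    2 ^ Fintype.card (InfinitePlace K) := by
  have h1 := Fermat.Agent.CFT.AbCount.index_range_pow (A := (𝓞 K)ˣ) 2 two_ne_zero
  have h2 : Nat.card (powMonoidHom 2 : (𝓞 K)ˣ →* (𝓞 K)ˣ).ker = 2 := by
    have hmem : ∀ u : (𝓞 K)ˣ, u ∈ (powMonoidHom 2 : (𝓞 K)ˣ →* (𝓞 K)ˣ).ker ↔ u = 1 ∨ u = -1 := by
      intro u
      rw [MonoidHom.mem_ker, powMonoidHom_apply, Units.ext_iff, Units.val_pow_eq_pow_val, sq,
        Units.val_one, mul_self_eq_one_iff, Units.ext_iff, Units.ext_iff, Units.val_neg,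
        Units.val_one]
    rw [Nat.card_eq_two_iff]
    refine ⟨⟨1, (hmem 1).mpr (Or.inl rfl)⟩, ⟨-1, (hmem (-1)).mpr (Or.inr rfl)⟩, ?_, ?_⟩
    · intro h
      have h3 := congrArg Subtype.val h
      have h4 : ((1 : (𝓞 K)ˣ) : 𝓞 K) = ((-1 : (𝓞 K)ˣ) : 𝓞 K) := congrArg Units.val h3
      rw [Units.val_one, Units.val_neg, Units.val_one, eq_comm, neg_eq_self] at h4
      exact one_ne_zero h4
    · ext ⟨u, hu⟩
      simpa [Subtype.ext_iff] using (hmem u).mp hu
  rw [h1, h2, Units.finrank_eq, ← pow_succ, Fermat.Agent.CFT.SUnits.rank_add_one_eq]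

/-- For a totally real field with units of all signatures every totally positive unit is a
square. -/
theorem exists_sq_of_mem_posUnits [IsTotallyReal K]
    (h : (posUnits K).index = 2 ^ InfinitePlace.nrRealPlaces K) {u : (𝓞 K)ˣ}
    (hu : ∀ σ : K →+* ℝ, 0 < σ (u : K)) : ∃ w : (𝓞 K)ˣ, w ^ 2 = u := by
  have h1 : (powMonoidHom 2 : (𝓞 K)ˣ →* (𝓞 K)ˣ).range ≤ posUnits K := by
    rintro _ ⟨w, rfl⟩
    rw [mem_posUnits]
    intro σ
    rw [powMonoidHom_apply]
    push_cast
    rw [map_pow]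
    have : σ (w : K) ≠ 0 := by
      rw [Ne, map_eq_zero]
      exact (map_ne_zero_iff (algebraMap (𝓞 K) K) RingOfIntegers.coe_injective).mpr w.ne_zero
    positivity
  have h2 := Subgroup.relIndex_mul_index h1
  have h3 : InfinitePlace.nrRealPlaces K = Fintype.card (InfinitePlace K) := by
    rw [InfinitePlace.card_eq_nrRealPlaces_add_nrComplexPlaces,
      IsTotallyReal.nrComplexPlaces_eq_zero, add_zero]
  rw [index_squares, h, h3] at h2
  have h4 : (powMonoidHom 2 : (𝓞 K)ˣ →* (𝓞 K)ˣ).range.relIndex (posUnits K) = 1 :=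
    Nat.eq_of_mul_eq_mul_right (by positivity : 0 < 2 ^ Fintype.card (InfinitePlace K))
      (by rw [h2, one_mul])
  rw [Subgroup.relIndex_eq_one] at h4
  obtain ⟨w, hw⟩ := h4 (show u ∈ posUnits K from hu)
  exact ⟨w, hw⟩

end Signs

section Rat

theorem odd_card_narrow_rat : Odd (Nat.card (NarrowClassGroup ℚ)) := by
  have h1 := card_narrow_mul_index (K := ℚ)
  have h2 : InfinitePlace.nrRealPlaces ℚ = 1 := by
    rw [← IsTotallyReal.finrank ℚ, Module.finrank_self]
  rw [h2, Rat.classNumber_eq, mul_one, pow_one] at h1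
  have h3 : (posUnits ℚ).index ≠ 1 := by
    intro h3
    rw [Subgroup.index_eq_one] at h3
    have h4 : (-1 : (𝓞 ℚ)ˣ) ∈ posUnits ℚ := by
      rw [h3]
      exact Subgroup.mem_top _
    have h5 := mem_posUnits.mp h4 (algebraMap ℚ ℝ)
    simp at h5
    linarith
  have h4 : (posUnits ℚ).index ∣ 2 := ⟨_, by rw [← h1, mul_comm]⟩
  have h5 := ((Nat.dvd_prime Nat.prime_two).mp h4).resolve_left h3
  rw [h5] at h1
  have h6 : Nat.card (NarrowClassGroup ℚ) = 1 := by omega
  rw [h6]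
  exact odd_one

theorem prime_natCast_rat {p : ℕ} (hp : p.Prime) : Prime (p : 𝓞 ℚ) := by
  rw [← MulEquiv.prime_iff (Rat.ringOfIntegersEquiv : 𝓞 ℚ ≃* ℤ)]
  change Prime (Rat.ringOfIntegersEquiv (p : 𝓞 ℚ))
  rw [map_natCast]
  exact Nat.prime_iff_prime_int.mp hp

/-- a prime number lies in one place of `ℚ` only -/
theorem eq_of_natCast_mem {p : ℕ} (hp : p.Prime) {v v' : HeightOneSpectrum (𝓞 ℚ)}
    (h : (p : 𝓞 ℚ) ∈ v.asIdeal) (h' : (p : 𝓞 ℚ) ∈ v'.asIdeal) : v = v' := by
  have hprime : Prime (p : 𝓞 ℚ) := prime_natCast_rat hp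
  have h0 : (p : 𝓞 ℚ) ≠ 0 := hprime.ne_zero
  have hmax : (Ideal.span {(p : 𝓞 ℚ)}).IsMaximal :=
    ((Ideal.span_singleton_prime h0).mpr hprime).isMaximal (by
      rw [Ne, Ideal.span_singleton_eq_bot]
      exact h0)
  have key : ∀ w : HeightOneSpectrum (𝓞 ℚ), (p : 𝓞 ℚ) ∈ w.asIdeal →
      Ideal.span {(p : 𝓞 ℚ)} = w.asIdeal := fun w hw =>
    hmax.eq_of_le w.isPrime.ne_top ((Ideal.span_singleton_le_iff_mem _).mpr hw)
  exact HeightOneSpectrum.ext ((key v h).symm.trans (key v' h'))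

variable {K : Type} [Field K] [NumberField K] [IsGalois ℚ K]

/-- **One ramified prime.**  `K / ℚ` Galois of degree `2 ^ (n + 1)`, only the prime `p` divides the
discriminant: the narrow class number of `K` is odd. -/
theorem odd_of_discr {n p : ℕ} (hn : Module.finrank ℚ K = 2 ^ (n + 1)) (hp : p.Prime)
    (hd : ∀ q : ℕ, q.Prime → (q : ℤ) ∣ discr K → q = p) :
    Odd (Nat.card (NarrowClassGroup K)) := by
  have hprime : Prime (p : 𝓞 ℚ) := prime_natCast_rat hp
  obtain ⟨P, hP⟩ : ∃ v₀ : HeightOneSpectrum (𝓞 ℚ), (p : 𝓞 ℚ) ∈ v₀.asIdeal :=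
    ⟨⟨Ideal.span {(p : 𝓞 ℚ)}, (Ideal.span_singleton_prime hprime.ne_zero).mpr hprime, by
      rw [Ne, Ideal.span_singleton_eq_bot]
      exact hprime.ne_zero⟩, Ideal.mem_span_singleton_self _⟩
  refine odd_card_narrow_of_two_power n ℚ K hn odd_card_narrow_rat P fun w hw => ?_
  obtain ⟨q, hq, hqw⟩ := Fermat.Agent.LT.Tower.Fr.exists_prime_mem w
  have hqp : q ≠ p := by
    rintro rfl
    refine hw (eq_of_natCast_mem hq ?_ hP)
    change algebraMap (𝓞 ℚ) (𝓞 K) (q : 𝓞 ℚ) ∈ w.asIdeal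
    rwa [map_natCast]
  have h1 : ¬ (q : ℤ) ∣ discr K := fun h => hqp (hd q hq h)
  have h2 : Algebra.IsUnramifiedAt ℤ w.asIdeal :=
    (not_dvd_discr_iff_forall_mem K (𝓞 K) (Nat.prime_iff_prime_int.mp hq)).mp h1 w.asIdeal
      w.isPrime (by exact_mod_cast hqw)
  exact Algebra.IsUnramifiedAt.of_restrictScalars (R := ℤ) w.asIdeal

theorem index_posUnits_of_discr {n p : ℕ} (hn : Module.finrank ℚ K = 2 ^ (n + 1)) (hp : p.Prime)
    (hd : ∀ q : ℕ, q.Prime → (q : ℤ) ∣ discr K → q = p) :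
    Odd (classNumber K) ∧ (posUnits K).index = 2 ^ InfinitePlace.nrRealPlaces K :=
  odd_card_narrow_iff.mp (odd_of_discr hn hp hd)

/-- `K` totally real, Galois of degree `2 ^ (n + 1)`, only one prime divides the discriminant:
every totally positive unit is a square (**Weber**, for the real subfield of `ℚ(ζ_{2^n})`). -/
theorem exists_sq_of_discr [IsTotallyReal K] {n p : ℕ} (hn : Module.finrank ℚ K = 2 ^ (n + 1))
    (hp : p.Prime) (hd : ∀ q : ℕ, q.Prime → (q : ℤ) ∣ discr K → q = p) {u : (𝓞 K)ˣ}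
    (hu : ∀ σ : K →+* ℝ, 0 < σ (u : K)) : ∃ w : (𝓞 K)ˣ, w ^ 2 = u :=
  exists_sq_of_mem_posUnits (index_posUnits_of_discr hn hp hd).2 hu

/-- A real quadratic field whose discriminant is divisible by one prime only has a unit of norm
`-1`. -/
theorem exists_norm_neg_one [IsTotallyReal K] {p : ℕ} (hn : Module.finrank ℚ K = 2)
    (hp : p.Prime) (hd : ∀ q : ℕ, q.Prime → (q : ℤ) ∣ discr K → q = p) :
    ∃ u : (𝓞 K)ˣ, Algebra.norm ℚ (u : K) = -1 := by
  classical
  have h1 := (index_posUnits_of_discr (n := 0) (by rw [hn, zero_add, pow_one]) hp hd).2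
  have hcard : Nat.card (K →+* ℝ) = 2 := by
    rw [Nat.card_eq_fintype_card, card_real_embeddings_eq, ← IsTotallyReal.finrank K, hn]
  obtain ⟨σ, σ', hne, huniv⟩ := Nat.card_eq_two_iff.mp hcard
  obtain ⟨u, hu⟩ := exists_unit_sign h1 (fun τ => τ = σ)
  refine ⟨u, ?_⟩
  have hG : Nat.card (K ≃ₐ[ℚ] K) = 2 := by rw [IsGalois.card_aut_eq_finrank, hn]
  obtain ⟨τ, hτ⟩ := exists_comp_eq σ σ'
  have hτ1 : τ ≠ 1 := by
    rintro rfl
    exact hne (by rw [hτ]; rfl)
  have h3 : algebraMap ℚ K (Algebra.norm ℚ (u : K)) = (u : K) * τ (u : K) :=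
    Fermat.Agent.CFT.Global2.Unr.norm_eq_mul hn hτ1 (u : K)
  have h4 : ((Algebra.norm ℚ (u : K) : ℚ) : ℝ) = σ (u : K) * σ' (u : K) := by
    have h5 := congrArg σ h3
    rw [map_mul] at h5
    rw [hτ, RingHom.comp_apply]
    simpa using h5
  have h5 : σ (u : K) < 0 := (hu σ).mpr rfl
  have h6 : 0 < σ' (u : K) := by
    have h7 : ¬ σ' (u : K) < 0 := fun h => hne ((hu σ').mp h).symm
    refine lt_of_le_of_ne (not_lt.mp h7) (Ne.symm ?_)
    rw [Ne, map_eq_zero]
    exact (map_ne_zero_iff (algebraMap (𝓞 K) K) RingOfIntegers.coe_injective).mpr u.ne_zero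
  have h7 : ((Algebra.norm ℚ (u : K) : ℚ) : ℝ) < 0 := by
    rw [h4]
    exact mul_neg_of_neg_of_pos h5 h6
  have h8 : Algebra.norm ℚ (u : K) < 0 := by exact_mod_cast h7
  have h9 := NumberField.Units.norm K u
  rw [abs_of_neg h8] at h9
  linarith

end Rat

end Fermat.Agent.Cor.Diff

end
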