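import Fermat.Agent.LT.NormPull
import Fermat.Agent.LT.NormSym
import Fermat.Agent.LT.Psi.Data
import Fermat.Agent.LT.NonVan2

/-!
# Quadratic ray characters of a number field with real places, on the places split in `K(√a)`

`K` a number field, `η` a ray character of `K` (unramified at the real places) with values in
`ZMod 2`, `a ∈ Kˣ` negative at all real places, not a square.  Then there is `b ∈ Kˣ` with
`η v = 0 ↔ b ∈ K_v²` for almost all places `v` which split in `K(√a)` (`exists_b`), and such a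
formula is automatically exact (`upgrade`): it holds at all places `v` outside the conductor of
`η`, not above `2`, with `ord_v b = 0`, which split in `K(√a)`.

The proof is by descent from the totally complex field `L = K(√a)`, over which every quadratic ray
character is a Kummer character: if `b' ∈ Lˣ` belongs to the pullback of `η`, then
`N(b')` is a square in `L`, hence a square in `K` (`N(b')` is positive and `a` negative at the
real places), and `b'` comes from `K` modulo squares by Hilbert's theorem 90.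
-/

set_option autoImplicit false
set_option linter.unusedSectionVars false

namespace Fermat.Agent.Cor.Diff

open IsDedekindDomain NumberField Polynomial
open Fermat.Agent.CFT.SUnits (ord ord_one ord_mul ord_inv ord_pow ord_div finite_ord_ne_zero)
open Fermat.Agent.CFT.Places (conj below_conj exists_below_eq)
open Fermat.Agent.CFT.Global (E mem_E locPow pow_mem_locPow above mem_above normU
  AboveP Rad irreducible_of_not_pow numberField_rad adjoin_root_rad)
open Fermat.Agent.CFT.Global2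
open Fermat.Agent.LT (IsRay)
open Fermat.Agent.LT.Psi (kum kum_eq_zero_iff kum_eq_one_iff zmod_two_eq exists_isRay_kum up galU
  coe_up coe_galU up_injective conj_conj mem_locPow_conj ord_galU up_normU mem_locPow_of_up)
open Fermat.Agent.LT.NV (pull fdeg edeg card_stab edeg_fdeg_eq)

/-! ### Local facts -/

section Loc

/-- of the classes `x, y, x y` of two units at a place `v ∤ 2` one is a local square. -/
theorem mul_mem_locPow {F : Type} [Field F] [NumberField F] {v : HeightOneSpectrum (𝓞 F)}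
    (hv : (2 : 𝓞 F) ∉ v.asIdeal) {a b : Fˣ} (ha : ord v a = 0) (hb : ord v b = 0)
    (h : a ∉ locPow 2 v) (h' : b ∉ locPow 2 v) : a * b ∈ locPow 2 v := by
  obtain ⟨LS⟩ := Fermat.Agent.CFT.Bridge.nonempty_localSymbols_all F
    (Unr.isPrimitiveRoot_neg_one' F)
  obtain ⟨π, hπ⟩ := Fermat.Agent.CFT.Global.exists_ord_eq_one v
  have hv' : ((2 : ℕ) : 𝓞 F) ∉ v.asIdeal := by exact_mod_cast hv
  have key : ∀ c : Fˣ, ord v c = 0 → (LS.sym v c π = 1 ↔ c ∈ locPow 2 v) := by
    intro c hc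
    rw [Fermat.Agent.LT.CubicChar.sym_eq_one_iff LS hv' hc π, hπ]
    constructor
    · rintro (h | h)
      · exact h
      · exact absurd h (by decide)
    · exact Or.inl
  have h1 : LS.sym v a π ≠ 1 := fun h1 => h ((key a ha).mp h1)
  have h2 : LS.sym v b π ≠ 1 := fun h1 => h' ((key b hb).mp h1)
  rw [← key _ (by rw [ord_mul, ha, hb, add_zero]), map_mul, MonoidHom.mul_apply]
  have h3 : ∀ x y : Multiplicative (ZMod 2), x ≠ 1 → y ≠ 1 → x * y = 1 := by decide
  exact h3 _ _ h1 h2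

variable {K L : Type*} [Field K] [NumberField K] [Field L] [NumberField L] [Algebra K L]
  [IsGalois K L] (h2 : Module.finrank K L = 2) {σ : L ≃ₐ[K] L} (hσ : σ ≠ 1)

include h2 hσ in
lemma edeg_fdeg_of_conj_ne {w : HeightOneSpectrum (𝓞 L)} (hw : conj σ w ≠ w) :
    edeg K w = 1 ∧ fdeg K w = 1 := by
  have hG : Nat.card Gal(L/K) = 2 := by rw [IsGalois.card_aut_eq_finrank, h2]
  have h3 := card_stab (K := K) w
  have h4 : Nat.card {τ : L ≃ₐ[K] L // conj τ w = w} ≤ 1 := by
    rw [Finite.card_le_one_iff_subsingleton]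
    refine ⟨fun τ τ' => ?_⟩
    have key : ∀ ρ : {τ : L ≃ₐ[K] L // conj τ w = w}, ρ.1 = 1 := by
      rintro ⟨ρ, hρ⟩
      rcases Unr.eq_one_or_of_card_two hG hσ ρ with h | h
      · exact h
      · exact absurd (h ▸ hρ) hw
    exact Subtype.ext ((key τ).trans (key τ').symm)
  have h5 : Nat.card {τ : L ≃ₐ[K] L // conj τ w = w} ≠ 0 := by
    have : Nonempty {τ : L ≃ₐ[K] L // conj τ w = w} :=
      ⟨⟨1, Fermat.Agent.CFT.Places.conj_one w⟩⟩
    exact Nat.card_pos.ne'
  have h6 : edeg K w * fdeg K w = 1 := by omega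
  exact ⟨Nat.eq_one_of_mul_eq_one_right h6, Nat.eq_one_of_mul_eq_one_left h6⟩

include h2 hσ in
lemma fdeg_eq_two_of_conj_eq {w : HeightOneSpectrum (𝓞 L)} (hw : conj σ w = w) (he : edeg K w = 1) :
    fdeg K w = 2 := by
  have hG : Nat.card Gal(L/K) = 2 := by rw [IsGalois.card_aut_eq_finrank, h2]
  have h3 := card_stab (K := K) w
  rw [he, one_mul] at h3
  rw [← h3, ← hG]
  refine Nat.card_congr (Equiv.subtypeUnivEquiv fun τ => ?_)
  rcases Unr.eq_one_or_of_card_two hG hσ τ with h | h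
  · rw [h, Fermat.Agent.CFT.Places.conj_one]
  · rw [h, hw]

include h2 hσ in
lemma up_mem_locPow_iff {w : HeightOneSpectrum (𝓞 L)} (hw : conj σ w ≠ w) (x : Kˣ) :
    up L x ∈ locPow 2 w ↔ x ∈ locPow 2 (w.under (𝓞 K)) :=
  ⟨fun h => mem_locPow_of_up h2 hσ hw (edeg_fdeg_of_conj_ne h2 hσ hw).1 h,
    fun h => Fermat.Agent.LT.NormSym.up_mem_locPow w h⟩

include h2 hσ in
lemma pull_of_conj_ne {A : Type*} [AddCommGroup A] (η : HeightOneSpectrum (𝓞 K) → A)
    {w : HeightOneSpectrum (𝓞 L)} (hw : conj σ w ≠ w) : pull L η w = η (w.under (𝓞 K)) :=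
  Fermat.Agent.LT.NV.pull_of_fdeg (edeg_fdeg_of_conj_ne h2 hσ hw).2

include h2 hσ in
lemma pull_of_conj_eq (η : HeightOneSpectrum (𝓞 K) → ZMod 2)
    {w : HeightOneSpectrum (𝓞 L)} (hw : conj σ w = w) (he : edeg K w = 1) :
    pull L η w = 0 := by
  rw [pull, fdeg_eq_two_of_conj_eq h2 hσ hw he, two_nsmul]
  exact CharTwo.add_self_eq_zero _

lemma pull_conj {A : Type*} [AddCommGroup A] (η : HeightOneSpectrum (𝓞 K) → A)
    (σ : L ≃ₐ[K] L) (w : HeightOneSpectrum (𝓞 L)) : pull L η (conj σ w) = pull L η w := by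
  have h : (conj σ w).under (𝓞 K) = w.under (𝓞 K) := below_conj σ w
  rw [pull, pull, h, (edeg_fdeg_eq h).2]

end Loc

/-! ### The abstract quadratic extension -/

section Abs

variable {K L : Type} [Field K] [NumberField K] [Field L] [NumberField L] [Algebra K L]
  [IsGalois K L] [IsTotallyComplex L] (h2 : Module.finrank K L = 2) {σ : L ≃ₐ[K] L} (hσ : σ ≠ 1)
  {α : L} {a : Kˣ} (hα : α ^ 2 = algebraMap K L a) (hσα : σ α = -α)

include h2 hσ hα hσα in
theorem upgrade_aux {S : Finset (HeightOneSpectrum (𝓞 K))} {n : ℕ}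
    {η : HeightOneSpectrum (𝓞 K) → ZMod 2} (hη : IsRay S n η) {x : Kˣ}
    {T : Finset (HeightOneSpectrum (𝓞 K))}
    (h : ∀ v, v ∉ T → a ∈ locPow 2 v → (η v = 0 ↔ x ∈ locPow 2 v))
    {U : Finset (HeightOneSpectrum (𝓞 K))} (hSU : S ⊆ U) (hU : AboveP 2 U) (hx : x ∈ E U)
    {v : HeightOneSpectrum (𝓞 K)} (hv : v ∉ U) (hav : a ∈ locPow 2 v) :
    η v = 0 ↔ x ∈ locPow 2 v := by
  classical
  have hU2 : ∀ w : HeightOneSpectrum (𝓞 L), w ∉ above L U → (2 : 𝓞 L) ∉ w.asIdeal := by
    intro w hw h'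
    apply hw
    rw [mem_above]
    apply hU
    rw [Fermat.Agent.LT.NV.natCast_mem_under]
    exact_mod_cast h'
  obtain ⟨n', hn'⟩ := (hη.mono_set hSU).pull (L := L)
  obtain ⟨m, hm⟩ := exists_isRay_kum (K := L) (S := above L U) (d := up L x) (by
    intro w hw
    by_contra hw'
    exact hU2 w hw' (by exact_mod_cast hw)) (by
    rw [mem_E]
    intro w hw
    rw [Fermat.Agent.LT.Psi.ord_up, mem_E.mp hx _ (fun h' => hw ((mem_above L).mpr h')), mul_zero])
  have hθ : IsRay (above L U) (max n' m) (fun w => pull L η w + kum (up L x) w) :=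
    (hn'.mono (le_max_left _ _)).add (hm.mono (le_max_right _ _))
  have hsplit : ∀ w : HeightOneSpectrum (𝓞 L), conj σ w ≠ w →
      (pull L η w + kum (up L x) w = 0 ↔
        (η (w.under (𝓞 K)) = 0 ↔ x ∈ locPow 2 (w.under (𝓞 K)))) := by
    intro w hw
    rw [pull_of_conj_ne h2 hσ η hw, ← up_mem_locPow_iff h2 hσ hw, ← kum_eq_zero_iff]
    have key : ∀ s t : ZMod 2, s + t = 0 ↔ (s = 0 ↔ t = 0) := by decide
    exact key _ _
  have hzero := Fermat.Agent.LT.Quad.eq_zero_of_large hθ (T := above L (T ∪ U ∪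
    (finite_ord_ne_zero K a).toFinset)) (by
    intro w hw
    rw [mem_above, Finset.mem_union, Finset.mem_union, not_or, not_or, Set.Finite.mem_toFinset,
      Set.mem_ofPred_eq, not_not] at hw
    obtain ⟨⟨hwT, hwU⟩, hwa⟩ := hw
    have hw2 := hU2 w (fun h' => hwU ((mem_above L).mp h'))
    have hw2' : (2 : 𝓞 K) ∉ (w.under (𝓞 K)).asIdeal := by
      intro h'
      apply hw2
      have h'' : ((2 : ℕ) : 𝓞 K) ∈ (w.under (𝓞 K)).asIdeal := by exact_mod_cast h'
      rw [Fermat.Agent.LT.NV.natCast_mem_under] at h''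
      exact_mod_cast h''
    have he : edeg K w = 1 := Fermat.Agent.LT.NV.ramificationIdx'_eq_one h2 hσ hα hσα
      (by exact_mod_cast hw2) (by rw [hwa]; exact dvd_zero _)
    by_cases hw' : conj σ w = w
    · change pull L η w + kum (up L x) w = 0
      rw [pull_of_conj_eq h2 hσ η hw' he, zero_add, kum_eq_zero_iff]
      have hax : a ∉ locPow 2 (w.under (𝓞 K)) := fun h' =>
        Fermat.Agent.LT.Psi.conj_ne_of_mem_locPow hw2 hα hσα h' hw'
      by_cases hxw : x ∈ locPow 2 (w.under (𝓞 K))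
      · exact Fermat.Agent.LT.NormSym.up_mem_locPow w hxw
      · have h3 := mul_mem_locPow hw2' hwa (mem_E.mp hx _ hwU) hax hxw
        have h4 := Fermat.Agent.LT.NormSym.up_mem_locPow (E := L) w h3
        have h5 : up L a ∈ locPow 2 w := by
          have hα0 : α ≠ 0 := by
            rintro rfl
            rw [zero_pow two_ne_zero] at hα
            exact (map_ne_zero (algebraMap K L)).mpr a.ne_zero hα.symm
          have h6 : up L a = Units.mk0 α hα0 ^ 2 := by
            ext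
            simp [hα]
          rw [h6]
          exact pow_mem_locPow 2 w _
        rw [map_mul] at h4
        have h7 := mul_mem (inv_mem h5) h4
        rwa [inv_mul_cancel_left] at h7
    · have haw : a ∈ locPow 2 (w.under (𝓞 K)) := Unr.mem_locPow_of_conj_ne h2 hσ hα hσα hw' he
      exact (hsplit w hw').mpr (h _ hwT haw))
  obtain ⟨w, rfl⟩ := exists_below_eq L v
  have hwU : w ∉ above L U := fun h' => hv ((mem_above L).mp h')
  have hw : conj σ w ≠ w := Fermat.Agent.LT.Psi.conj_ne_of_mem_locPow (hU2 w hwU) hα hσα hav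
  exact (hsplit w hw).mp (hzero w hwU)

include h2 hσ hα hσα in
theorem exists_b_aux {S : Finset (HeightOneSpectrum (𝓞 K))} {n : ℕ}
    {η : HeightOneSpectrum (𝓞 K) → ZMod 2} (hη : IsRay S n η) (φ : K →+* ℝ) (hφ : φ a < 0) :
    ∃ (b : Kˣ) (T : Finset (HeightOneSpectrum (𝓞 K))),
      ∀ v, v ∉ T → a ∈ locPow 2 v → (η v = 0 ↔ b ∈ locPow 2 v) := by
  classical
  have hα0 : α ≠ 0 := by
    rintro rfl
    rw [zero_pow two_ne_zero] at hα
    exact (map_ne_zero (algebraMap K L)).mpr a.ne_zero hα.symm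
  obtain ⟨n', hn'⟩ := hη.pull (L := L)
  obtain ⟨β, T', hST', hT'2, hβE, hβ⟩ :=
    Fermat.Agent.LT.Quad.exists_kummer (p := 2) Fermat.Agent.LT.Quad.neg_one_root hn'
  have hT2 : ∀ w : HeightOneSpectrum (𝓞 L), w ∉ T' → (2 : 𝓞 L) ∉ w.asIdeal :=
    fun w hw h' => hw (hT'2 w (by exact_mod_cast h'))
  -- it is enough to have `β ∈ up b * Lˣ²`
  suffices hb : ∃ (b : Kˣ) (e : Lˣ), β = up L b * e ^ 2 by
    obtain ⟨b, e, hbe⟩ := hb
    refine ⟨b, T'.image fun w => w.under (𝓞 K), fun v hv hav => ?_⟩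
    obtain ⟨w, rfl⟩ := exists_below_eq L v
    have hw : w ∉ T' := fun h' => hv (Finset.mem_image_of_mem _ h')
    have hw' : conj σ w ≠ w := Fermat.Agent.LT.Psi.conj_ne_of_mem_locPow (hT2 w hw) hα hσα hav
    rw [← pull_of_conj_ne h2 hσ η hw', hβ w hw, ← up_mem_locPow_iff h2 hσ hw', hbe]
    have h3 := pow_mem_locPow 2 w e
    constructor
    · intro h4
      have := mul_mem h4 (inv_mem h3)
      rwa [mul_inv_cancel_right] at this
    · exact fun h4 => mul_mem h4 h3
  -- the norm of `β` is a square in `L`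
  obtain ⟨c, hc⟩ : ∃ c : Lˣ, c ^ 2 = β * galU σ β := by
    by_contra hcon
    push Not at hcon
    obtain ⟨w, hw, hβw⟩ := exists_notMem_locPow (p := 2) inputs Fermat.Agent.LT.Quad.neg_one_root
      (T' ∪ T'.image (conj σ)) hcon
    rw [Finset.mem_union, not_or] at hw
    have hw1 : conj σ w ∉ T' := by
      intro h'
      apply hw.2
      have := Finset.mem_image_of_mem (conj σ) h'
      rwa [conj_conj h2 hσ] at this
    have h3 : galU σ β ∈ locPow 2 w ↔ β ∈ locPow 2 w := by
      have h4 := mem_locPow_conj 2 σ (conj σ w) β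
      rw [conj_conj h2 hσ] at h4
      rw [h4, ← hβ _ hw1, ← hβ _ hw.1, pull_conj]
    apply hβw
    by_cases h4 : β ∈ locPow 2 w
    · exact mul_mem h4 (h3.mpr h4)
    · refine mul_mem_locPow (hT2 w hw.1) (mem_E.mp hβE _ hw.1) ?_ h4 (fun h' => h4 (h3.mp h'))
      rw [ord_galU h2 hσ]
      exact mem_E.mp hβE _ hw1
  have hσσ : ∀ z : L, σ (σ z) = z := Unr.apply_apply h2 hσ
  have hcc : (c : L) ^ 2 = (β : L) * σ β := by
    have := congrArg Units.val hc
    simpa using this
  have hσc2 : σ (c : L) ^ 2 = (c : L) ^ 2 := by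
    rw [← map_pow, hcc, map_mul, hσσ, mul_comm]
  have h2L : (2 : L) ≠ 0 := two_ne_zero
  rcases sq_eq_sq_iff_eq_or_eq_neg.mp hσc2 with hσc | hσc
  · -- Hilbert 90
    obtain ⟨c₀, hc₀⟩ := Unr.mem_range_of_fixed h2 hσ hσc
    have hc₀0 : c₀ ≠ 0 := by
      rintro rfl
      rw [map_zero] at hc₀
      exact c.ne_zero hc₀.symm
    set c₁ : Kˣ := Units.mk0 c₀ hc₀0 with hc₁
    have hupc : up L c₁ = c := by
      ext
      simp [hc₁, hc₀]
    by_cases he : (β : L) + c = 0
    · refine ⟨-c₁, 1, ?_⟩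
      ext
      rw [one_pow, mul_one, coe_up, Units.val_neg, map_neg, ← coe_up, hupc]
      exact eq_neg_of_add_eq_zero_left he
    · set e : Lˣ := Units.mk0 _ he with hedef
      have hee : (e : L) = β + c := rfl
      have h3 : β * galU σ e = c * e := by
        ext
        rw [Units.val_mul, Units.val_mul, coe_galU, hee, map_add, hσc, mul_add, ← hcc]
        ring
      have h4 : β * up L (normU (K := K) L e) = c * e ^ 2 := by
        rw [up_normU h2 hσ, mul_left_comm, h3, mul_left_comm, ← sq]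
      refine ⟨c₁ * normU L e, e / up L (normU (K := K) L e), ?_⟩
      rw [map_mul, hupc, div_pow, ← mul_div_assoc, mul_right_comm, ← h4, sq,
        mul_assoc, mul_div_assoc, div_self', mul_one]
  · -- the sign
    exfalso
    obtain ⟨t, ht⟩ := Unr.mem_range_of_fixed h2 hσ (x := (c : L) / α) (by
      rw [map_div₀, hσc, hσα, neg_div_neg_eq])
    obtain ⟨x, hx⟩ := Unr.mem_range_of_fixed h2 hσ (x := (β : L) + σ β) (by
      rw [map_add, hσσ, add_comm])
    obtain ⟨y, hy⟩ := Unr.mem_range_of_fixed h2 hσ (x := ((β : L) - σ β) / α) (by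
      rw [map_div₀, map_sub, hσσ, hσα, div_neg, ← neg_div, neg_sub])
    have ht0 : t ≠ 0 := by
      rintro rfl
      rw [map_zero] at ht
      exact div_ne_zero c.ne_zero hα0 ht.symm
    have h3 : 4 * (a : K) * t ^ 2 = x ^ 2 - a * y ^ 2 := by
      apply (algebraMap K L).injective
      rw [map_mul, map_mul, map_pow, map_sub, map_mul, map_pow, map_pow, ht, hx, hy, ← hα,
        div_pow, div_pow, hcc]
      field_simp
      rw [map_ofNat]
      ring
    have h4 := congrArg φ h3
    rw [map_mul, map_mul, map_pow, map_sub, map_mul, map_pow, map_pow, map_ofNat] at h4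
    have h5 : 0 < φ t ^ 2 := by
      have : φ t ≠ 0 := (map_ne_zero φ).mpr ht0
      positivity
    nlinarith [sq_nonneg (φ x), sq_nonneg (φ y), mul_neg_of_neg_of_pos hφ h5,
      mul_nonneg (neg_nonneg.mpr hφ.le) (sq_nonneg (φ y))]

end Abs

/-! ### The extension `K(√a)` -/

section Main

variable {K : Type} [Field K] [NumberField K]

/-- `K(√a)` is totally complex if `a` is negative at all real places of `K`. -/
theorem isTotallyComplex_rad {a : Kˣ} [Fact (Irreducible (X ^ 2 - C (a : K)))]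
    (hneg : ∀ φ : K →+* ℝ, φ a < 0) : IsTotallyComplex (Rad 2 a) where
  isComplex w := by
    rw [← InfinitePlace.not_isReal_iff_isComplex]
    intro hw
    set ψ : Rad 2 a →+* ℝ := InfinitePlace.embedding_of_isReal hw
    have h1 := hneg (ψ.comp (algebraMap K (Rad 2 a)))
    have e : algebraMap K (Rad 2 a) (a : K) = AdjoinRoot.root (X ^ 2 - C (a : K)) ^ 2 :=
      (root_X_pow_sub_C_pow 2 (a : K)).symm
    rw [RingHom.comp_apply, e, map_pow] at h1
    exact absurd h1 (not_lt.mpr (sq_nonneg _))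

/-- the quadratic extension `K(√a)` with its data -/
theorem exists_quad {a : Kˣ} (ha : ∀ c : Kˣ, c ^ 2 ≠ a) (hneg : ∀ φ : K →+* ℝ, φ a < 0) :
    ∃ (L : Type) (_ : Field L) (_ : NumberField L) (_ : Algebra K L) (_ : IsGalois K L)
      (_ : IsTotallyComplex L) (σ : L ≃ₐ[K] L) (α : L), Module.finrank K L = 2 ∧ σ ≠ 1 ∧
      α ^ 2 = algebraMap K L a ∧ σ α = -α := by
  have hp := Nat.prime_two
  have hζ : IsPrimitiveRoot (-1 : K) 2 := IsPrimitiveRoot.neg_one 0 (by norm_num)
  have hirr : Fact (Irreducible (X ^ 2 - C (a : K))) := ⟨irreducible_of_not_pow hp ha⟩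
  have hnf : NumberField (Rad 2 a) := numberField_rad hp
  have hna' : ∀ c : K, c ^ 2 ≠ (a : K) := by
    intro c hc
    have hc0 : c ≠ 0 := by
      rintro rfl
      rw [zero_pow two_ne_zero] at hc
      exact a.ne_zero hc.symm
    exact ha (Units.mk0 c hc0) (Units.ext (by simpa using hc))
  obtain ⟨hgal, σ, hσα, -, hσ2⟩ := Fermat.Agent.CFT.KummerExt.exists_gen hp hζ hna'
    (root_X_pow_sub_C_pow 2 (a : K)) (adjoin_root_rad 2 a)
  have hfr : Module.finrank K (Rad 2 a) = 2 := Fermat.Agent.CFT.KummerExt.finrank_eq hp hna'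
    (root_X_pow_sub_C_pow 2 (a : K)) (adjoin_root_rad 2 a)
  have hσ : σ ≠ 1 := by
    rintro rfl
    rw [orderOf_one] at hσ2
    exact absurd hσ2 (by norm_num)
  rw [map_neg, map_one, neg_one_mul] at hσα
  exact ⟨Rad 2 a, inferInstance, hnf, inferInstance, hgal, isTotallyComplex_rad hneg, σ, _, hfr,
    hσ, root_X_pow_sub_C_pow 2 (a : K), hσα⟩

/-- **Existence on the split places**: every quadratic ray character of `K` is a Kummer character
on the places which split in `K(√a)`, `a` totally negative. -/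
theorem exists_b {S : Finset (HeightOneSpectrum (𝓞 K))} {n : ℕ}
    {η : HeightOneSpectrum (𝓞 K) → ZMod 2} (hη : IsRay S n η) {a : Kˣ}
    (ha : ∀ c : Kˣ, c ^ 2 ≠ a) (hneg : ∀ φ : K →+* ℝ, φ a < 0) :
    ∃ (b : Kˣ) (T : Finset (HeightOneSpectrum (𝓞 K))),
      ∀ v, v ∉ T → a ∈ locPow 2 v → (η v = 0 ↔ b ∈ locPow 2 v) := by
  by_cases hK : ∃ w : InfinitePlace K, w.IsReal
  · obtain ⟨w, hw⟩ := hK
    obtain ⟨L, _, _, _, _, _, σ, α, h2, hσ, hα, hσα⟩ := exists_quad ha hneg
    exact exists_b_aux h2 hσ hα hσα hη (InfinitePlace.embedding_of_isReal hw) (hneg _)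
  · push Not at hK
    have : IsTotallyComplex K := ⟨fun w => InfinitePlace.not_isReal_iff_isComplex.mp (hK w)⟩
    obtain ⟨b, T, -, -, -, hb⟩ :=
      Fermat.Agent.LT.Quad.exists_kummer (p := 2) Fermat.Agent.LT.Quad.neg_one_root hη
    exact ⟨b, T, fun v hv _ => hb v hv⟩

/-- **Exactness**: if `η` agrees with the Kummer character of `x` at almost all places which split
in `K(√a)`, it does so at all such places at which both are defined. -/
theorem upgrade {S : Finset (HeightOneSpectrum (𝓞 K))} {n : ℕ}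
    {η : HeightOneSpectrum (𝓞 K) → ZMod 2} (hη : IsRay S n η) {a : Kˣ}
    (ha : ∀ c : Kˣ, c ^ 2 ≠ a) (hneg : ∀ φ : K →+* ℝ, φ a < 0) {x : Kˣ}
    {T : Finset (HeightOneSpectrum (𝓞 K))}
    (h : ∀ v, v ∉ T → a ∈ locPow 2 v → (η v = 0 ↔ x ∈ locPow 2 v))
    {U : Finset (HeightOneSpectrum (𝓞 K))} (hSU : S ⊆ U) (hU : AboveP 2 U) (hx : x ∈ E U)
    {v : HeightOneSpectrum (𝓞 K)} (hv : v ∉ U) (hav : a ∈ locPow 2 v) :
    η v = 0 ↔ x ∈ locPow 2 v := by
  obtain ⟨L, _, _, _, _, _, σ, α, h2, hσ, hα, hσα⟩ := exists_quad ha hneg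
  exact upgrade_aux h2 hσ hα hσα hη h hSU hU hx hv hav

/-- `-ℓ` is totally negative. -/
lemma neg_of_eq_neg {d : Kˣ} {ℓ : ℕ} (hℓ : ℓ ≠ 0) (hd : (d : K) = -(ℓ : K)) (φ : K →+* ℝ) :
    φ d < 0 := by
  rw [hd, map_neg, map_natCast, neg_lt_zero]
  exact_mod_cast Nat.pos_of_ne_zero hℓ

end Main

end Fermat.Agent.Cor.Diff
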