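import Fermat.Agent.Corollaries.Diff.EulerQ

/-!
# The value of a quadratic character on the class of the different, from `ζ_L = ζ_K L(s, χ)`
-/

set_option autoImplicit false

noncomputable section

namespace Fermat.Agent.Cor.Diff

open NumberField IsDedekindDomain Filter Topology Fermat.Agent.Classic.Zeta
open Fermat.Agent.CFT.Global (above mem_above)
open scoped nonZeroDivisors

variable {K L : Type*} [Field K] [NumberField K] [Field L] [NumberField L] [Algebra K L]

theorem differentiable_facK (χ : ClassGroup (𝓞 K) →* ℂˣ) (v : HeightOneSpectrum (𝓞 K)) :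
    Differentiable ℂ (facK χ v) :=
  ((differentiable_const _).sub (differentiable_nv v)).mul
    ((differentiable_const _).sub ((differentiable_nv v).const_mul _))

theorem differentiable_facL (v : HeightOneSpectrum (𝓞 K)) : Differentiable ℂ (facL L v) := by
  have h : Differentiable ℂ fun s => ∏ w ∈ above L {v}, (1 - nv w s) :=
    Differentiable.fun_finsetProd fun w _ => (differentiable_const _).sub (differentiable_nv w)
  exact h

theorem differentiable_prod_facK (χ : ClassGroup (𝓞 K) →* ℂˣ)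
    (T : Finset (HeightOneSpectrum (𝓞 K))) : Differentiable ℂ fun s => ∏ v ∈ T, facK χ v s :=
  Differentiable.fun_finsetProd fun v _ => differentiable_facK χ v

theorem differentiable_prod_facL (T : Finset (HeightOneSpectrum (𝓞 K))) :
    Differentiable ℂ fun s => ∏ v ∈ T, facL L v s :=
  Differentiable.fun_finsetProd fun v _ => differentiable_facL v

theorem facK_half_ne_zero (χ : ClassGroup (𝓞 K) →* ℂˣ) (v : HeightOneSpectrum (𝓞 K)) :
    facK χ v (1 / 2) ≠ 0 := by
  refine mul_ne_zero ?_ (one_sub_mul_nv_ne_zero v (norm_chi χ _).le)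
  have h := one_sub_mul_nv_ne_zero v (c := 1) (by rw [norm_one])
  rwa [one_mul] at h

theorem facL_half_ne_zero (v : HeightOneSpectrum (𝓞 K)) : facL L v (1 / 2) ≠ 0 := by
  rw [facL, Finset.prod_ne_zero_iff]
  intro w _
  have h := one_sub_mul_nv_ne_zero w (c := 1) (by rw [norm_one])
  rwa [one_mul] at h

/-- the completed function of a character is not identically zero -/
theorem XiF_two_ne_zero (χ : ClassGroup (𝓞 K) →* ℂˣ) :
    XiF (fun C => ((χ C : ℂˣ) : ℂ)) 2 ≠ 0 := by
  have h2 : 1 < (2 : ℂ).re := by norm_num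
  have h := XiF_eq_LF (fun C => ((χ C : ℂˣ) : ℂ)) (s := 2) two_ne_zero (by norm_num)
    (gam_ne_zero_base (by norm_num))
  rw [h]
  refine mul_ne_zero (by norm_num) (mul_ne_zero (mul_ne_zero (absDisc_cpow_ne_zero _)
    (gam_ne_zero_base (by norm_num))) ?_)
  exact LK_ne_zero_of_one_lt_re χ h2

theorem XiF_one_two_ne_zero : XiF (K := K) (fun _ => 1) 2 ≠ 0 := by
  have h := XiF_two_ne_zero (1 : ClassGroup (𝓞 K) →* ℂˣ)
  simpa only [MonoidHom.one_apply, Units.val_one] using h

/-- **The sign.**  If `ζ_L = ζ_K L(s, χ)` up to finitely many Euler factors, `χ` quadratic, then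
`χ(𝔡) = 1`. -/
theorem chi_diffClass (χ : ClassGroup (𝓞 K) →* ℂˣ) (hχ : ∀ C, χ C = 1 ∨ χ C = -1)
    (T : Finset (HeightOneSpectrum (𝓞 K)))
    (hdec : ∀ v, v ∉ T → ∀ s, facL L v s = facK χ v s) : χ (diffClass K) = 1 := by
  rcases hχ (diffClass K) with h1 | h1
  · exact h1
  exfalso
  set dK : ℂ → ℂ := fun s => ((|(discr K : ℝ)| : ℝ) : ℂ) ^ (s / 2) with hdK
  set dL : ℂ → ℂ := fun s => ((|(discr L : ℝ)| : ℝ) : ℂ) ^ (s / 2) with hdL
  have hdK' : Differentiable ℂ dK := (differentiable_ofReal_cpow (disc_pos K)).comp (by fun_prop)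
  have hdL' : Differentiable ℂ dL := (differentiable_ofReal_cpow (disc_pos L)).comp (by fun_prop)
  have hhalf : 0 < (1 / 2 : ℂ).re := by norm_num
  let a : ℂ → ℂ := fun s => s * (1 - s) * (dK s ^ 2 * gi L s) * ∏ v ∈ T, facL L v s
  let b : ℂ → ℂ := fun s => dL s * gi K s ^ 2 * ∏ v ∈ T, facK χ v s
  have ha : Differentiable ℂ a :=
    ((differentiable_id.mul ((differentiable_const _).sub differentiable_id)).mul
      ((hdK'.pow 2).mul differentiable_gi)).mul (differentiable_prod_facL T)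
  have hb : Differentiable ℂ b :=
    (hdL'.mul (differentiable_gi.pow 2)).mul (differentiable_prod_facK χ T)
  have ha0 : a (1 / 2) ≠ 0 := by
    refine mul_ne_zero (mul_ne_zero (by norm_num) (mul_ne_zero
      (pow_ne_zero 2 (absDisc_cpow_ne_zero _)) (inv_ne_zero (gam_ne_zero_base hhalf)))) ?_
    rw [Finset.prod_ne_zero_iff]
    exact fun v _ => facL_half_ne_zero v
  have hb0 : b (1 / 2) ≠ 0 := by
    refine mul_ne_zero (mul_ne_zero (absDisc_cpow_ne_zero _)
      (pow_ne_zero 2 (inv_ne_zero (gam_ne_zero_base hhalf)))) ?_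
    rw [Finset.prod_ne_zero_iff]
    exact fun v _ => facK_half_ne_zero χ v
  have hF : Differentiable ℂ (XiF (K := L) fun _ => 1) := differentiable_XiF _
  have hG : Differentiable ℂ (XiF (K := K) fun _ => 1) := differentiable_XiF _
  have hH : Differentiable ℂ (XiF fun C => ((χ C : ℂˣ) : ℂ)) := differentiable_XiF _
  have hH1 : ∀ s, XiF (fun C => ((χ C : ℂˣ) : ℂ)) (1 - s) = -XiF (fun C => ((χ C : ℂˣ) : ℂ)) s := by
    intro s
    rw [XiF_one_sub]
    have e : (fun C => ((χ (diffClass K * C⁻¹) : ℂˣ) : ℂ)) = fun C => -((χ C : ℂˣ) : ℂ) := by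
      funext C
      rw [map_mul, map_inv, h1]
      rcases hχ C with h2 | h2 <;> rw [h2] <;> simp
    rw [e]
    simp only [XiF, neg_mul, Finset.sum_neg_distrib]
  have he : ∀ s : ℂ, 1 < s.re → XiF (K := L) (fun _ => 1) s * a s =
      XiF (K := K) (fun _ => 1) s * XiF (fun C => ((χ C : ℂˣ) : ℂ)) s * b s := by
    intro s hs
    have hs0 : 0 < s.re := zero_lt_one.trans hs
    have h0 := ne_zero_of_re hs
    have h1 := ne_one_of_re hs
    have hgK : gam K s ≠ 0 := gam_ne_zero_base hs0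
    have hgL : gam L s ≠ 0 := gam_ne_zero_base hs0
    have hid := zeta_identity χ T hdec hs
    rw [XiF_eq_LF (K := L) (fun _ => 1) h0 h1 hgL, XiF_eq_LF (K := K) (fun _ => 1) h0 h1 hgK,
      XiF_eq_LF (K := K) (fun C => ((χ C : ℂˣ) : ℂ)) h0 h1 hgK]
    change s * (1 - s) * (dL s * gam L s * zetaK L s) *
        (s * (1 - s) * (dK s ^ 2 * (gam L s)⁻¹) * ∏ v ∈ T, facL L v s) =
      s * (1 - s) * (dK s * gam K s * zetaK K s) * (s * (1 - s) * (dK s * gam K s * LK χ s)) *
        (dL s * ((gam K s)⁻¹) ^ 2 * ∏ v ∈ T, facK χ v s)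
    have e1 : gam L s * (gam L s)⁻¹ = 1 := mul_inv_cancel₀ hgL
    have e2 : gam K s * (gam K s)⁻¹ = 1 := mul_inv_cancel₀ hgK
    calc _ = (gam L s * (gam L s)⁻¹) * (s ^ 2 * (1 - s) ^ 2 * dL s * dK s ^ 2 *
          (zetaK L s * ∏ v ∈ T, facL L v s)) := by ring
      _ = (gam K s * (gam K s)⁻¹) ^ 2 * (s ^ 2 * (1 - s) ^ 2 * dL s * dK s ^ 2 *
          (zetaK K s * LK χ s * ∏ v ∈ T, facK χ v s)) := by rw [e1, e2, hid]; ring
      _ = _ := by ring
  have hev : (fun s => XiF (K := L) (fun _ => 1) s * a s) =ᶠ[nhds (2 : ℂ)]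
      fun s => XiF (K := K) (fun _ => 1) s * XiF (fun C => ((χ C : ℂˣ) : ℂ)) s * b s := by
    have hU : {s : ℂ | 1 < s.re} ∈ nhds (2 : ℂ) :=
      (isOpen_lt continuous_const Complex.continuous_re).mem_nhds (by norm_num)
    filter_upwards [hU] with s hs
    exact he s hs
  have hall := AnalyticOnNhd.eq_of_eventuallyEq (𝕜 := ℂ) (z₀ := 2)
    ((hF.mul ha).differentiableOn.analyticOnNhd isOpen_univ)
    (((hG.mul hH).mul hb).differentiableOn.analyticOnNhd isOpen_univ) hev
  exact false_of_parity hF hG hH ha hb ha0 hb0 XiF_one_two_ne_zero XiF_one_two_ne_zero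
    (XiF_two_ne_zero χ) (fun s => by rw [XiF_one_sub]) (fun s => by rw [XiF_one_sub]) hH1
    (fun s => congrFun hall s)

end Fermat.Agent.Cor.Diff

end
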