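import Fermat.Agent.Corollaries.Diff.Split
import Fermat.Agent.Corollaries.ZetaK.HeckeZ

/-!
# The infinite places of the quadratic extension attached to a class group character

`L / K` quadratic with `ζ_L = ζ_K L(s, χ)` up to finitely many Euler factors, `χ` a character of the
class group of `K`.  Comparing the orders of the gamma factors at `s = -1` gives
`r₂(L) = 2 r₂(K)` (`nrComplexPlaces_eq`), hence `L / K` is unramified at the infinite places
(`isUnramifiedAtInfinitePlaces`).
-/

set_option autoImplicit false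

noncomputable section

namespace Fermat.Agent.Cor.Diff

open NumberField NumberField.InfinitePlace IsDedekindDomain Filter Topology
  Fermat.Agent.Classic.Zeta
open Fermat.Agent.CFT.Global (above mem_above)
open scoped nonZeroDivisors

variable {K L : Type*} [Field K] [NumberField K] [Field L] [NumberField L] [Algebra K L]

variable (K L) in
/-- the factor on the side of `L` -/
def facA (T : Finset (HeightOneSpectrum (𝓞 K))) (s : ℂ) : ℂ :=
  s * (1 - s) * ((((|(discr K : ℝ)| : ℝ) : ℂ) ^ (s / 2)) ^ 2 * gi L s) * ∏ v ∈ T, facL L v s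

variable (L) in
/-- the factor on the side of `K` -/
def facB (χ : ClassGroup (𝓞 K) →* ℂˣ) (T : Finset (HeightOneSpectrum (𝓞 K))) (s : ℂ) : ℂ :=
  ((|(discr L : ℝ)| : ℝ) : ℂ) ^ (s / 2) * gi K s ^ 2 * ∏ v ∈ T, facK χ v s

theorem differentiable_disc_cpow' (K : Type*) [Field K] [NumberField K] :
    Differentiable ℂ fun s : ℂ => ((|(discr K : ℝ)| : ℝ) : ℂ) ^ (s / 2) :=
  (differentiable_ofReal_cpow (disc_pos K)).comp (by fun_prop)

theorem differentiable_facA (T : Finset (HeightOneSpectrum (𝓞 K))) :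
    Differentiable ℂ (facA K L T) :=
  ((differentiable_id.mul ((differentiable_const _).sub differentiable_id)).mul
    (((differentiable_disc_cpow' K).pow 2).mul differentiable_gi)).mul (differentiable_prod_facL T)

omit [Algebra K L] in
theorem differentiable_facB (χ : ClassGroup (𝓞 K) →* ℂˣ)
    (T : Finset (HeightOneSpectrum (𝓞 K))) : Differentiable ℂ (facB L χ T) :=
  ((differentiable_disc_cpow' L).mul (differentiable_gi.pow 2)).mul (differentiable_prod_facK χ T)

/-- **The identity between the completed functions**, on the whole plane. -/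
theorem xi_identity (χ : ClassGroup (𝓞 K) →* ℂˣ) (T : Finset (HeightOneSpectrum (𝓞 K)))
    (hdec : ∀ v, v ∉ T → ∀ s, facL L v s = facK χ v s) (s : ℂ) :
    XiF (K := L) (fun _ => 1) s * facA K L T s =
      XiF (K := K) (fun _ => 1) s * XiF (fun C => ((χ C : ℂˣ) : ℂ)) s * facB L χ T s := by
  have hF : Differentiable ℂ (XiF (K := L) fun _ => 1) := differentiable_XiF _
  have hG : Differentiable ℂ (XiF (K := K) fun _ => 1) := differentiable_XiF _
  have hH : Differentiable ℂ (XiF fun C => ((χ C : ℂˣ) : ℂ)) := differentiable_XiF _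
  have he : ∀ s : ℂ, 1 < s.re → XiF (K := L) (fun _ => 1) s * facA K L T s =
      XiF (K := K) (fun _ => 1) s * XiF (fun C => ((χ C : ℂˣ) : ℂ)) s * facB L χ T s := by
    intro s hs
    have hs0 : 0 < s.re := zero_lt_one.trans hs
    have h0 := ne_zero_of_re hs
    have h1 := ne_one_of_re hs
    have hgK : gam K s ≠ 0 := gam_ne_zero_base hs0
    have hgL : gam L s ≠ 0 := gam_ne_zero_base hs0
    have hid := zeta_identity χ T hdec hs
    rw [XiF_eq_LF (K := L) (fun _ => 1) h0 h1 hgL, XiF_eq_LF (K := K) (fun _ => 1) h0 h1 hgK,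
      XiF_eq_LF (K := K) (fun C => ((χ C : ℂˣ) : ℂ)) h0 h1 hgK, facA, facB, gi, gi]
    set dK : ℂ := ((|(discr K : ℝ)| : ℝ) : ℂ) ^ (s / 2)
    set dL : ℂ := ((|(discr L : ℝ)| : ℝ) : ℂ) ^ (s / 2)
    change s * (1 - s) * (dL * gam L s * zetaK L s) *
        (s * (1 - s) * (dK ^ 2 * (gam L s)⁻¹) * ∏ v ∈ T, facL L v s) =
      s * (1 - s) * (dK * gam K s * zetaK K s) * (s * (1 - s) * (dK * gam K s * LK χ s)) *
        (dL * ((gam K s)⁻¹) ^ 2 * ∏ v ∈ T, facK χ v s)
    have e1 : gam L s * (gam L s)⁻¹ = 1 := mul_inv_cancel₀ hgL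
    have e2 : gam K s * (gam K s)⁻¹ = 1 := mul_inv_cancel₀ hgK
    calc _ = (gam L s * (gam L s)⁻¹) * (s ^ 2 * (1 - s) ^ 2 * dL * dK ^ 2 *
          (zetaK L s * ∏ v ∈ T, facL L v s)) := by ring
      _ = (gam K s * (gam K s)⁻¹) ^ 2 * (s ^ 2 * (1 - s) ^ 2 * dL * dK ^ 2 *
          (zetaK K s * LK χ s * ∏ v ∈ T, facK χ v s)) := by rw [e1, e2, hid]; ring
      _ = _ := by ring
  have hev : (fun s => XiF (K := L) (fun _ => 1) s * facA K L T s) =ᶠ[nhds (2 : ℂ)]
      fun s => XiF (K := K) (fun _ => 1) s * XiF (fun C => ((χ C : ℂˣ) : ℂ)) s * facB L χ T s := by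
    have hU : {s : ℂ | 1 < s.re} ∈ nhds (2 : ℂ) :=
      (isOpen_lt continuous_const Complex.continuous_re).mem_nhds (by norm_num)
    filter_upwards [hU] with s hs
    exact he s hs
  have hall := AnalyticOnNhd.eq_of_eventuallyEq (𝕜 := ℂ) (z₀ := 2)
    ((hF.mul (differentiable_facA T)).differentiableOn.analyticOnNhd isOpen_univ)
    (((hG.mul hH).mul (differentiable_facB χ T)).differentiableOn.analyticOnNhd isOpen_univ) hev
  exact congrFun hall s

/-! ### The point `s = -1` -/

theorem nv_neg_one (v : HeightOneSpectrum (𝓞 K)) : nv v (-1) = (Ideal.absNorm v.asIdeal : ℂ) := by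
  rw [nv, neg_neg, Complex.cpow_one]

theorem one_sub_mul_nv_neg_one_ne_zero (v : HeightOneSpectrum (𝓞 K)) {c : ℂ} (hc : ‖c‖ = 1) :
    1 - c * nv v (-1) ≠ 0 := by
  intro h
  have h1 : ‖c * nv v (-1)‖ = 1 := by rw [← sub_eq_zero.mp h, norm_one]
  rw [norm_mul, hc, one_mul, nv_neg_one, Complex.norm_natCast] at h1
  have h2 := two_le_absNorm' v
  have h3 : Ideal.absNorm v.asIdeal = 1 := by exact_mod_cast h1
  omega

theorem facK_neg_one_ne_zero (χ : ClassGroup (𝓞 K) →* ℂˣ) (v : HeightOneSpectrum (𝓞 K)) :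
    facK χ v (-1) ≠ 0 := by
  refine mul_ne_zero ?_ (one_sub_mul_nv_neg_one_ne_zero v (norm_chi χ _))
  have h := one_sub_mul_nv_neg_one_ne_zero v (c := 1) norm_one
  rwa [one_mul] at h

theorem facL_neg_one_ne_zero (v : HeightOneSpectrum (𝓞 K)) : facL L v (-1) ≠ 0 := by
  rw [facL, Finset.prod_ne_zero_iff]
  intro w _
  have h := one_sub_mul_nv_neg_one_ne_zero w (c := 1) norm_one
  rwa [one_mul] at h

theorem order_gi_neg_one (K : Type*) [Field K] [NumberField K] :
    analyticOrderAt (gi K) (-1) = (nrComplexPlaces K : ℕ∞) := by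
  rw [order_gi, if_neg, if_pos, zero_add]
  · exact ⟨1, by norm_num⟩
  · rintro ⟨k, hk⟩
    have h1 : (1 : ℂ) = ((2 * k : ℕ) : ℂ) := by
      push_cast
      linear_combination -hk
    have h2 : 1 = 2 * k := by exact_mod_cast h1
    omega

theorem XiF_neg_one_ne_zero (χ : ClassGroup (𝓞 K) →* ℂˣ) :
    XiF (fun C => ((χ C : ℂˣ) : ℂ)) (-1) ≠ 0 := by
  have h1 : (-1 : ℂ) = 1 - 2 := by norm_num
  rw [h1, XiF_one_sub]
  have h2 : (fun C => ((χ (diffClass K * C⁻¹) : ℂˣ) : ℂ)) =
      fun C => ((χ (diffClass K) : ℂˣ) : ℂ) * ((χ⁻¹ C : ℂˣ) : ℂ) := by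
    funext C
    rw [map_mul, map_inv, Units.val_mul, MonoidHom.inv_apply]
  have h3 : XiF (fun C => ((χ (diffClass K) : ℂˣ) : ℂ) * ((χ⁻¹ C : ℂˣ) : ℂ)) 2 =
      ((χ (diffClass K) : ℂˣ) : ℂ) * XiF (fun C => ((χ⁻¹ C : ℂˣ) : ℂ)) 2 := by
    simp only [XiF, mul_assoc, Finset.mul_sum]
  rw [h2, h3]
  exact mul_ne_zero (Units.ne_zero _) (XiF_two_ne_zero χ⁻¹)

/-- **`r₂(L) = 2 r₂(K)`.** -/
theorem nrComplexPlaces_eq (χ : ClassGroup (𝓞 K) →* ℂˣ) (T : Finset (HeightOneSpectrum (𝓞 K)))
    (hdec : ∀ v, v ∉ T → ∀ s, facL L v s = facK χ v s) :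
    nrComplexPlaces L = 2 * nrComplexPlaces K := by
  have hF : Differentiable ℂ (XiF (K := L) fun _ => 1) := differentiable_XiF _
  have hG : Differentiable ℂ (XiF (K := K) fun _ => 1) := differentiable_XiF _
  have hH : Differentiable ℂ (XiF fun C => ((χ C : ℂˣ) : ℂ)) := differentiable_XiF _
  have hfun : (XiF (K := L) fun _ => 1) * facA K L T =
      (XiF (K := K) fun _ => 1) * (XiF fun C => ((χ C : ℂˣ) : ℂ)) * facB L χ T :=
    funext fun s => xi_identity χ T hdec s
  have hF0 : XiF (K := L) (fun _ => 1) (-1) ≠ 0 := by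
    have h := XiF_neg_one_ne_zero (1 : ClassGroup (𝓞 L) →* ℂˣ)
    simpa only [MonoidHom.one_apply, Units.val_one] using h
  have hG0 : XiF (K := K) (fun _ => 1) (-1) ≠ 0 := by
    have h := XiF_neg_one_ne_zero (1 : ClassGroup (𝓞 K) →* ℂˣ)
    simpa only [MonoidHom.one_apply, Units.val_one] using h
  have hH0 := XiF_neg_one_ne_zero χ
  -- the orders of the factors
  have hA : analyticOrderAt (facA K L T) (-1) = (nrComplexPlaces L : ℕ∞) := by
    let p : ℂ → ℂ := fun s => s * (1 - s) * (((|(discr K : ℝ)| : ℝ) : ℂ) ^ (s / 2)) ^ 2 *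
      ∏ v ∈ T, facL L v s
    have hp : Differentiable ℂ p :=
      ((differentiable_id.mul ((differentiable_const _).sub differentiable_id)).mul
        ((differentiable_disc_cpow' K).pow 2)).mul (differentiable_prod_facL T)
    have hp0 : p (-1) ≠ 0 := by
      refine mul_ne_zero (mul_ne_zero (by norm_num) (pow_ne_zero 2 (absDisc_cpow_ne_zero _))) ?_
      rw [Finset.prod_ne_zero_iff]
      exact fun v _ => facL_neg_one_ne_zero v
    have e : facA K L T = p * gi L := by
      funext s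
      rw [facA, Pi.mul_apply]
      ring
    rw [e, analyticOrderAt_mul (hp.analyticAt _) (differentiable_gi.analyticAt _),
      (hp.analyticAt (-1)).analyticOrderAt_eq_zero.mpr hp0, zero_add, order_gi_neg_one]
  have hB : analyticOrderAt (facB L χ T) (-1) = (2 * nrComplexPlaces K : ℕ) := by
    let q : ℂ → ℂ := fun s => ((|(discr L : ℝ)| : ℝ) : ℂ) ^ (s / 2) * ∏ v ∈ T, facK χ v s
    have hq : Differentiable ℂ q :=
      (differentiable_disc_cpow' L).mul (differentiable_prod_facK χ T)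
    have hq0 : q (-1) ≠ 0 := by
      refine mul_ne_zero (absDisc_cpow_ne_zero _) ?_
      rw [Finset.prod_ne_zero_iff]
      exact fun v _ => facK_neg_one_ne_zero χ v
    have e : facB L χ T = q * gi K ^ 2 := by
      funext s
      rw [facB, Pi.mul_apply, Pi.pow_apply]
      ring
    rw [e, analyticOrderAt_mul (hq.analyticAt _) ((differentiable_gi.pow 2).analyticAt _),
      (hq.analyticAt (-1)).analyticOrderAt_eq_zero.mpr hq0, zero_add,
      analyticOrderAt_pow (differentiable_gi.analyticAt _), order_gi_neg_one]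
    rw [nsmul_eq_mul, Nat.cast_mul]
  have h1 : analyticOrderAt ((XiF (K := L) fun _ => 1) * facA K L T) (-1) =
      (nrComplexPlaces L : ℕ∞) := by
    rw [analyticOrderAt_mul (hF.analyticAt _) ((differentiable_facA T).analyticAt _),
      (hF.analyticAt (-1)).analyticOrderAt_eq_zero.mpr hF0, zero_add, hA]
  have h2 : analyticOrderAt ((XiF (K := K) fun _ => 1) * (XiF fun C => ((χ C : ℂˣ) : ℂ)) *
      facB L χ T) (-1) = (2 * nrComplexPlaces K : ℕ) := by
    rw [analyticOrderAt_mul ((hG.analyticAt _).mul (hH.analyticAt _))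
      ((differentiable_facB χ T).analyticAt _), analyticOrderAt_mul (hG.analyticAt _)
      (hH.analyticAt _), (hG.analyticAt (-1)).analyticOrderAt_eq_zero.mpr hG0,
      (hH.analyticAt (-1)).analyticOrderAt_eq_zero.mpr hH0, zero_add, zero_add, hB]
  rw [hfun, h2] at h1
  exact (Nat.cast_inj.mp h1).symm

/-- **`L / K` is unramified at the infinite places.** -/
theorem isUnramifiedAtInfinitePlaces [IsGalois K L] (h2 : Module.finrank K L = 2)
    (χ : ClassGroup (𝓞 K) →* ℂˣ) (T : Finset (HeightOneSpectrum (𝓞 K)))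
    (hdec : ∀ v, v ∉ T → ∀ s, facL L v s = facK χ v s) : IsUnramifiedAtInfinitePlaces K L := by
  classical
  have hc := nrComplexPlaces_eq χ T hdec
  have h1 := InfinitePlace.card_add_two_mul_card_eq_rank K
  have h3 := InfinitePlace.card_add_two_mul_card_eq_rank L
  have h4 : Module.finrank ℚ K * Module.finrank K L = Module.finrank ℚ L :=
    Module.finrank_mul_finrank ℚ K L
  have hK := InfinitePlace.card_eq_nrRealPlaces_add_nrComplexPlaces K
  have hL := InfinitePlace.card_eq_nrRealPlaces_add_nrComplexPlaces L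
  have h5 := InfinitePlace.card_eq_card_isUnramifiedIn (k := K) (K := L)
  rw [h2] at h4 h5
  set A : Finset (InfinitePlace K) := {w : InfinitePlace K | w.IsUnramifiedIn L} with hA
  have h6 : A.card + Aᶜ.card = Fintype.card (InfinitePlace K) := Finset.card_add_card_compl A
  have h7 : Aᶜ.card = 0 := by
    have h8 : (2 : ℕ) / 2 = 1 := rfl
    rw [h8] at h5
    omega
  refine ⟨fun w => ?_⟩
  have h9 : w.comap (algebraMap K L) ∈ A := by
    by_contra h10
    have h11 : w.comap (algebraMap K L) ∈ Aᶜ := Finset.mem_compl.mpr h10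
    rw [Finset.card_eq_zero.mp h7] at h11
    exact absurd h11 (Finset.notMem_empty _)
  rw [hA, Finset.mem_filter_univ] at h9
  exact InfinitePlace.isUnramifiedIn_comap.mp h9

end Fermat.Agent.Cor.Diff

end
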