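import Fermat.Agent.LT.Tower.Ram
import Fermat.Agent.LT.Tower.Good
import Fermat.Agent.LT.NonVan
import Fermat.Agent.LT.NormPull
import Fermat.Agent.CFT.Global2.Second2
import Fermat.Agent.Corollaries.Diff.Sign
import Fermat.Agent.Corollaries.Diff.Kum

/-!
# The Euler factors of `K(√b)`, and Hecke's theorem for totally complex fields

`diffClass_eq_one_of_kum`: if the quadratic character `χ` of the class group of `K` is given at
almost all places by `χ(v) = 1 ↔ b ∈ (K_v)²`, then `χ` is trivial on the class of the different.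
`isSquare_diffClass_tc`: the class of the different of a totally complex number field is a square.
-/

set_option autoImplicit false

noncomputable section

namespace Fermat.Agent.Cor.Diff

open NumberField IsDedekindDomain Polynomial
open Fermat.Agent.CFT.Places (conj conj_one below_conj exists_below_eq)
open Fermat.Agent.CFT.Global (above mem_above locPow pow_mem_locPow)
open Fermat.Agent.LT.NV (fdeg edeg card_stab)
open Fermat.Agent.CFT.Global2
open scoped nonZeroDivisors

section Quad

variable {K L : Type*} [Field K] [NumberField K] [Field L] [NumberField L] [Algebra K L]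

theorem nv_eq_pow (w : HeightOneSpectrum (𝓞 L)) (s : ℂ) :
    nv w s = nv (w.under (𝓞 K)) s ^ fdeg K w := by
  have h1 := Ideal.absNorm_eq_pow_inertiaDeg'_of_liesOver (P := w.asIdeal)
    (p := (w.under (𝓞 K)).asIdeal) (w.under (𝓞 K)).isPrime (w.under (𝓞 K)).ne_bot
  have h2 : ∀ f n : ℕ, ((n ^ f : ℕ) : ℂ) ^ (-s) = ((n : ℂ) ^ (-s)) ^ f := by
    intro f n
    induction f with
    | zero => simp
    | succ f ih => rw [pow_succ, Nat.cast_mul, Complex.natCast_mul_natCast_cpow, ih, pow_succ]
  rw [nv, h1, nv, h2]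
  rfl

variable [IsGalois K L] (h2 : Module.finrank K L = 2) {σ : L ≃ₐ[K] L} (hσ : σ ≠ 1)

include h2 hσ in
theorem fdeg_of_moved {w : HeightOneSpectrum (𝓞 L)} (hw : conj σ w ≠ w) : fdeg K w = 1 := by
  have hG : Nat.card Gal(L/K) = 2 := by rw [IsGalois.card_aut_eq_finrank, h2]
  have h := card_stab (K := K) w
  have h1 : Nat.card {τ : L ≃ₐ[K] L // conj τ w = w} = 1 := by
    rw [Nat.card_eq_one_iff_unique]
    refine ⟨⟨fun a b => ?_⟩, ⟨⟨1, conj_one w⟩⟩⟩
    have key : ∀ a : {τ : L ≃ₐ[K] L // conj τ w = w}, a.1 = 1 := by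
      rintro ⟨τ, hτ⟩
      rcases Unr.eq_one_or_of_card_two hG hσ τ with rfl | rfl
      · rfl
      · exact absurd hτ hw
    exact Subtype.ext ((key a).trans (key b).symm)
  rw [h1] at h
  exact (Nat.eq_one_of_mul_eq_one_left h.symm)

include h2 hσ in
theorem fdeg_of_fixed {w : HeightOneSpectrum (𝓞 L)} (hw : conj σ w = w)
    (he : (w.under (𝓞 K)).asIdeal.ramificationIdx' w.asIdeal = 1) : fdeg K w = 2 :=
  (Unr.residue h2 hσ w hw he).1

/-- `± 1` in `ℂ` -/
def toC (χ : ClassGroup (𝓞 K) →* ℤˣ) : ClassGroup (𝓞 K) →* ℂˣ :=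
  (Units.map ((Int.castRingHom ℂ : ℤ →+* ℂ) : ℤ →* ℂ)).comp χ

omit [NumberField K] in
theorem toC_of_eq_one {χ : ClassGroup (𝓞 K) →* ℤˣ} {C : ClassGroup (𝓞 K)} (h : χ C = 1) :
    toC χ C = 1 := by
  rw [toC, MonoidHom.comp_apply, h, map_one]

omit [NumberField K] in
theorem toC_of_ne_one {χ : ClassGroup (𝓞 K) →* ℤˣ} {C : ClassGroup (𝓞 K)} (h : χ C ≠ 1) :
    toC χ C = -1 := by
  have h1 : χ C = -1 := (Int.units_eq_one_or (χ C)).resolve_left h
  rw [toC, MonoidHom.comp_apply, h1]
  ext
  simp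

omit [NumberField K] in
theorem eq_one_of_toC {χ : ClassGroup (𝓞 K) →* ℤˣ} {C : ClassGroup (𝓞 K)} (h : toC χ C = 1) :
    χ C = 1 := by
  by_contra h1
  rw [toC_of_ne_one h1] at h
  have h8 := congrArg (fun u : ℂˣ => (u : ℂ)) h
  norm_num at h8

include h2 hσ in
/-- the Euler factors of a quadratic extension -/
theorem facL_eq_facK (χ : ClassGroup (𝓞 K) →* ℤˣ) {b : Kˣ} {α : L}
    (hα : α ^ 2 = algebraMap K L b) (hσα : σ α = -α) {v : HeightOneSpectrum (𝓞 K)}
    (he : ∀ w : HeightOneSpectrum (𝓞 L), w.under (𝓞 K) = v →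
      v.asIdeal.ramificationIdx' w.asIdeal = 1)
    (hχ : χ (cls v) = 1 ↔ b ∈ locPow 2 v) (s : ℂ) : facL L v s = facK (toC χ) v s := by
  classical
  have hin := Unr.mem_locPow_iff_not_inert h2 hσ hα hσα he
  obtain ⟨w, rfl⟩ := exists_below_eq L v
  rw [Unr.inert_iff h2 hσ] at hin
  rw [facL, facK]
  by_cases hw : conj σ w = w
  · have h1 : χ (cls (w.under (𝓞 K))) ≠ 1 := by
      rw [Ne, hχ, hin, not_not]
      exact hw
    have h3 : above L {w.under (𝓞 K)} = {w} := by
      ext w'
      rw [mem_above, Finset.mem_singleton, Finset.mem_singleton]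
      constructor
      · intro h
        rcases Fermat.Agent.LT.Psi.eq_or_eq_conj h2 hσ h with h4 | h4
        · exact h4
        · rw [h4, hw]
      · rintro rfl
        rfl
    rw [h3, Finset.prod_singleton, nv_eq_pow (K := K) w, fdeg_of_fixed h2 hσ hw (he w rfl),
      toC_of_ne_one h1]
    push_cast
    ring
  · have h1 : χ (cls (w.under (𝓞 K))) = 1 := by
      rw [hχ, hin]
      exact hw
    have hw' : conj σ (conj σ w) ≠ conj σ w := by
      rw [Fermat.Agent.LT.Psi.conj_conj h2 hσ]
      exact Ne.symm hw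
    have h3 : above L {w.under (𝓞 K)} = {w, conj σ w} := by
      ext w'
      rw [mem_above, Finset.mem_singleton, Finset.mem_insert, Finset.mem_singleton]
      constructor
      · exact fun h => Fermat.Agent.LT.Psi.eq_or_eq_conj h2 hσ h
      · rintro (rfl | rfl)
        · rfl
        · exact below_conj σ w
    rw [h3, Finset.prod_pair (Ne.symm hw), nv_eq_pow (K := K) w, nv_eq_pow (K := K) (conj σ w),
      fdeg_of_moved h2 hσ hw, fdeg_of_moved h2 hσ hw', below_conj, toC_of_eq_one h1]
    push_cast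
    ring

end Quad

section Main

universe u

variable {K : Type u} [Field K] [NumberField K]

/-- If a quadratic character of the class group is a Kummer character, then it is trivial on the
class of the different. -/
theorem diffClass_eq_one_of_kum (χ : ClassGroup (𝓞 K) →* ℤˣ) {b : Kˣ}
    {T : Finset (HeightOneSpectrum (𝓞 K))}
    (h : ∀ v, v ∉ T → (χ (cls v) = 1 ↔ b ∈ locPow 2 v)) : χ (diffClass K) = 1 := by
  classical
  by_cases hb : ∃ c : Kˣ, c ^ 2 = b
  · obtain ⟨c, rfl⟩ := hb
    rw [eq_one_of_forall χ T fun v hv => (h v hv).mpr (pow_mem_locPow 2 v c)]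
    rfl
  push Not at hb
  have : Fact (Irreducible (X ^ 2 - C (b : K))) :=
    ⟨Fermat.Agent.CFT.Global.irreducible_of_not_pow Nat.prime_two hb⟩
  have : NumberField (Fermat.Agent.CFT.Global.Rad 2 b) :=
    Fermat.Agent.CFT.Global.numberField_rad Nat.prime_two
  let L := Fermat.Agent.CFT.Global.Rad 2 b
  let α : L := AdjoinRoot.root (X ^ 2 - C (b : K))
  have hα : α ^ 2 = algebraMap K L (b : K) := root_X_pow_sub_C_pow 2 (b : K)
  have hL : IntermediateField.adjoin K {α} = ⊤ := Fermat.Agent.CFT.Global.adjoin_root_rad 2 b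
  have hζ : IsPrimitiveRoot (-1 : K) 2 := IsPrimitiveRoot.neg_one 0 (by norm_num)
  have hb' : ∀ c : K, c ^ 2 ≠ (b : K) := by
    intro c hc
    have hc0 : c ≠ 0 := by
      rintro rfl
      rw [zero_pow two_ne_zero] at hc
      exact b.ne_zero hc.symm
    exact hb (Units.mk0 c hc0) (Units.ext (by rw [Units.val_pow_eq_pow_val]; exact hc))
  obtain ⟨hgal, σ, hσα, -, hord⟩ :=
    Fermat.Agent.CFT.KummerExt.exists_gen Nat.prime_two hζ hb' hα hL
  have h2 : Module.finrank K L = 2 :=
    Fermat.Agent.CFT.KummerExt.finrank_eq Nat.prime_two hb' hα hL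
  rw [map_neg, map_one, neg_one_mul] at hσα
  have hσ : σ ≠ 1 := by
    rintro rfl
    rw [orderOf_one] at hord
    exact absurd hord (by norm_num)
  obtain ⟨D, hD, hgood⟩ := Fermat.Agent.LT.Tower.Fr.exists_good L
  have hfin := Fermat.Agent.LT.Tower.finite_natCast (F := K) hD
  let T' : Finset (HeightOneSpectrum (𝓞 K)) := T ∪ hfin.toFinset
  refine eq_one_of_toC (chi_diffClass (L := L) (toC χ) (fun C => ?_) T' fun v hv s => ?_)
  · by_cases hC : χ C = 1
    · exact Or.inl (toC_of_eq_one hC)
    · exact Or.inr (toC_of_ne_one hC)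
  · rw [Finset.mem_union, not_or, Set.Finite.mem_toFinset] at hv
    refine facL_eq_facK h2 hσ χ hα hσα (fun w hw => ?_) (h v hv.1) s
    obtain ⟨p, hp, hpv⟩ := Fermat.Agent.LT.Tower.Fr.exists_prime_mem v
    have hpD : ¬ p ∣ D := fun hd => hv.2 (Fermat.Agent.LT.Tower.natCast_mem_of_dvd hd hpv)
    have hpw : (p : 𝓞 L) ∈ w.asIdeal := by
      rw [← Fermat.Agent.LT.NV.natCast_mem_under (K := K), hw]
      exact hpv
    have := Fermat.Agent.LT.Tower.Fr.Good.ramificationIdx'_eq_one (K := K) (hgood p hp hpD) hpw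
    rwa [hw] at this

end Main

section Complex

variable (K : Type) [Field K] [NumberField K]

/-- **Hecke's theorem** for totally complex fields: the ideal class of the different is a square. -/
theorem isSquare_diffClass_tc [IsTotallyComplex K] : IsSquare (diffClass K) := by
  refine isSquare_of_forall fun χ => ?_
  obtain ⟨b, T, h⟩ := exists_kum_tc χ
  exact diffClass_eq_one_of_kum χ h

end Complex

end Fermat.Agent.Cor.Diff

end
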