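import Fermat.Agent.Corollaries.Diff.Every

/-!
# The narrow class number and the signatures of units

`K` a number field with `r₁` real places, `U = (𝓞 K)ˣ`, `U⁺` the totally positive units.

* `card_narrow_mul_index`: `h⁺ [U : U⁺] = 2 ^ r₁ h`;
* `two_pow_le_index_mul`: `2 ^ ⌈r₁ / 2⌉ ≤ [U : U⁺] · #Cl(K)[2]` (from the theorem of Armitage and
  Fröhlich): at least `2 ^ ⌈r₁ / 2⌉` signatures of units occur if the class number is odd
  (`two_pow_le_index`);
* `odd_card_narrow_iff`: `h⁺` is odd iff `h` is odd and units have all signatures, and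
  `odd_card_narrow_iff_forall`: iff no quadratic extension is unramified at all finite places.
-/

set_option autoImplicit false

noncomputable section

namespace Fermat.Agent.Cor.Diff

open NumberField IsDedekindDomain
open Fermat.Agent.CFT.SUnits (div idealOf idealOf_div idealOf_zero idealOf_injective)
open scoped nonZeroDivisors

section Formula

variable {K : Type*} [Field K] [NumberField K]

/-- the number of real embeddings is the number of real places -/
theorem card_real_embeddings_eq : Fintype.card (K →+* ℝ) = InfinitePlace.nrRealPlaces K := by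
  classical
  refine le_antisymm HM.card_real_le ?_
  let f : {w : InfinitePlace K // w.IsReal} → (K →+* ℝ) := fun w =>
    InfinitePlace.embedding_of_isReal w.2
  refine Fintype.card_le_of_injective f fun w w' h =>
    Subtype.ext (InfinitePlace.ext _ _ fun x => ?_)
  rw [← InfinitePlace.norm_embedding_of_isReal w.2, ← InfinitePlace.norm_embedding_of_isReal w'.2]
  exact congrArg (fun g : K →+* ℝ => ‖g x‖) h

/-- all signatures occur: `[Kˣ : totally positive elements] = 2 ^ r₁` -/
theorem index_totPos : (totPos K).index = 2 ^ InfinitePlace.nrRealPlaces K := by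
  classical
  let f : Kˣ →* ((K →+* ℝ) → Multiplicative (ZMod 2)) :=
    { toFun := fun x σ => Multiplicative.ofAdd (HM.sg σ x)
      map_one' := by
        funext σ
        change Multiplicative.ofAdd (HM.sg σ 1) = 1
        rw [HM.sg_one]
        rfl
      map_mul' := fun x y => by
        funext σ
        change Multiplicative.ofAdd (HM.sg σ (x * y)) = _
        rw [HM.sg_mul]
        rfl }
  have hf : f.ker = totPos K := by
    ext x
    rw [MonoidHom.mem_ker, mem_totPos]
    constructor
    · intro h σ
      exact HM.sg_eq_zero_iff.mp (congrFun h σ)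
    · intro h
      funext σ
      exact HM.sg_eq_zero_iff.mpr (h σ)
  have hsurj : Function.Surjective f := by
    intro s
    obtain ⟨z, -, hz⟩ := HM.exists_sign_locPow (HM.approxStmt K) ∅ (fun _ => 1)
      (fun σ => s σ ≠ 1)
    refine ⟨z, funext fun σ => ?_⟩
    have key : ∀ t u : Multiplicative (ZMod 2), (t ≠ 1 ↔ u ≠ 1) → t = u := by decide
    apply key
    rw [← hz σ, ← HM.sg_eq_one_iff]
    have h3 : ∀ t : ZMod 2, (Multiplicative.ofAdd t ≠ 1 ↔ t = 1) := by decide
    exact h3 _
  rw [← hf, Subgroup.index_ker, MonoidHom.range_eq_top.mpr hsurj, Subgroup.card_top, Nat.card_pi,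
    Finset.prod_const, Finset.card_univ, card_real_embeddings_eq]
  congr 1
  exact Nat.card_zmod 2

variable (K) in
/-- the totally positive units -/
def posUnits : Subgroup (𝓞 K)ˣ := (totPos K).comap (Units.map (algebraMap (𝓞 K) K).toMonoidHom)

omit [NumberField K] in
theorem mem_posUnits {u : (𝓞 K)ˣ} : u ∈ posUnits K ↔ ∀ σ : K →+* ℝ, 0 < σ (u : K) := Iff.rfl

theorem toPrincipalIdeal_eq_one_iff (x : Kˣ) : toPrincipalIdeal (𝓞 K) K x = 1 ↔
    x ∈ (Units.map (algebraMap (𝓞 K) K).toMonoidHom).range := by
  rw [← idealOf_div, ← idealOf_zero K (R := 𝓞 K), (idealOf_injective K).eq_iff,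
    Fermat.Agent.CFT.SUnits.div_eq_zero_iff]
  exact Iff.rfl

theorem ker_ncl0 : (ncl0 (K := K)).ker =
    (Units.map (algebraMap (𝓞 K) K).toMonoidHom).range ⊔ totPos K := by
  apply le_antisymm
  · intro x hx
    obtain ⟨y, hy, hxy⟩ := (nmk_eq_one_iff _).mp hx
    have h1 : toPrincipalIdeal (𝓞 K) K (x / y) = 1 := by rw [map_div, hxy, div_self']
    rw [toPrincipalIdeal_eq_one_iff] at h1
    have h2 : x = x / y * y := by rw [div_mul_cancel]
    rw [h2]
    exact Subgroup.mul_mem_sup h1 hy
  · rw [sup_le_iff]
    refine ⟨?_, fun x hx => ncl0_eq_one hx⟩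
    rintro _ ⟨u, rfl⟩
    rw [MonoidHom.mem_ker, ncl0, MonoidHom.comp_apply]
    have h1 : toPrincipalIdeal (𝓞 K) K (Units.map (algebraMap (𝓞 K) K).toMonoidHom u) = 1 := by
      rw [toPrincipalIdeal_eq_one_iff]
      exact ⟨u, rfl⟩
    rw [h1, map_one]

theorem ker_toClass : (toClass K).ker = (ncl0 (K := K)).range := by
  refine le_antisymm ker_toClass_le ?_
  rintro _ ⟨x, rfl⟩
  exact mk_toPrincipalIdeal x

/-- **The order of the narrow class group**: `h⁺ [U : U⁺] = 2 ^ r₁ h`. -/
theorem card_narrow_mul_index :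
    Nat.card (NarrowClassGroup K) * (posUnits K).index =
      2 ^ InfinitePlace.nrRealPlaces K * classNumber K := by
  have h1 : Nat.card (NarrowClassGroup K) =
      Nat.card (ClassGroup (𝓞 K)) * Nat.card (toClass K).ker := by
    rw [(toClass K).ker.card_eq_card_quotient_mul_card_subgroup,
      Nat.card_congr (QuotientGroup.quotientKerEquivOfSurjective _ toClass_surjective).toEquiv]
  have h2 : Nat.card (toClass K).ker = (ncl0 (K := K)).ker.index := by
    rw [ker_toClass, Subgroup.index_ker]
  have h3 : (posUnits K).index =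
      (totPos K).relIndex (Units.map (algebraMap (𝓞 K) K).toMonoidHom).range :=
    Subgroup.index_comap _ _
  have h4 : (totPos K).relIndex ((Units.map (algebraMap (𝓞 K) K).toMonoidHom).range ⊔ totPos K) *
      ((Units.map (algebraMap (𝓞 K) K).toMonoidHom).range ⊔ totPos K).index = (totPos K).index :=
    Subgroup.relIndex_mul_index le_sup_right
  rw [Subgroup.relIndex_sup_right, index_totPos] at h4
  rw [h1, h2, ker_ncl0, h3, ← h4, classNumber, ← Nat.card_eq_fintype_card]
  ring

theorem card_ker_mul_index :
    Nat.card (toClass K).ker * (posUnits K).index = 2 ^ InfinitePlace.nrRealPlaces K := by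
  have h1 : Nat.card (NarrowClassGroup K) =
      Nat.card (ClassGroup (𝓞 K)) * Nat.card (toClass K).ker := by
    rw [(toClass K).ker.card_eq_card_quotient_mul_card_subgroup,
      Nat.card_congr (QuotientGroup.quotientKerEquivOfSurjective _ toClass_surjective).toEquiv]
  have h2 := card_narrow_mul_index (K := K)
  rw [h1, classNumber, ← Nat.card_eq_fintype_card, mul_assoc, mul_comm (2 ^ _)] at h2
  exact Nat.eq_of_mul_eq_mul_left Nat.card_pos h2

end Formula

section Units

variable {K : Type} [Field K] [NumberField K]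

theorem card_ker_toClass_le : Nat.card (toClass K).ker ≤
    Nat.card {c : NarrowClassGroup K // c ^ 2 = 1} := by
  let f : (toClass K).ker → {c : NarrowClassGroup K // c ^ 2 = 1} := fun c => ⟨c.1, by
    obtain ⟨x, hx⟩ := ker_toClass_le c.2
    rw [← hx, ← map_pow]
    apply ncl0_eq_one
    intro σ
    rw [Units.val_pow_eq_pow_val, map_pow]
    have : σ (x : K) ≠ 0 := (map_ne_zero σ).mpr x.ne_zero
    positivity⟩
  refine Nat.card_le_card_of_injective f fun c d h => ?_
  exact Subtype.ext (congrArg (fun z : {c : NarrowClassGroup K // c ^ 2 = 1} => z.1) h)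

/-- **Signatures of units** (Armitage, Fröhlich): `2 ^ ⌈r₁ / 2⌉ ≤ [U : U⁺] · #Cl(K)[2]`. -/
theorem two_pow_le_index_mul (K : Type) [Field K] [NumberField K] :
    2 ^ ((InfinitePlace.nrRealPlaces K + 1) / 2) ≤
      (posUnits K).index * Nat.card {c : ClassGroup (𝓞 K) // c ^ 2 = 1} := by
  have h1 := card_ker_mul_index (K := K)
  have h2 := card_ker_toClass_le.trans (armitage_froehlich K)
  set r := InfinitePlace.nrRealPlaces K
  have h3 : 2 ^ r = 2 ^ (r / 2) * 2 ^ ((r + 1) / 2) := by
    rw [← pow_add]
    congr 1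
    omega
  refine Nat.le_of_mul_le_mul_left (?_ : 2 ^ (r / 2) * _ ≤ 2 ^ (r / 2) * _) (by positivity)
  rw [← h3, ← h1]
  calc Nat.card (toClass K).ker * (posUnits K).index
      ≤ (2 ^ (r / 2) * Nat.card {c : ClassGroup (𝓞 K) // c ^ 2 = 1}) * (posUnits K).index :=
        Nat.mul_le_mul_right _ h2
    _ = _ := by ring

/-- in a finite abelian group of odd order only the unit element is killed by two -/
theorem card_two_torsion_of_odd {G : Type*} [CommGroup G] [Finite G] (h : Odd (Nat.card G)) :
    Nat.card {c : G // c ^ 2 = 1} = 1 := by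
  rw [Nat.card_eq_one_iff_unique]
  refine ⟨⟨?_⟩, ⟨⟨1, one_pow 2⟩⟩⟩
  have key : ∀ c : {c : G // c ^ 2 = 1}, c.1 = 1 := by
    rintro ⟨c, hc⟩
    have h1 : orderOf c ∣ 2 := orderOf_dvd_of_pow_eq_one hc
    have h2 : orderOf c ∣ Nat.card G := orderOf_dvd_natCard c
    have h3 : Nat.Coprime 2 (Nat.card G) := Nat.coprime_two_left.mpr h
    exact orderOf_eq_one_iff.mp (Nat.eq_one_of_dvd_coprimes h3 h1 h2)
  exact fun a b => Subtype.ext ((key a).trans (key b).symm)

/-- **Signatures of units**, odd class number: at least `2 ^ ⌈r₁ / 2⌉` signatures occur. -/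
theorem two_pow_le_index (h : Odd (classNumber K)) :
    2 ^ ((InfinitePlace.nrRealPlaces K + 1) / 2) ≤ (posUnits K).index := by
  have h1 := two_pow_le_index_mul K
  rw [classNumber, ← Nat.card_eq_fintype_card] at h
  rwa [card_two_torsion_of_odd h, mul_one] at h1

/-- `h⁺` is odd iff `h` is odd and all signatures of units occur. -/
theorem odd_card_narrow_iff : Odd (Nat.card (NarrowClassGroup K)) ↔
    Odd (classNumber K) ∧ (posUnits K).index = 2 ^ InfinitePlace.nrRealPlaces K := by
  have h1 := card_narrow_mul_index (K := K)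
  have h2 := card_ker_mul_index (K := K)
  constructor
  · intro h
    have h3 : Nat.card (toClass K).ker ∣ Nat.card (NarrowClassGroup K) :=
      Subgroup.card_subgroup_dvd_card _
    have h4 : Nat.card (toClass K).ker ∣ 2 ^ InfinitePlace.nrRealPlaces K := ⟨_, h2.symm⟩
    have h5 : Nat.card (toClass K).ker = 1 :=
      Nat.eq_one_of_dvd_coprimes (Nat.Coprime.pow_left _ (Nat.coprime_two_left.mpr h)) h4 h3
    rw [h5, one_mul] at h2
    rw [h2, mul_comm] at h1
    have h6 := Nat.eq_of_mul_eq_mul_left (by positivity) h1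
    exact ⟨h6 ▸ h, h2⟩
  · rintro ⟨h, h3⟩
    rw [h3, mul_comm] at h1
    have h6 := Nat.eq_of_mul_eq_mul_left (by positivity) h1
    rwa [h6]

/-- The class number is odd and all signatures of units occur iff no quadratic extension of `K` is
unramified at all finite places. -/
theorem odd_and_index_iff :
    (Odd (classNumber K) ∧ (posUnits K).index = 2 ^ InfinitePlace.nrRealPlaces K) ↔
      ¬ ∃ (L : Type) (_ : Field L) (_ : NumberField L) (_ : Algebra K L), IsGalois K L ∧
        Module.finrank K L = 2 ∧
        ∀ w : HeightOneSpectrum (𝓞 L), Algebra.IsUnramifiedAt (𝓞 K) w.asIdeal := by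
  rw [← odd_card_narrow_iff, ← even_card_narrow_iff, Nat.not_even_iff_odd]

end Units

end Fermat.Agent.Cor.Diff

end
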