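import Fermat.Agent.Corollaries.Diff.QuadStep

/-!
# Odd narrow class numbers in Galois extensions of 2-power degree

`K / F` Galois of degree `2 ^ n`, the narrow class number of `F` odd, `K / F` unramified at all
finite places outside one place `v₀` of `F`: the narrow class number of `K` is odd, all signatures of
units of `K` occur (`odd_card_narrow_of_two_power`, with `odd_card_narrow_iff`).
-/

set_option autoImplicit false

noncomputable section

namespace Fermat.Agent.Cor.Diff

open NumberField IsDedekindDomain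
open Fermat.Agent.CFT.Places (conj conj_one below_conj exists_below_eq)
open Fermat.Agent.CFT.Global2
open Fermat.Agent.LT.NV (edeg fdeg edeg_ne_zero)

section Tower

variable {F M K : Type*} [Field F] [NumberField F] [Field M] [NumberField M] [Field K]
  [NumberField K] [Algebra F M] [Algebra M K] [Algebra F K] [IsScalarTower F M K]

omit [NumberField F] [NumberField M] [NumberField K] in
theorem under_under (w : HeightOneSpectrum (𝓞 K)) :
    (w.under (𝓞 M)).under (𝓞 F) = w.under (𝓞 F) := by
  apply HeightOneSpectrum.ext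
  change (w.asIdeal.comap (algebraMap (𝓞 M) (𝓞 K))).comap (algebraMap (𝓞 F) (𝓞 M)) =
    w.asIdeal.comap (algebraMap (𝓞 F) (𝓞 K))
  rw [Ideal.comap_comap, ← IsScalarTower.algebraMap_eq]

theorem edeg_tower (w : HeightOneSpectrum (𝓞 K)) :
    edeg F w = edeg F (w.under (𝓞 M)) * edeg M w := by
  have h0 : (w.under (𝓞 M)).asIdeal.LiesOver ((w.under (𝓞 M)).under (𝓞 F)).asIdeal := by
    infer_instance
  rw [under_under] at h0
  have h1 : w.asIdeal.LiesOver (w.under (𝓞 M)).asIdeal := by infer_instance
  rw [edeg, edeg, edeg, under_under]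
  exact Ideal.ramificationIdx'_algebra_tower' (w.under (𝓞 F)).asIdeal (w.under (𝓞 M)).asIdeal
    w.asIdeal

end Tower

/-- **Odd narrow class numbers** in Galois extensions of degree `2 ^ (n + 1)`. -/
theorem odd_card_narrow_of_two_power (n : ℕ) : ∀ (F K : Type) [Field F] [NumberField F] [Field K]
    [NumberField K] [Algebra F K] [IsGalois F K], Module.finrank F K = 2 ^ (n + 1) →
    Odd (Nat.card (NarrowClassGroup F)) → ∀ v₀ : HeightOneSpectrum (𝓞 F),
    (∀ w : HeightOneSpectrum (𝓞 K), w.under (𝓞 F) ≠ v₀ →
      Algebra.IsUnramifiedAt (𝓞 F) w.asIdeal) → Odd (Nat.card (NarrowClassGroup K)) := by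
  induction n with
  | zero =>
    intro F K _ _ _ _ _ _ h2 hF v₀ hv
    exact odd_card_narrow_of_quadratic (by rw [h2, zero_add, pow_one]) hF v₀ hv
  | succ n ih =>
    intro F K _ _ _ _ _ _ hn hF v₀ hv
    have : Fact (Nat.Prime 2) := ⟨Nat.prime_two⟩
    have hG : Nat.card Gal(K/F) = 2 ^ (n + 1 + 1) := by rw [IsGalois.card_aut_eq_finrank, hn]
    obtain ⟨H, hH⟩ := Sylow.exists_subgroup_card_pow_prime (G := Gal(K/F)) 2 (n := n + 1)
      (by rw [hG]; exact pow_dvd_pow 2 (Nat.le_succ _))
    have hidx : H.index = 2 := by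
      have h1 := H.index_mul_card
      rw [hH, hG, pow_succ 2 (n + 1), mul_comm] at h1
      exact Nat.eq_of_mul_eq_mul_left (by positivity) h1
    have : H.Normal := Subgroup.normal_of_index_eq_two hidx
    let M : IntermediateField F K := IntermediateField.fixedField H
    have hMK : Module.finrank M K = 2 ^ (n + 1) := by
      rw [← hH]
      exact IntermediateField.finrank_fixedField_eq_card H
    have hFM : Module.finrank F M = 2 := by
      have h1 := Module.finrank_mul_finrank F M K
      rw [hMK, hn, pow_succ 2 (n + 1), mul_comm] at h1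
      exact Nat.eq_of_mul_eq_mul_left (by positivity) h1
    have : IsGalois F M := IsGalois.of_fixedField_normal_subgroup H
    have : NumberField M := NumberField.of_intermediateField M
    have hunr : ∀ w : HeightOneSpectrum (𝓞 K), w.under (𝓞 F) ≠ v₀ →
        edeg F (w.under (𝓞 M)) = 1 ∧ edeg M w = 1 := by
      intro w hw
      have h1 : edeg F w = 1 := (isUnramifiedAt_iff w).mp (hv w hw)
      rw [edeg_tower (M := M)] at h1
      exact ⟨Nat.eq_one_of_mul_eq_one_right h1, Nat.eq_one_of_mul_eq_one_left h1⟩
    have hvM : ∀ w' : HeightOneSpectrum (𝓞 M), w'.under (𝓞 F) ≠ v₀ →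
        Algebra.IsUnramifiedAt (𝓞 F) w'.asIdeal := by
      intro w' hw'
      obtain ⟨w, rfl⟩ := exists_below_eq K w'
      rw [under_under] at hw'
      exact (isUnramifiedAt_iff _).mpr (hunr w hw').1
    have hM : Odd (Nat.card (NarrowClassGroup M)) := odd_card_narrow_of_quadratic hFM hF v₀ hvM
    -- the place of `M` above `v₀`
    obtain ⟨v₁, hv₁⟩ : ∃ v₁ : HeightOneSpectrum (𝓞 M), edeg F v₁ ≠ 1 := by
      by_contra hcon
      push Not at hcon
      exact Nat.not_even_iff_odd.mpr hF (even_card_narrow_iff.mpr ⟨M, inferInstance, inferInstance,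
        inferInstance, inferInstance, hFM, fun w => (isUnramifiedAt_iff w).mpr (hcon w)⟩)
    have hv₁' : v₁.under (𝓞 F) = v₀ := by
      by_contra h
      exact hv₁ ((isUnramifiedAt_iff v₁).mp (hvM v₁ h))
    have hGM : Nat.card Gal(M/F) = 2 := by rw [IsGalois.card_aut_eq_finrank, hFM]
    have : Nontrivial Gal(M/F) := by
      by_contra h
      rw [not_nontrivial_iff_subsingleton] at h
      have := Nat.card_of_subsingleton (1 : Gal(M/F))
      omega
    obtain ⟨τ, hτ⟩ := exists_ne (1 : Gal(M/F))
    have hconj : conj τ v₁ = v₁ := by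
      by_contra hw
      exact hv₁ (edeg_fdeg_of_conj_ne hFM hτ hw).1
    refine ih M K hMK hM v₁ fun w hw => ?_
    refine (isUnramifiedAt_iff w).mpr (hunr w fun h => hw ?_).2
    have h3 : (w.under (𝓞 M)).under (𝓞 F) = v₁.under (𝓞 F) := by rw [under_under, h, hv₁']
    rcases HM.eq_or_eq_conj hFM hτ h3 with h4 | h4
    · exact h4
    · rw [h4, hconj]

end Fermat.Agent.Cor.Diff

end
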